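import Mathlib

/-!
An abelian group with a local chart in which addition is `C²` receives a homomorphism from the
vector space of the chart (the logarithm is `a ↦ lim 2ⁿ aₙ` with `aₙ` the repeated halves of `a`).
-/

set_option autoImplicit false

noncomputable section

open Filter Topology Metric

namespace FLTAgent.AJ

variable {V : Type*} [NormedAddCommGroup V] [NormedSpace ℝ V] {P : Type*} [AddCommGroup P]

/-- a locally additive map extends to a homomorphism -/
theorem exists_hom_of_local (F : V → P) {r : ℝ} (hr : 0 < r)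
    (hF : ∀ u v : V, ‖u‖ < r → ‖v‖ < r → F (u + v) = F u + F v) :
    ∃ Φ : V →+ P, ∀ v : V, ‖v‖ < r → Φ v = F v := by
  classical
  have htwo : ∀ x : V, ‖x‖ < r → 2 • F ((1 / 2 : ℝ) • x) = F x := by
    intro x hx
    have hh : ‖(1 / 2 : ℝ) • x‖ < r := by
      rw [norm_smul, Real.norm_eq_abs, abs_of_pos (by norm_num : (0 : ℝ) < 1 / 2)]
      linarith [norm_nonneg x]
    rw [two_nsmul, ← hF _ _ hh hh, ← add_smul]
    norm_num
  have hex : ∀ v : V, ∃ n : ℕ, ‖((1 / 2 : ℝ) ^ n) • v‖ < r := by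
    intro v
    have h : Tendsto (fun n : ℕ => ((1 / 2 : ℝ) ^ n) • v) atTop (𝓝 ((0 : ℝ) • v)) :=
      (tendsto_pow_atTop_nhds_zero_of_lt_one (by norm_num) (by norm_num)).smul_const v
    rw [zero_smul] at h
    exact (h.norm.eventually (Iio_mem_nhds (by simpa using hr))).exists
  set G : V → P := fun v => 2 ^ (Nat.find (hex v)) • F (((1 / 2 : ℝ) ^ (Nat.find (hex v))) • v)
    with hG
  have hpow : ∀ (v : V) (n : ℕ), ‖((1 / 2 : ℝ) ^ n) • v‖ < r →
      G v = 2 ^ n • F (((1 / 2 : ℝ) ^ n) • v) := by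
    intro v n hn
    have hle : Nat.find (hex v) ≤ n := Nat.find_le hn
    have hm := Nat.find_spec (hex v)
    simp only [hG]
    generalize Nat.find (hex v) = m at hle hm ⊢
    induction n, hle using Nat.le_induction with
    | base => rfl
    | succ k hk ih =>
      have hk' : ‖((1 / 2 : ℝ) ^ k) • v‖ < r := by
        refine lt_of_le_of_lt ?_ hm
        rw [norm_smul, norm_smul, norm_pow, norm_pow]
        exact mul_le_mul_of_nonneg_right (pow_le_pow_of_le_one (norm_nonneg _)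
          (by norm_num) hk) (norm_nonneg v)
      rw [ih hk', ← htwo _ hk', smul_smul, smul_smul, pow_succ' (1 / 2 : ℝ), pow_succ 2 k,
        mul_comm (1 / 2 : ℝ)]
  have hadd : ∀ u v : V, G (u + v) = G u + G v := by
    intro u v
    have hmono : ∀ (x : V) (n : ℕ), Nat.find (hex x) ≤ n → ‖((1 / 2 : ℝ) ^ n) • x‖ < r := by
      intro x n hn
      refine lt_of_le_of_lt ?_ (Nat.find_spec (hex x))
      rw [norm_smul, norm_smul, norm_pow, norm_pow]
      exact mul_le_mul_of_nonneg_right (pow_le_pow_of_le_one (norm_nonneg _)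
        (by norm_num) hn) (norm_nonneg x)
    set n := Nat.find (hex u) + Nat.find (hex v) + Nat.find (hex (u + v))
    rw [hpow u n (hmono u n (by omega)), hpow v n (hmono v n (by omega)),
      hpow (u + v) n (hmono _ n (by omega)), smul_add,
      hF _ _ (hmono u n (by omega)) (hmono v n (by omega)), nsmul_add]
  refine ⟨AddMonoidHom.mk' G hadd, fun v hv => ?_⟩
  have := hpow v 0 (by simpa using hv)
  simpa using this

variable [FiniteDimensional ℝ V]

theorem exists_quadratic_bound {E : Type*} [NormedAddCommGroup E] [NormedSpace ℝ E]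
    {G : E → V} (hG : ContDiffAt ℝ 2 G 0) (h0 : G 0 = 0) (h1 : fderiv ℝ G 0 = 0) :
    ∃ C > (0 : ℝ), ∀ᶠ p in 𝓝 0, ‖G p‖ ≤ C * ‖p‖ ^ 2 := by
  have hd : ContDiffAt ℝ 1 (fderiv ℝ G) 0 := hG.fderiv_right (by norm_num)
  obtain ⟨K, s, hs, hK⟩ := hd.exists_lipschitzOnWith
  obtain ⟨ε, hε, hball⟩ := Metric.mem_nhds_iff.mp (inter_mem hs
    ((hG.eventually (by simp)).mono fun x hx => hx.differentiableAt (by norm_num)))
  refine ⟨K + 1, by positivity, ?_⟩
  filter_upwards [Metric.ball_mem_nhds (0 : E) hε] with p hp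
  have hsub : closedBall (0 : E) ‖p‖ ⊆ ball 0 ε :=
    closedBall_subset_ball (by simpa [mem_ball_zero_iff] using hp)
  have hb : ∀ x ∈ closedBall (0 : E) ‖p‖, ‖fderiv ℝ G x‖ ≤ (K + 1) * ‖p‖ := by
    intro x hx
    have h := hK.dist_le_mul x (hball (hsub hx)).1 0 (hball (mem_ball_self hε)).1
    rw [h1, dist_zero_right, dist_zero_right] at h
    have hx' : ‖x‖ ≤ ‖p‖ := by simpa using hx
    calc ‖fderiv ℝ G x‖ ≤ K * ‖x‖ := h
      _ ≤ (K + 1) * ‖p‖ := by
        refine mul_le_mul (by simp) hx' (norm_nonneg _) (by positivity)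
  have := (convex_closedBall (0 : E) ‖p‖).norm_image_sub_le_of_norm_fderiv_le
    (fun x hx => (hball (hsub hx)).2) hb (by simp : (0 : E) ∈ closedBall 0 ‖p‖)
    (by simp : p ∈ closedBall 0 ‖p‖)
  simpa [h0, sq, mul_assoc] using this

/-- The logarithm of a local group law. -/
theorem exists_hom (φ : V → P) (h0 : φ 0 = 0) (hinj : ∃ U ∈ 𝓝 (0 : V), Set.InjOn φ U)
    (w : V × V → V) (hw : ContDiffAt ℝ 2 w 0) (hw0 : w 0 = 0)
    (hadd : ∀ᶠ p in 𝓝 (0 : V × V), φ (w p) = φ p.1 + φ p.2) :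
    ∃ Φ : V →+ P, (∀ᶠ v in 𝓝 (0 : V), Φ v = 0 → v = 0) ∧
      ∀ᶠ a in 𝓝 (0 : V), ∃ v : V, ‖v‖ ≤ 1 ∧ Φ v = φ a := by
  classical
  obtain ⟨U, hU, hinj⟩ := hinj
  haveI : CompleteSpace V := FiniteDimensional.complete ℝ V
  have hwt : Tendsto w (𝓝 0) (𝓝 0) := by simpa only [hw0] using hw.continuousAt.tendsto
  -- neutral element
  have hfst : Tendsto (fun a : V => ((a, 0) : V × V)) (𝓝 0) (𝓝 0) :=
    (continuous_id.prodMk continuous_const).tendsto' 0 0 rfl
  have hsnd : Tendsto (fun a : V => ((0, a) : V × V)) (𝓝 0) (𝓝 0) :=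
    (continuous_const.prodMk continuous_id).tendsto' 0 0 rfl
  have hr0 : ∀ᶠ a in 𝓝 (0 : V), w (a, 0) = a := by
    filter_upwards [(hwt.comp hfst).eventually hU, hU, hfst.eventually hadd] with a ha ha' hd
    exact hinj ha ha' (by simpa [h0] using hd)
  have hl0 : ∀ᶠ a in 𝓝 (0 : V), w (0, a) = a := by
    filter_upwards [(hwt.comp hsnd).eventually hU, hU, hsnd.eventually hadd] with a ha ha' hd
    exact hinj ha ha' (by simpa [h0] using hd)
  -- the nonlinear part
  set G : V × V → V := fun p => w p - p.1 - p.2 with hG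
  have hGC : ContDiffAt ℝ 2 G 0 := (hw.sub contDiffAt_fst).sub contDiffAt_snd
  have hG0 : G 0 = 0 := by simp [hG, hw0]
  have hGd : HasFDerivAt G (fderiv ℝ G 0) 0 :=
    (hGC.differentiableAt (by norm_num)).hasFDerivAt
  have hG' : fderiv ℝ G 0 = 0 := by
    refine ContinuousLinearMap.ext fun q => ?_
    have hinl := HasFDerivAt.comp (0 : V) (g := G) (f := fun a : V => ((a, 0) : V × V))
      (f' := ContinuousLinearMap.inl ℝ V V) (show HasFDerivAt G _ ((0 : V), (0 : V)) from hGd)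
      (ContinuousLinearMap.inl ℝ V V).hasFDerivAt
    have hinr := HasFDerivAt.comp (0 : V) (g := G) (f := fun a : V => ((0, a) : V × V))
      (f' := ContinuousLinearMap.inr ℝ V V) (show HasFDerivAt G _ ((0 : V), (0 : V)) from hGd)
      (ContinuousLinearMap.inr ℝ V V).hasFDerivAt
    have e1 := hinl.unique ((hasFDerivAt_const (0 : V) (0 : V)).congr_of_eventuallyEq
      (hr0.mono fun a ha => by simp [hG, ha]))
    have e2 := hinr.unique ((hasFDerivAt_const (0 : V) (0 : V)).congr_of_eventuallyEq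
      (hl0.mono fun a ha => by simp [hG, ha]))
    have h1 := congrArg (fun T : V →L[ℝ] V => T q.1) e1
    have h2 := congrArg (fun T : V →L[ℝ] V => T q.2) e2
    simp only [ContinuousLinearMap.comp_apply, ContinuousLinearMap.inl_apply,
      ContinuousLinearMap.inr_apply, ContinuousLinearMap.zero_apply] at h1 h2
    rw [show q = (q.1, 0) + (0, q.2) by simp, map_add, h1, h2]
    simp
  have hGs : HasStrictFDerivAt G (0 : V × V →L[ℝ] V) 0 := by
    rw [← hG']
    exact hGC.hasStrictFDerivAt (by norm_num)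
  obtain ⟨C, hC, hGb⟩ := exists_quadratic_bound hGC hG0 hG'
  -- doubling
  set D : V → V := fun a => w (a, a) with hD
  have hdiag : Tendsto (fun a : V => ((a, a) : V × V)) (𝓝 0) (𝓝 0) :=
    (continuous_id.prodMk continuous_id).tendsto' 0 0 rfl
  let two : V ≃L[ℝ] V := ContinuousLinearEquiv.smulLeft (Units.mk0 (2 : ℝ) two_ne_zero)
  have hDs : HasStrictFDerivAt D (two : V →L[ℝ] V) 0 := by
    have h1 : HasStrictFDerivAt (fun a : V => G (a, a)) (0 : V →L[ℝ] V) 0 := by
      have hp : HasStrictFDerivAt (fun a : V => ((a, a) : V × V))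
          ((ContinuousLinearMap.id ℝ V).prod (ContinuousLinearMap.id ℝ V)) 0 :=
        (hasStrictFDerivAt_id 0).prodMk (hasStrictFDerivAt_id 0)
      have := HasStrictFDerivAt.comp (0 : V) (g := G) (f := fun a : V => ((a, a) : V × V))
        (show HasStrictFDerivAt G _ ((0 : V), (0 : V)) from hGs) hp
      simpa [Function.comp_def] using this
    have h2 := h1.add ((hasStrictFDerivAt_id (0 : V)).add (hasStrictFDerivAt_id (0 : V)))
    have e : (0 : V →L[ℝ] V) + (ContinuousLinearMap.id ℝ V + ContinuousLinearMap.id ℝ V)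
        = (two : V →L[ℝ] V) := by
      ext a
      simp [two, two_smul]
    rw [e] at h2
    refine h2.congr_of_eventuallyEq (Eventually.of_forall fun a => ?_)
    simp only [hD, hG, Pi.add_apply, id]
    abel
  set hf : V → V := hDs.localInverse D two 0 with hhf
  have hD0 : D 0 = 0 := by simp only [hD]; exact hw0
  have hh0 : hf 0 = 0 := by
    have := hDs.localInverse_apply_image
    rwa [hD0] at this
  have hht : Tendsto hf (𝓝 0) (𝓝 0) := by
    have := hDs.localInverse_tendsto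
    rwa [hD0] at this
  have hDh : ∀ᶠ a in 𝓝 (0 : V), D (hf a) = a := by
    have := hDs.eventually_right_inverse
    rwa [hD0] at this
  have hhD : ∀ᶠ a in 𝓝 (0 : V), hf (D a) = a := hDs.eventually_left_inverse
  -- all conditions on one ball
  have hall : ∀ᶠ a in 𝓝 (0 : V), D (hf a) = a ∧ hf (D a) = a ∧ a ∈ U ∧
      ‖hf a‖ ≤ 1 / (4 * C) ∧ ‖G (hf a, hf a)‖ ≤ C * ‖(hf a, hf a)‖ ^ 2 ∧
      φ (D a) = φ a + φ a := by
    have h1 : ∀ᶠ a in 𝓝 (0 : V), ‖hf a‖ ≤ 1 / (4 * C) :=
      hht.eventually ((continuous_norm.tendsto' 0 0 norm_zero).eventually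
        (Iic_mem_nhds (by positivity)))
    filter_upwards [hDh, hhD, hU, h1, (hdiag.comp hht).eventually hGb, hdiag.eventually hadd]
      with a h1 h2 h3 h4 h5 h6
    exact ⟨h1, h2, h3, h4, h5, h6⟩
  obtain ⟨δ₁, hδ₁, hball⟩ := Metric.eventually_nhds_iff.mp hall
  -- halving estimates
  have half : ∀ a : V, ‖a‖ < δ₁ → ‖hf a‖ ≤ 4 / 7 * ‖a‖ ∧
      ‖(2 : ℝ) • hf a - a‖ ≤ C * ‖a‖ ^ 2 := by
    intro a ha
    obtain ⟨h1, -, -, h4, h5, -⟩ := hball (by simpa using ha)
    have e : (2 : ℝ) • hf a - a = -G (hf a, hf a) := by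
      conv_lhs => arg 2; rw [← h1]
      simp only [hD, hG, two_smul]
      abel
    have hn : ‖(hf a, hf a)‖ = ‖hf a‖ := by simp [Prod.norm_def]
    rw [hn] at h5
    have hq : C * ‖hf a‖ ^ 2 ≤ 1 / 4 * ‖hf a‖ := by
      have : C * ‖hf a‖ ≤ 1 / 4 := by
        calc C * ‖hf a‖ ≤ C * (1 / (4 * C)) := mul_le_mul_of_nonneg_left h4 hC.le
          _ = 1 / 4 := by field_simp
      calc C * ‖hf a‖ ^ 2 = C * ‖hf a‖ * ‖hf a‖ := by ring
        _ ≤ 1 / 4 * ‖hf a‖ := mul_le_mul_of_nonneg_right this (norm_nonneg _)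
    have h47 : ‖hf a‖ ≤ 4 / 7 * ‖a‖ := by
      have h2 : ‖(2 : ℝ) • hf a‖ = 2 * ‖hf a‖ := by simp [norm_smul]
      have h3 := norm_le_norm_add_norm_sub' ((2 : ℝ) • hf a) a
      rw [h2, e, norm_neg] at h3
      linarith
    refine ⟨h47, ?_⟩
    rw [e, norm_neg]
    refine h5.trans (mul_le_mul_of_nonneg_left ?_ hC.le)
    exact pow_le_pow_left₀ (norm_nonneg _) (h47.trans (by linarith [norm_nonneg a])) 2
  have iter : ∀ a : V, ‖a‖ < δ₁ → ∀ n : ℕ, ‖hf^[n] a‖ ≤ (4 / 7) ^ n * ‖a‖ ∧ ‖hf^[n] a‖ < δ₁ := by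
    intro a ha n
    induction n with
    | zero => simpa using ha
    | succ n ih =>
      rw [Function.iterate_succ_apply']
      have h := (half _ ih.2).1
      refine ⟨h.trans ?_, lt_of_le_of_lt h (by nlinarith [norm_nonneg (hf^[n] a), ih.2])⟩
      rw [pow_succ', mul_assoc]
      exact mul_le_mul_of_nonneg_left ih.1 (by norm_num)
  -- the logarithm
  set u : V → ℕ → V := fun a n => (2 : ℝ) ^ n • hf^[n] a with hu
  have step : ∀ a : V, ‖a‖ < δ₁ → ∀ n : ℕ,
      dist (u a n) (u a (n + 1)) ≤ C * ‖a‖ ^ 2 * (32 / 49) ^ n := by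
    intro a ha n
    obtain ⟨hn, hn'⟩ := iter a ha n
    have e : u a (n + 1) - u a n = (2 : ℝ) ^ n • ((2 : ℝ) • hf (hf^[n] a) - hf^[n] a) := by
      simp only [hu, Function.iterate_succ_apply', smul_sub, smul_smul, pow_succ]
    rw [dist_comm, dist_eq_norm, e, norm_smul, norm_pow]
    calc ‖(2 : ℝ)‖ ^ n * ‖(2 : ℝ) • hf (hf^[n] a) - hf^[n] a‖
        ≤ 2 ^ n * (C * ((4 / 7) ^ n * ‖a‖) ^ 2) := by
          rw [Real.norm_two]
          refine mul_le_mul_of_nonneg_left ((half _ hn').2.trans ?_) (by positivity)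
          exact mul_le_mul_of_nonneg_left (pow_le_pow_left₀ (norm_nonneg _) hn 2) hC.le
      _ = C * ‖a‖ ^ 2 * (32 / 49) ^ n := by
          rw [mul_pow, ← pow_mul, mul_comm n 2, pow_mul, show ((32 : ℝ) / 49) = 2 * (4 / 7) ^ 2
            by norm_num, mul_pow]
          ring
  set L : V → V := fun a => limUnder atTop (u a) with hL
  have hlim : ∀ a : V, ‖a‖ < δ₁ → Tendsto (u a) atTop (𝓝 (L a)) := fun a ha =>
    (cauchySeq_of_le_geometric (32 / 49) _ (by norm_num) (step a ha)).tendsto_limUnder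
  have hLb : ∀ a : V, ‖a‖ < δ₁ → ‖L a - a‖ ≤ 3 * C * ‖a‖ ^ 2 := by
    intro a ha
    have h := dist_le_of_le_geometric_of_tendsto₀ (32 / 49) _ (by norm_num) (step a ha) (hlim a ha)
    rw [show u a 0 = a by simp [hu], dist_comm, dist_eq_norm] at h
    refine h.trans ?_
    rw [div_le_iff₀ (by norm_num)]
    nlinarith [mul_nonneg hC.le (sq_nonneg ‖a‖)]
  -- additivity
  have hall2 : ∀ᶠ p in 𝓝 (0 : V × V), ‖p.1‖ < δ₁ ∧ ‖p.2‖ < δ₁ ∧ ‖w p‖ < δ₁ ∧
      φ (w p) = φ p.1 + φ p.2 ∧ ‖G p‖ ≤ C * ‖p‖ ^ 2 ∧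
      D (w p) ∈ U ∧ hf (D (w p)) = w p := by
    have hn : ∀ᶠ a in 𝓝 (0 : V), ‖a‖ < δ₁ :=
      (continuous_norm.tendsto' 0 0 norm_zero).eventually (Iio_mem_nhds hδ₁)
    have hDt : Tendsto D (𝓝 0) (𝓝 0) := hwt.comp hdiag
    filter_upwards [(continuous_fst.tendsto' 0 0 rfl).eventually hn,
      (continuous_snd.tendsto' 0 0 rfl).eventually hn, hwt.eventually hn, hadd, hGb,
      (hDt.comp hwt).eventually hU, hwt.eventually hhD] with p h1 h2 h3 h4 h5 h6 h7
    exact ⟨h1, h2, h3, h4, h5, h6, h7⟩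
  obtain ⟨δ₂, hδ₂, hball2⟩ := Metric.eventually_nhds_iff.mp hall2
  set δ := min δ₁ δ₂ with hδ
  have hδpos : 0 < δ := lt_min hδ₁ hδ₂
  have hpair : ∀ a b : V, ‖a‖ < δ → ‖b‖ < δ → dist (a, b) (0 : V × V) < δ₂ := fun a b ha hb => by
    rw [dist_zero_right, Prod.norm_def]
    exact max_lt (ha.trans_le (min_le_right _ _)) (hb.trans_le (min_le_right _ _))
  have hhw : ∀ a b : V, ‖a‖ < δ → ‖b‖ < δ → hf (w (a, b)) = w (hf a, hf b) := by
    intro a b ha hb
    have hlt : ∀ x : V, ‖x‖ < δ → ‖hf x‖ < δ := fun x hx =>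
      lt_of_le_of_lt (half x (hx.trans_le (min_le_left _ _))).1 (by linarith [norm_nonneg x])
    obtain ⟨-, -, h3, h4, -, -, -⟩ := hball2 (hpair a b ha hb)
    obtain ⟨-, -, h3', h4', -, h6', h7'⟩ := hball2 (hpair _ _ (hlt a ha) (hlt b hb))
    obtain ⟨ea, -, -, -, -, -⟩ := hball (show dist a 0 < δ₁ by
      simpa using ha.trans_le (min_le_left _ _))
    obtain ⟨eb, -, -, -, -, -⟩ := hball (show dist b 0 < δ₁ by
      simpa using hb.trans_le (min_le_left _ _))
    obtain ⟨-, -, hUab, -, -, -⟩ := hball (show dist (w (a, b)) 0 < δ₁ by simpa using h3)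
    obtain ⟨-, -, -, -, -, dha⟩ := hball (show dist (hf a) 0 < δ₁ by
      simpa using (hlt a ha).trans_le (min_le_left _ _))
    obtain ⟨-, -, -, -, -, dhb⟩ := hball (show dist (hf b) 0 < δ₁ by
      simpa using (hlt b hb).trans_le (min_le_left _ _))
    obtain ⟨-, -, -, -, -, dw⟩ := hball (show dist (w (hf a, hf b)) 0 < δ₁ by simpa using h3')
    rw [ea] at dha
    rw [eb] at dhb
    have key : D (w (hf a, hf b)) = w (a, b) := by
      refine hinj h6' hUab ?_
      rw [dw, h4, h4', dha, dhb]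
      abel
    rw [← key, h7']
  have hadd' : ∀ a b : V, ‖a‖ < δ → ‖b‖ < δ → L (w (a, b)) = L a + L b := by
    intro a b ha hb
    obtain ⟨-, -, h3, -, -, -, -⟩ := hball2 (hpair a b ha hb)
    have hiter : ∀ n, hf^[n] (w (a, b)) = w (hf^[n] a, hf^[n] b) ∧
        ‖hf^[n] a‖ < δ ∧ ‖hf^[n] b‖ < δ := by
      intro n
      induction n with
      | zero => exact ⟨rfl, ha, hb⟩
      | succ n ih =>
        simp only [Function.iterate_succ_apply']
        refine ⟨by rw [ih.1, hhw _ _ ih.2.1 ih.2.2], ?_, ?_⟩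
        · exact lt_of_le_of_lt (half _ (ih.2.1.trans_le (min_le_left _ _))).1
            (by linarith [norm_nonneg (hf^[n] a), ih.2.1])
        · exact lt_of_le_of_lt (half _ (ih.2.2.trans_le (min_le_left _ _))).1
            (by linarith [norm_nonneg (hf^[n] b), ih.2.2])
    have ha' := ha.trans_le (min_le_left _ _)
    have hb' := hb.trans_le (min_le_left _ _)
    refine tendsto_nhds_unique (hlim _ h3) ?_
    have e : u (w (a, b)) = fun n =>
        (u a n + u b n) + (2 : ℝ) ^ n • G (hf^[n] a, hf^[n] b) := by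
      funext n
      simp only [hu, (hiter n).1, hG, ← smul_add]
      congr 1
      abel
    rw [e, ← add_zero (L a + L b)]
    refine ((hlim a ha').add (hlim b hb')).add ?_
    refine squeeze_zero_norm (a := fun n => C * (‖a‖ + ‖b‖) ^ 2 * (32 / 49) ^ n) (fun n => ?_) ?_
    · obtain ⟨-, -, -, -, h5, -, -⟩ := hball2 (hpair _ _ (hiter n).2.1 (hiter n).2.2)
      rw [norm_smul, norm_pow, Real.norm_two]
      calc (2 : ℝ) ^ n * ‖G (hf^[n] a, hf^[n] b)‖
          ≤ 2 ^ n * (C * ((4 / 7) ^ n * (‖a‖ + ‖b‖)) ^ 2) := by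
            refine mul_le_mul_of_nonneg_left (h5.trans (mul_le_mul_of_nonneg_left
              (pow_le_pow_left₀ (norm_nonneg _) ?_ 2) hC.le)) (by positivity)
            rw [Prod.norm_def, mul_add]
            have h1 := (iter a ha' n).1
            have h2 := (iter b hb' n).1
            have h1' : 0 ≤ (4 / 7 : ℝ) ^ n * ‖a‖ := by positivity
            have h2' : 0 ≤ (4 / 7 : ℝ) ^ n * ‖b‖ := by positivity
            exact max_le (by linarith) (by linarith)
        _ = C * (‖a‖ + ‖b‖) ^ 2 * (32 / 49) ^ n := by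
            rw [mul_pow, ← pow_mul, mul_comm n 2, pow_mul, show ((32 : ℝ) / 49) = 2 * (4 / 7) ^ 2
              by norm_num, mul_pow]
            ring
    · simpa using (tendsto_pow_atTop_nhds_zero_of_lt_one (by norm_num : (0 : ℝ) ≤ 32 / 49)
        (by norm_num)).const_mul (C * (‖a‖ + ‖b‖) ^ 2)
  -- the logarithm is strictly differentiable at the origin
  have hL0 : L 0 = 0 := by
    have := hLb 0 (by simpa using hδ₁)
    simpa using this
  set Sh : V × V → V × V := fun p => (w p, p.2) with hSh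
  let shear : (V × V) ≃L[ℝ] V × V :=
    LinearEquiv.toContinuousLinearEquiv
      { toFun := fun p => (p.1 + p.2, p.2)
        invFun := fun p => (p.1 - p.2, p.2)
        left_inv := fun p => by simp
        right_inv := fun p => by simp
        map_add' := fun p q => by ext <;> simp [add_add_add_comm]
        map_smul' := fun c p => by ext <;> simp }
  have hShs : HasStrictFDerivAt Sh (shear : V × V →L[ℝ] V × V) 0 := by
    have h2 : HasStrictFDerivAt w
        ((0 : V × V →L[ℝ] V) + (ContinuousLinearMap.fst ℝ V V + ContinuousLinearMap.snd ℝ V V)) 0 := by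
      refine (hGs.add (hasStrictFDerivAt_fst.add hasStrictFDerivAt_snd)).congr_of_eventuallyEq
        (Eventually.of_forall fun p => ?_)
      simp only [hG, Pi.add_apply]
      abel
    refine (h2.prodMk hasStrictFDerivAt_snd).congr_fderiv ?_
    ext p <;> simp [shear]
  set inv2 := hShs.localInverse Sh shear 0 with hinv2
  have hSh0 : Sh 0 = 0 := by simp [hSh, hw0]
  have hinvt : Tendsto inv2 (𝓝 0) (𝓝 0) := by
    have := hShs.localInverse_tendsto
    rwa [hSh0] at this
  have hinvr : ∀ᶠ p in 𝓝 (0 : V × V), Sh (inv2 p) = p := by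
    have := hShs.eventually_right_inverse
    rwa [hSh0] at this
  have hLs : HasStrictFDerivAt L ((ContinuousLinearEquiv.refl ℝ V : V ≃L[ℝ] V) : V →L[ℝ] V) 0 := by
    rw [hasStrictFDerivAt_iff_isLittleO]
    refine Asymptotics.IsLittleO.of_bound fun ε hε => ?_
    set η := min (ε / 4) (1 / 2) with hη
    have hη0 : 0 < η := lt_min (by positivity) (by norm_num)
    have hGstrict := (hasStrictFDerivAt_iff_isLittleO.mp hGs).def hη0
    have hq : Tendsto (fun p : V × V => ((inv2 p, ((0, p.2) : V × V)) : (V × V) × V × V))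
        (𝓝 0) (𝓝 (0, 0)) :=
      hinvt.prodMk_nhds ((continuous_const.prodMk continuous_snd).tendsto' 0 0 rfl)
    have hsmall : ∀ᶠ p in 𝓝 (0 : V × V), ‖(inv2 p).1‖ < min δ (η / (3 * C + 1)) ∧ ‖p.2‖ < δ := by
      refine Eventually.and ?_ ?_
      · exact (((continuous_norm.comp continuous_fst).tendsto' (0 : V × V) 0
          (by simp)).comp hinvt).eventually (Iio_mem_nhds (lt_min hδpos (by positivity)))
      · exact ((continuous_norm.comp continuous_snd).tendsto' (0 : V × V) 0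
          (by simp)).eventually (Iio_mem_nhds hδpos)
    rw [← Prod.zero_eq_mk]
    filter_upwards [hinvr, hsmall, hq.eventually hGstrict,
      (continuous_snd.tendsto' (0 : V × V) 0 rfl).eventually hl0] with p hp hs hg hl
    obtain ⟨hc, hb⟩ := hs
    set c := (inv2 p).1 with hcdef
    have h2 : (inv2 p).2 = p.2 := by
      have := congrArg Prod.snd hp
      exact this
    have hwp : w (c, p.2) = p.1 := by
      have := congrArg Prod.fst hp
      simp only [hSh] at this
      rw [← this, hcdef, ← h2]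
    have hcδ := hc.trans_le (min_le_left _ _)
    have hLp : L p.1 = L c + L p.2 := by rw [← hwp]; exact hadd' c p.2 hcδ hb
    have hLc : ‖L c - c‖ ≤ η * ‖c‖ := by
      refine (hLb c (hcδ.trans_le (min_le_left _ _))).trans ?_
      have h3 : 3 * C * ‖c‖ ≤ η := by
        have := hc.le.trans (min_le_right _ _)
        rw [le_div_iff₀ (by positivity)] at this
        nlinarith [norm_nonneg c]
      calc 3 * C * ‖c‖ ^ 2 = 3 * C * ‖c‖ * ‖c‖ := by ring
        _ ≤ η * ‖c‖ := mul_le_mul_of_nonneg_right h3 (norm_nonneg c)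
    have hpair2 : inv2 p = (c, p.2) := Prod.ext rfl h2
    have hG0p : G (0, p.2) = 0 := by simp [hG, hl]
    simp only [hpair2, hG0p, sub_zero, ContinuousLinearMap.zero_apply] at hg
    have hgn : ‖G (c, p.2)‖ ≤ η * ‖c‖ := by
      simpa [Prod.norm_def] using hg
    have hab : p.1 - p.2 = c + G (c, p.2) := by
      simp only [hG, hwp]
      abel
    have hcab : ‖c‖ ≤ 2 * ‖p.1 - p.2‖ := by
      have h4 := norm_sub_norm_le c (-G (c, p.2))
      rw [sub_neg_eq_add, ← hab, norm_neg] at h4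
      have : η * ‖c‖ ≤ 1 / 2 * ‖c‖ := mul_le_mul_of_nonneg_right (min_le_right _ _) (norm_nonneg c)
      linarith
    calc ‖L p.1 - L p.2 - (ContinuousLinearEquiv.refl ℝ V : V →L[ℝ] V) (p.1 - p.2)‖
        = ‖(L c - c) - G (c, p.2)‖ := by
          rw [hLp, ContinuousLinearEquiv.coe_coe, ContinuousLinearEquiv.refl_apply, hab]
          congr 1
          abel
      _ ≤ η * ‖c‖ + η * ‖c‖ := (norm_sub_le _ _).trans (add_le_add hLc hgn)
      _ ≤ ε * ‖p.1 - p.2‖ := by
          have : η ≤ ε / 4 := min_le_left _ _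
          nlinarith [norm_nonneg c, norm_nonneg (p.1 - p.2)]
  set ψ := hLs.localInverse L (ContinuousLinearEquiv.refl ℝ V) 0 with hψ
  have hψt : Tendsto ψ (𝓝 0) (𝓝 0) := by
    have := hLs.localInverse_tendsto
    rwa [hL0] at this
  have hLψ : ∀ᶠ v in 𝓝 (0 : V), L (ψ v) = v := by
    have := hLs.eventually_right_inverse
    rwa [hL0] at this
  have hψL : ∀ᶠ a in 𝓝 (0 : V), ψ (L a) = a := hLs.eventually_left_inverse
  have hLt : Tendsto L (𝓝 0) (𝓝 0) := by
    simpa only [hL0] using hLs.hasFDerivAt.continuousAt.tendsto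
  -- local additivity of `φ ∘ ψ`
  have hloc : ∀ᶠ q in 𝓝 (0 : V × V), φ (ψ (q.1 + q.2)) = φ (ψ q.1) + φ (ψ q.2) := by
    have hψψ : Tendsto (fun q : V × V => ((ψ q.1, ψ q.2) : V × V)) (𝓝 0) (𝓝 0) :=
      (hψt.comp (continuous_fst.tendsto' _ _ rfl)).prodMk_nhds
        (hψt.comp (continuous_snd.tendsto' _ _ rfl))
    have hd : ∀ᶠ a in 𝓝 (0 : V), ‖a‖ < δ :=
      (continuous_norm.tendsto' 0 0 norm_zero).eventually (Iio_mem_nhds hδpos)
    filter_upwards [(continuous_fst.tendsto' (0 : V × V) 0 rfl).eventually hLψ,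
      (continuous_snd.tendsto' (0 : V × V) 0 rfl).eventually hLψ,
      (hψt.comp (continuous_fst.tendsto' (0 : V × V) 0 rfl)).eventually hd,
      (hψt.comp (continuous_snd.tendsto' (0 : V × V) 0 rfl)).eventually hd,
      (hwt.comp hψψ).eventually hψL, hψψ.eventually hadd] with q h1 h2 h3 h4 h5 h6
    simp only [Function.comp_apply] at h3 h4 h5
    rw [hadd' _ _ h3 h4, h1, h2] at h5
    rw [h5]
    exact h6
  obtain ⟨ρ, hρ, hρ'⟩ := Metric.eventually_nhds_iff.mp hloc
  obtain ⟨Φ, hΦ⟩ := exists_hom_of_local (fun v => φ (ψ v)) hρ fun u v hu' hv' =>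
    hρ' (y := (u, v)) (by rw [dist_zero_right, Prod.norm_def]; exact max_lt hu' hv')
  have hsm : ∀ᶠ v in 𝓝 (0 : V), ‖v‖ < ρ :=
    (continuous_norm.tendsto' 0 0 norm_zero).eventually (Iio_mem_nhds hρ)
  refine ⟨Φ, ?_, ?_⟩
  · filter_upwards [hsm, hψt.eventually hU, hLψ] with v hv hvU hLv h
    rw [hΦ v hv] at h
    have h' : ψ v = 0 := hinj hvU (mem_of_mem_nhds hU) (h.trans h0.symm)
    rw [h', hL0] at hLv
    exact hLv.symm
  · have h1 : ∀ᶠ v in 𝓝 (0 : V), ‖v‖ ≤ 1 :=
      (continuous_norm.tendsto' 0 0 norm_zero).eventually (Iic_mem_nhds one_pos)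
    filter_upwards [hLt.eventually hsm, hLt.eventually h1, hψL] with a ha ha' hψa
    exact ⟨L a, ha', by rw [hΦ _ ha, hψa]⟩

end FLTAgent.AJ

end
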