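import Mathlib

/-!
A quotient of a real vector space of dimension `d` by a discrete cocompact subgroup has `n ^ d`
points killed by `n`.
-/

set_option autoImplicit false

noncomputable section

open Filter Topology

namespace FLTAgent.AJ

variable {V : Type*} [NormedAddCommGroup V] [NormedSpace ℝ V] [FiniteDimensional ℝ V]
  {P : Type*} [AddCommGroup P]

theorem natCard_torsion_of_hom (Φ : V →+ P) (hdisc : ∀ᶠ v in 𝓝 (0 : V), Φ v = 0 → v = 0)
    {R : ℝ} (hcov : ∀ x : P, ∃ v : V, ‖v‖ ≤ R ∧ Φ v = x) (n : ℕ) (hn : 0 < n) :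
    Nat.card {x : P // (n : ℤ) • x = 0} = n ^ Module.finrank ℝ V := by
  classical
  set Λ : Submodule ℤ V := LinearMap.ker Φ.toIntLinearMap with hΛ
  have hmem : ∀ v : V, v ∈ Λ ↔ Φ v = 0 := fun v => LinearMap.mem_ker
  haveI : DiscreteTopology Λ := by
    obtain ⟨ε, hε, hball⟩ := Metric.eventually_nhds_iff.mp hdisc
    refine discreteTopology_iff_isOpen_singleton_zero.mpr ?_
    refine Metric.isOpen_iff.mpr fun x hx => ⟨ε, hε, fun y hy => ?_⟩
    rw [Set.mem_singleton_iff.mp hx] at hy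
    refine Set.mem_singleton_iff.mpr (Subtype.ext ?_)
    exact hball (y := (y : V)) hy ((hmem _).mp y.2)
  haveI : IsZLattice ℝ Λ := ⟨by
    set W : Submodule ℝ V := Submodule.span ℝ (Λ : Set V) with hW
    by_contra hne
    obtain ⟨f, hf0, hfW⟩ := Submodule.exists_dual_map_eq_bot_of_lt_top (lt_top_iff_ne_top.mpr hne)
      inferInstance
    obtain ⟨v, hv⟩ : ∃ v, f v ≠ 0 := by
      by_contra h
      push Not at h
      exact hf0 (LinearMap.ext h)
    set fc := LinearMap.toContinuousLinearMap f with hfc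
    set t : ℝ := (‖fc‖ * R + 1) / |f v| with ht
    obtain ⟨u, hu, hΦ⟩ := hcov (Φ (t • v))
    have hl : t • v - u ∈ Λ := by rw [hmem, map_sub, hΦ, sub_self]
    have hzero : f (t • v - u) = 0 := by
      have : f (t • v - u) ∈ W.map f := ⟨_, Submodule.subset_span hl, rfl⟩
      rw [hfW] at this
      exact (Submodule.mem_bot ℝ).mp this
    rw [map_sub, sub_eq_zero, map_smul, smul_eq_mul] at hzero
    have h2 : |f u| ≤ ‖fc‖ * R := by
      calc |f u| = ‖fc u‖ := rfl
        _ ≤ ‖fc‖ * ‖u‖ := fc.le_opNorm u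
        _ ≤ ‖fc‖ * R := mul_le_mul_of_nonneg_left hu (norm_nonneg _)
    have h3 : |t * f v| = ‖fc‖ * R + 1 := by
      have hR : 0 ≤ R := (norm_nonneg u).trans hu
      rw [abs_mul, ht, abs_div, abs_abs, div_mul_cancel₀ _ (abs_ne_zero.mpr hv),
        abs_of_nonneg (by positivity)]
    rw [hzero] at h3
    linarith⟩
  haveI := ZLattice.module_finite ℝ Λ
  haveI := ZLattice.module_free ℝ Λ
  set d := Module.finrank ℝ V
  let b : Module.Basis (Fin d) ℤ Λ :=
    Module.finBasisOfFinrankEq ℤ Λ (ZLattice.rank ℝ Λ)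
  let Λn : (Fin d → ℤ) → P := fun c =>
    Φ (((n : ℝ)⁻¹) • ((b.equivFun.symm c : Λ) : V))
  have hscale : ∀ v : V, (n : ℤ) • Φ ((n : ℝ)⁻¹ • v) = Φ v := by
    intro v
    rw [← map_zsmul, ← Int.cast_smul_eq_zsmul ℝ, Int.cast_natCast, smul_inv_smul₀
      (by exact_mod_cast hn.ne')]
  have hker : ∀ c c' : Fin d → ℤ, Λn c = Λn c' ↔ ∀ i, (n : ℤ) ∣ c i - c' i := by
    intro c c'
    simp only [Λn]
    rw [← sub_eq_zero, ← map_sub, ← smul_sub, ← Submodule.coe_sub, ← map_sub, ← hmem]
    constructor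
    · intro h i
      have e : (b.equivFun.symm (c - c') : Λ) = (n : ℤ) • ⟨_, h⟩ := by
        refine Subtype.ext ?_
        rw [Submodule.coe_smul_of_tower, ← Int.cast_smul_eq_zsmul ℝ, Int.cast_natCast,
          smul_inv_smul₀ (by exact_mod_cast hn.ne')]
      refine ⟨b.equivFun ⟨_, h⟩ i, ?_⟩
      have := congrArg (fun z => b.equivFun z i) e
      simpa only [LinearEquiv.apply_symm_apply, map_zsmul, Pi.smul_apply, smul_eq_mul,
        Pi.sub_apply] using this
    · intro h
      choose k hk using h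
      have e : c - c' = (n : ℤ) • k := funext fun i => by simpa using hk i
      rw [e, map_zsmul, Submodule.coe_smul_of_tower, ← Int.cast_smul_eq_zsmul ℝ, Int.cast_natCast,
        inv_smul_smul₀ (by exact_mod_cast hn.ne')]
      exact SetLike.coe_mem _
  let g : (Fin d → ℤ) → {x : P // (n : ℤ) • x = 0} := fun c =>
    ⟨Λn c, by rw [hscale]; exact (hmem _).mp (SetLike.coe_mem _)⟩
  have hg : Function.Surjective g := by
    rintro ⟨x, hx⟩
    obtain ⟨v, -, rfl⟩ := hcov x
    have hl : ((n : ℤ) • v) ∈ Λ := by rw [hmem, map_zsmul]; exact hx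
    refine ⟨b.equivFun ⟨_, hl⟩, Subtype.ext ?_⟩
    simp only [g, Λn, LinearEquiv.symm_apply_apply]
    rw [← Int.cast_smul_eq_zsmul ℝ, Int.cast_natCast, inv_smul_smul₀ (by exact_mod_cast hn.ne')]
  haveI : NeZero n := ⟨hn.ne'⟩
  let lift : (Fin d → ZMod n) → {x : P // (n : ℤ) • x = 0} := fun c => g fun i => (c i).val
  have hlift : Function.Bijective lift := by
    constructor
    · intro c c' h
      funext i
      have := (hker _ _).mp (congrArg Subtype.val h) i
      rw [← ZMod.natCast_zmod_val (c i), ← ZMod.natCast_zmod_val (c' i)]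
      have h2 := (ZMod.intCast_eq_intCast_iff_dvd_sub ((c' i).val : ℤ) ((c i).val : ℤ) n).mpr this
      simpa using h2.symm
    · intro x
      obtain ⟨c, rfl⟩ := hg x
      refine ⟨fun i => (c i : ZMod n), Subtype.ext ((hker _ _).mpr fun i => ?_)⟩
      rw [← ZMod.intCast_zmod_eq_zero_iff_dvd]
      simp
  rw [← Nat.card_eq_of_bijective lift hlift, Nat.card_fun]
  simp

end FLTAgent.AJ

end
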