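import Fermat.Agent.AJ.MovesC
import Fermat.Agent.AJ.LocalLog
import Fermat.Agent.AJ.TorusCount

/-!
Over `ℂ`, the divisor classes of degree zero killed by `n` number `n ^ (2 g)`.
-/

set_option autoImplicit false

noncomputable section

open AlgebraicCurve Filter Topology
open scoped ContDiff

namespace FLTAgent.AJ

section Cls

variable {K F : Type*} [Field K] [Field F] [Algebra K F]

open scoped Classical in
/-- the class of a divisor of degree zero (junk otherwise) -/
def cls (D : Divisor K F) : Pic0 K F :=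
  if h : Divisor.degree D = 0 then Pic0.mk ⟨D, h⟩ else 0

theorem cls_of_deg {D : Divisor K F} (h : Divisor.degree D = 0) : cls D = Pic0.mk ⟨D, h⟩ :=
  dif_pos h

theorem cls_add {D E : Divisor K F} (hD : Divisor.degree D = 0) (hE : Divisor.degree E = 0) :
    cls (D + E) = cls D + cls E := by
  rw [cls_of_deg hD, cls_of_deg hE, cls_of_deg (show Divisor.degree (D + E) = 0 by
    rw [map_add, hD, hE, add_zero]), ← Pic0.mk_add]
  rfl

theorem cls_zero : cls (0 : Divisor K F) = 0 := by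
  rw [cls_of_deg (map_zero _)]
  exact Pic0.mk_zero

theorem cls_neg {D : Divisor K F} (hD : Divisor.degree D = 0) : cls (-D) = -cls D := by
  rw [eq_neg_iff_add_eq_zero, ← cls_add (by rw [map_neg, hD, neg_zero]) hD, neg_add_cancel, cls_zero]

theorem cls_eq_zero_iff {D : Divisor K F} (hD : Divisor.degree D = 0) :
    cls D = 0 ↔ D.IsPrincipal := by
  rw [cls_of_deg hD]
  exact (QuotientAddGroup.eq_zero_iff
    (N := (Divisor.principal (K := K) (F := F)).addSubgroupOf (Divisor.degZero (K := K) (F := F))) _).trans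
      AddSubgroup.mem_addSubgroupOf

theorem cls_sum {ι : Type*} (s : Finset ι) (D : ι → Divisor K F)
    (h : ∀ i ∈ s, Divisor.degree (D i) = 0) : cls (∑ i ∈ s, D i) = ∑ i ∈ s, cls (D i) := by
  classical
  induction s using Finset.induction with
  | empty => simpa using cls_zero
  | insert a s ha ih =>
    rw [Finset.sum_insert ha, Finset.sum_insert ha, cls_add (h a (Finset.mem_insert_self a s))
      (by rw [map_sum]; exact Finset.sum_eq_zero fun i hi => h i (Finset.mem_insert_of_mem hi)),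
      ih fun i hi => h i (Finset.mem_insert_of_mem hi)]

theorem cls_zsmul {D : Divisor K F} (hD : Divisor.degree D = 0) (n : ℤ) :
    cls (n • D) = n • cls D := by
  rw [cls_of_deg hD, cls_of_deg (show Divisor.degree (n • D) = 0 by rw [map_zsmul, hD, smul_zero])]
  exact map_zsmul (QuotientAddGroup.mk'
    ((Divisor.principal (K := K) (F := F)).addSubgroupOf (Divisor.degZero (K := K) (F := F))))
    n ⟨D, hD⟩

end Cls

variable {F : Type*} [Field F] [Algebra ℂ F] [RR.FnField ℂ F]

/-- the chart on the group of classes -/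
def chart {ι : Type*} [Fintype ι] (e : ι → Place ℂ F) (y : ι → ℂ) : Pic0 ℂ F :=
  cls (moved e y - sumPts e)

theorem degree_moved_sub {ι : Type*} [Fintype ι] (e : ι → Place ℂ F) (y : ι → ℂ) :
    Divisor.degree (moved e y - sumPts e) = 0 := by
  rw [map_sub, moved, degree_sumPts, degree_sumPts, sub_self]

theorem chart_zero {ι : Type*} [Fintype ι] (e : ι → Place ℂ F) : chart e 0 = 0 := by
  rw [chart, moved_zero, sub_self, cls_zero]

theorem chart_add_of_principal {ι κ : Type*} [Fintype ι] [Fintype κ] {p : ι → Place ℂ F}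
    {e : κ → Place ℂ F} {y : ι → ℂ} {z : κ → ℂ}
    (h : Divisor.IsPrincipal (moved p y + moved e z - (sumPts p + sumPts e))) :
    chart e z = -chart p y := by
  rw [eq_neg_iff_add_eq_zero, add_comm, chart, chart,
    ← cls_add (degree_moved_sub p y) (degree_moved_sub e z),
    cls_eq_zero_iff (by rw [map_add, degree_moved_sub, degree_moved_sub, add_zero]),
    show moved p y - sumPts p + (moved e z - sumPts e) =
      moved p y + moved e z - (sumPts p + sumPts e) by abel]
  exact h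

theorem infinite_places : (Set.univ : Set (Place ℂ F)).Infinite := by
  obtain ⟨x, hx, -⟩ := RR.FnField.exists_transcendental (K := ℂ) (F := F)
  obtain ⟨v, -⟩ := RR.exists_zero hx
  exact ((Set.infinite_image_iff (disc v).injOn).mpr
    (infinite_of_mem_nhds (0 : ℂ) (Metric.ball_mem_nhds _ (disc v).r_pos))).mono (Set.subset_univ _)

theorem sumElim_injective {ι κ α : Type*} {p : ι → α} {e : κ → α} (hp : Function.Injective p)
    (he : Function.Injective e) (h : ∀ i, e i ∉ Set.range p) : Function.Injective (Sum.elim p e) :=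
  hp.sumElim he fun i k hik => h k ⟨i, hik⟩

theorem exists_hop {ι : Type*} [Fintype ι] {g : ℕ} {p : ι → Place ℂ F} {e : Fin g → Place ℂ F}
    (hp : Function.Injective p) (he : Nonspecial e) (hdis : ∀ i, e i ∉ Set.range p) :
    ∃ T : (ι → ℂ) → (Fin g → ℂ), T 0 = 0 ∧ ContDiffAt ℂ ω T 0 ∧
      ∀ᶠ y in 𝓝 (0 : ι → ℂ), chart e (T y) = -chart p y := by
  obtain ⟨T, h0, hT, hev⟩ := exists_move (sumElim_injective hp he.inj hdis)
    (by rw [Fintype.card_fin]; exact he.card_eq) he.ell_eq
  exact ⟨T, h0, hT, hev.mono fun y hy => chart_add_of_principal hy.1⟩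

theorem chart_injOn {g : ℕ} {e e' : Fin g → Place ℂ F} (he : Nonspecial e) (he' : Nonspecial e')
    (hdis : ∀ i, e' i ∉ Set.range e) :
    ∃ U ∈ 𝓝 (0 : Fin g → ℂ), Set.InjOn (chart e) U := by
  obtain ⟨T, h0, hT, hev⟩ := exists_move (sumElim_injective he.inj he'.inj hdis)
    (by rw [Fintype.card_fin]; exact he'.card_eq) he'.ell_eq
  obtain ⟨S, -, -, hev'⟩ := exists_move (sumElim_injective he'.inj he.inj
    (fun i hi => by obtain ⟨j, hj⟩ := hi; exact hdis j ⟨i, hj.symm⟩))
    (by rw [Fintype.card_fin]; exact he.card_eq) he.ell_eq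
  obtain ⟨U, hU, hUinj⟩ := moved_inj he.inj
  have hTt : Tendsto T (𝓝 0) (𝓝 0) := by simpa [h0] using hT.continuousAt.tendsto
  refine ⟨U ∩ {y | Divisor.IsPrincipal (moved e y + moved e' (T y) - (sumPts e + sumPts e')) ∧
      ∀ E : Divisor ℂ F, (∀ v, 0 ≤ E v) → Divisor.degree E = genusFF ℂ F →
        Divisor.IsPrincipal (moved e' (T y) + E - (sumPts e' + sumPts e)) →
          E = moved e (S (T y))}, inter_mem hU ((hev.mono fun y hy => hy.1).and
            ((hTt.eventually hev').mono fun y hy => hy.2)), ?_⟩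
  rintro y ⟨hyU, hy1, hy2⟩ y' ⟨hyU', -, -⟩ h
  refine hUinj hyU hyU' ?_
  have hnn : ∀ x : Fin g → ℂ, ∀ v, 0 ≤ moved e x v := fun x v => sumPts_nonneg _ v
  have hdeg : ∀ x : Fin g → ℂ, Divisor.degree (moved e x) = genusFF ℂ F := fun x => by
    rw [moved, degree_sumPts, Fintype.card_fin, he.card_eq]
  have hd : Divisor.IsPrincipal (moved e y' - moved e y) := by
    rw [← cls_eq_zero_iff (by rw [map_sub, hdeg, hdeg, sub_self]),
      show moved e y' - moved e y = (moved e y' - sumPts e) + -(moved e y - sumPts e) by abel,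
      cls_add (degree_moved_sub _ _) (by rw [map_neg, degree_moved_sub, neg_zero]),
      cls_neg (degree_moved_sub _ _)]
    show chart e y' + -chart e y = 0
    rw [h, add_neg_cancel]
  have e1 := hy2 (moved e y) (hnn y) (hdeg y) (by
    rwa [add_comm (moved e' (T y)), add_comm (sumPts e')])
  have e2 := hy2 (moved e y') (hnn y') (hdeg y') (by
    rw [show moved e' (T y) + moved e y' - (sumPts e' + sumPts e) =
      (moved e y + moved e' (T y) - (sumPts e + sumPts e')) + (moved e y' - moved e y) by abel]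
    exact Divisor.principal.add_mem hy1 hd)
  rw [e1, e2]

theorem exists_chart_add {g : ℕ} {e e' e'' : Fin g → Place ℂ F} (he : Nonspecial e)
    (he' : Nonspecial e') (he'' : Nonspecial e'') (h1 : ∀ i, e' i ∉ Set.range e)
    (h2 : ∀ i, e'' i ∉ Set.range e) (h3 : ∀ i, e'' i ∉ Set.range e') :
    ∃ w : (Fin g → ℂ) × (Fin g → ℂ) → (Fin g → ℂ), w 0 = 0 ∧ ContDiffAt ℂ ω w 0 ∧
      ∀ᶠ p in 𝓝 0, chart e (w p) = chart e p.1 + chart e p.2 := by
  have hsymm : ∀ {a b : Fin g → Place ℂ F}, (∀ i, a i ∉ Set.range b) → ∀ i, b i ∉ Set.range a :=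
    fun h i hi => by obtain ⟨j, hj⟩ := hi; exact h j ⟨i, hj.symm⟩
  obtain ⟨A, hA0, hA, hAe⟩ := exists_hop he.inj he' h1
  obtain ⟨B, hB0, hB, hBe⟩ := exists_hop he'.inj he'' h3
  obtain ⟨C, hC0, hC, hCe⟩ := exists_hop (p := Sum.elim e e'')
    (sumElim_injective he.inj he''.inj h2) he' (fun i => by
      rw [Set.Sum.elim_range]
      rintro (h | h)
      · exact h1 i h
      · exact hsymm h3 i h)
  obtain ⟨D, hD0, hD, hDe⟩ := exists_hop he'.inj he (hsymm h1)
  set mid : (Fin g → ℂ) × (Fin g → ℂ) → (Fin g ⊕ Fin g → ℂ) := fun p =>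
    Sum.elim p.1 (B (A p.2)) with hmid
  have hmid0 : mid 0 = 0 := by
    funext a
    rcases a with i | i <;> simp [hmid, hA0, hB0]
  have hA' : ContDiffAt ℂ ω (fun p : (Fin g → ℂ) × (Fin g → ℂ) => A p.2) 0 :=
    ContDiffAt.comp (0 : (Fin g → ℂ) × (Fin g → ℂ)) (g := A) (f := Prod.snd)
      (show ContDiffAt ℂ ω A (0 : (Fin g → ℂ) × (Fin g → ℂ)).2 from hA) contDiffAt_snd
  have hB' : ContDiffAt ℂ ω (fun p : (Fin g → ℂ) × (Fin g → ℂ) => B (A p.2)) 0 :=
    ContDiffAt.comp (0 : (Fin g → ℂ) × (Fin g → ℂ)) (g := B) (f := fun p => A p.2)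
      (show ContDiffAt ℂ ω B (A (0 : (Fin g → ℂ) × (Fin g → ℂ)).2) by rw [Prod.snd_zero, hA0]; exact hB)
      hA'
  have hmidC : ContDiffAt ℂ ω mid 0 := by
    refine contDiffAt_pi.mpr fun a => ?_
    rcases a with i | i
    · exact ((contDiff_apply ℂ ℂ i).comp contDiff_fst).contDiffAt
    · exact contDiffAt_pi.mp hB' i
  have hCm : ContDiffAt ℂ ω (fun p => C (mid p)) 0 :=
    ContDiffAt.comp (0 : (Fin g → ℂ) × (Fin g → ℂ)) (g := C) (f := mid) (by rw [hmid0]; exact hC) hmidC
  refine ⟨fun p => D (C (mid p)), by simp only [hmid0, hC0, hD0],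
    ContDiffAt.comp (0 : (Fin g → ℂ) × (Fin g → ℂ)) (g := D) (f := fun p => C (mid p))
      (by rw [hmid0, hC0]; exact hD) hCm, ?_⟩
  have tA : Tendsto (fun p : (Fin g → ℂ) × (Fin g → ℂ) => A p.2) (𝓝 0) (𝓝 0) := by
    simpa [hA0] using hA'.continuousAt.tendsto
  have tm : Tendsto mid (𝓝 0) (𝓝 0) := by simpa [hmid0] using hmidC.continuousAt.tendsto
  have tC : Tendsto (fun p => C (mid p)) (𝓝 0) (𝓝 0) := by
    simpa [hmid0, hC0] using hCm.continuousAt.tendsto
  filter_upwards [(continuous_snd.tendsto' (0 : (Fin g → ℂ) × (Fin g → ℂ)) 0 rfl).eventually hAe,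
    tA.eventually hBe, tm.eventually hCe, tC.eventually hDe] with p hp1 hp2 hp3 hp4
  have hsplit : chart (Sum.elim e e'') (mid p) = chart e p.1 + chart e'' (B (A p.2)) := by
    rw [chart, chart, chart, ← cls_add (degree_moved_sub _ _) (degree_moved_sub _ _)]
    congr 1
    have : moved (Sum.elim e e'') (mid p) = moved e p.1 + moved e'' (B (A p.2)) := by
      rw [moved, moved, moved, ← sumPts_elim]
      congr 1
      funext a
      rcases a with i | i <;> rfl
    rw [this, sumPts_elim]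
    abel
  rw [hp4, hp3, hsplit, hp2, hp1, neg_neg, neg_neg]

/-- the classes are covered by a bounded part of `ℂ^g` -/
theorem exists_cover : ∃ (Φ : (Fin (genusFF ℂ F) → ℂ) →+ Pic0 ℂ F) (R : ℝ),
    (∀ᶠ v in 𝓝 (0 : Fin (genusFF ℂ F) → ℂ), Φ v = 0 → v = 0) ∧
      ∀ c : Pic0 ℂ F, ∃ v, ‖v‖ ≤ R ∧ Φ v = c := by
  classical
  set g := genusFF ℂ F
  obtain ⟨e, he, -⟩ := exists_nonspecial (K := ℂ) (F := F) ∅ Set.finite_empty infinite_places
  obtain ⟨e', he', h1⟩ := exists_nonspecial (Set.range e) (Set.finite_range e) infinite_places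
  obtain ⟨e'', he'', h23⟩ := exists_nonspecial (Set.range e ∪ Set.range e')
    ((Set.finite_range e).union (Set.finite_range e')) infinite_places
  obtain ⟨w, hw0, hw, hwe⟩ := exists_chart_add he he' he'' h1 (fun i h => h23 i (Or.inl h))
    (fun i h => h23 i (Or.inr h))
  obtain ⟨Φ, hdisc, hlift⟩ := exists_hom (V := Fin g → ℂ) (chart e) (chart_zero e)
    (chart_injOn he he' h1) w ((hw.of_le le_top).restrict_scalars ℝ) hw0 hwe
  -- every point has a neighbourhood with bounded lifts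
  have hloc : ∀ x₁ : Place ℂ F, ∀ᶠ x in 𝓝 x₁, ∃ v : Fin g → ℂ, ‖v‖ ≤ 1 ∧
      Φ v = cls (Finsupp.single x (1 : ℤ) - Finsupp.single x₁ 1) := by
    intro x₁
    obtain ⟨f, hf, hbad⟩ := exists_nonspecial ({x₁} ∪ Set.range e)
      ((Set.finite_singleton x₁).union (Set.finite_range e)) infinite_places
    obtain ⟨T, hT0, hT, hTe⟩ := exists_hop (p := fun _ : Unit => x₁)
      (Function.injective_of_subsingleton _) hf (fun i hi => hbad i (Or.inl (by
        obtain ⟨_, h⟩ := hi; exact h.symm)))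
    obtain ⟨S, hS0, hS, hSe⟩ := exists_hop hf.inj he
      (fun i hi => by obtain ⟨j, hj⟩ := hi; exact hbad j (Or.inr ⟨i, hj.symm⟩))
    have hTt : Tendsto T (𝓝 0) (𝓝 0) := by simpa [hT0] using hT.continuousAt.tendsto
    have hSt : Tendsto S (𝓝 0) (𝓝 0) := by simpa [hS0] using hS.continuousAt.tendsto
    have hz : Tendsto (fun z : ℂ => fun _ : Unit => z) (𝓝 0) (𝓝 0) :=
      (continuous_pi fun _ => continuous_id).tendsto' 0 0 rfl
    have hall := hz.eventually (hTe.and ((hTt.eventually hSe).and ((hSt.comp hTt).eventually hlift)))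
    obtain ⟨δ, hδ, hball⟩ := Metric.eventually_nhds_iff_ball.mp hall
    filter_upwards [(disc x₁).image_mem_nhds hδ] with x hx
    obtain ⟨z, hz, rfl⟩ := hx
    obtain ⟨hT', hS', v, hv, hΦ⟩ := hball z hz
    refine ⟨v, hv, ?_⟩
    rw [hΦ, Function.comp_apply, hS', hT', neg_neg, chart]
    congr 1
    simp [moved, sumPts, dpt]
  -- connectedness
  obtain ⟨x₀⟩ : Nonempty (Place ℂ F) := ⟨(infinite_places (F := F)).nonempty.choose⟩
  have hsub : ∀ x y z : Place ℂ F, cls (Finsupp.single x (1 : ℤ) - Finsupp.single z 1) =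
      cls (Finsupp.single x (1 : ℤ) - Finsupp.single y 1) +
        cls (Finsupp.single y (1 : ℤ) - Finsupp.single z 1) := by
    intro x y z
    rw [← cls_add (by simp [RR.deg_eq_one]) (by simp [RR.deg_eq_one])]
    congr 1
    abel
  set S : Set (Place ℂ F) := {x | ∃ v, Φ v = cls (Finsupp.single x (1 : ℤ) - Finsupp.single x₀ 1)}
  have hS : IsClopen S := by
    refine ⟨isOpen_compl_iff.mp (isOpen_iff_eventually.mpr fun x hx => ?_),
      isOpen_iff_eventually.mpr fun x hx => ?_⟩
    · filter_upwards [hloc x] with y hy ⟨u, hu⟩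
      obtain ⟨v, -, hv⟩ := hy
      exact hx ⟨u - v, by rw [map_sub, hu, hv, hsub y x x₀]; abel⟩
    · filter_upwards [hloc x] with y hy
      obtain ⟨u, hu⟩ := hx
      obtain ⟨v, -, hv⟩ := hy
      exact ⟨v + u, by rw [map_add, hu, hv, hsub y x x₀]⟩
  have hSu : S = Set.univ := eq_univ_of_isClopen hS ⟨x₀, 0, by rw [map_zero, sub_self, cls_zero]⟩
  have hv0 : ∀ x, ∃ v, Φ v = cls (Finsupp.single x (1 : ℤ) - Finsupp.single x₀ 1) :=
    fun x => (hSu ▸ Set.mem_univ x : x ∈ S)
  choose lift hlift0 using hv0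
  haveI := compactSpace_place (F := F)
  obtain ⟨s, hs⟩ := finite_cover_nhds fun x : Place ℂ F => hloc x
  set R₀ : ℝ := 1 + ∑ y ∈ s, ‖lift y‖
  have hbound : ∀ x, ∃ v : Fin g → ℂ, ‖v‖ ≤ R₀ ∧
      Φ v = cls (Finsupp.single x (1 : ℤ) - Finsupp.single x₀ 1) := by
    intro x
    have hxc : x ∈ (Set.univ : Set (Place ℂ F)) := trivial
    rw [← hs] at hxc
    obtain ⟨y, hy, hxy⟩ := Set.mem_iUnion₂.mp hxc
    obtain ⟨v, hv, hΦv⟩ := hxy
    refine ⟨v + lift y, (norm_add_le _ _).trans (add_le_add hv ?_), by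
      rw [map_add, hΦv, hlift0, ← hsub]⟩
    exact Finset.single_le_sum (f := fun y => ‖lift y‖) (fun i _ => norm_nonneg _) hy
  choose lb hlb hlbΦ using hbound
  have hcov : ∀ c : Pic0 ℂ F, ∃ v : Fin g → ℂ, ‖v‖ ≤ g * R₀ ∧ Φ v = c := by
    intro c
    obtain ⟨⟨D₀, hD₀⟩, rfl⟩ := Pic0.mk_surjective c
    have hdeg₀ : Divisor.degree D₀ = 0 := hD₀
    obtain ⟨E, hE, hEp⟩ := exists_effective (D := D₀ + (g : ℤ) • Finsupp.single x₀ (1 : ℤ)) (by
      rw [map_add, hdeg₀, map_zsmul, Divisor.degree_single, RR.deg_eq_one]; simp [g])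
    have hdegE : ∑ x ∈ E.support, E x = (g : ℤ) := by
      have := degree_isPrincipal hEp
      rw [map_sub, map_add, hdeg₀, map_zsmul, Divisor.degree_single, RR.deg_eq_one,
        RR.degree_eq_sum] at this
      simp at this
      linarith
    refine ⟨∑ x ∈ E.support, E x • lb x, ?_, ?_⟩
    · calc ‖∑ x ∈ E.support, E x • lb x‖ ≤ ∑ x ∈ E.support, ((E x : ℤ) : ℝ) * R₀ := by
            refine (norm_sum_le _ _).trans (Finset.sum_le_sum fun x _ => ?_)
            rw [← Int.cast_smul_eq_zsmul ℝ, norm_smul, Real.norm_eq_abs,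
              abs_of_nonneg (by exact_mod_cast hE x)]
            exact mul_le_mul_of_nonneg_left (hlb x) (by exact_mod_cast hE x)
        _ = g * R₀ := by
            rw [← Finset.sum_mul, ← Int.cast_sum, hdegE, Int.cast_natCast]
    · rw [map_sum]
      simp only [map_zsmul, hlbΦ]
      rw [Finset.sum_congr rfl fun x _ => (cls_zsmul (D := Finsupp.single x (1 : ℤ) -
        Finsupp.single x₀ 1) (by simp [RR.deg_eq_one]) (E x)).symm,
        ← cls_sum _ _ fun x _ => by simp [RR.deg_eq_one], ← cls_of_deg hdeg₀]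
      have hsum : ∑ x ∈ E.support, E x • (Finsupp.single x (1 : ℤ) - Finsupp.single x₀ 1) =
          D₀ + (E - (D₀ + (g : ℤ) • Finsupp.single x₀ (1 : ℤ))) := by
        simp only [smul_sub, Finset.sum_sub_distrib, ← Finset.sum_smul, hdegE]
        rw [show ∑ x ∈ E.support, E x • Finsupp.single x (1 : ℤ) = E by
          conv_rhs => rw [← Finsupp.sum_single E]
          exact Finset.sum_congr rfl fun x _ => by simp]
        abel
      rw [hsum, cls_add hdeg₀ (degree_isPrincipal hEp),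
        (cls_eq_zero_iff (degree_isPrincipal hEp)).mpr hEp, add_zero]
  exact ⟨Φ, g * R₀, hdisc, hcov⟩

theorem natCard_torsion_complex (n : ℕ) (hn : 0 < n) :
    Nat.card (Pic0.torsion ℂ F n) = n ^ (2 * genusFF ℂ F) := by
  obtain ⟨Φ, R, hdisc, hcov⟩ := exists_cover (F := F)
  have hcard := natCard_torsion_of_hom Φ hdisc hcov n hn
  have hrank : Module.finrank ℝ (Fin (genusFF ℂ F) → ℂ) = 2 * genusFF ℂ F := by
    rw [Module.finrank_pi_fintype]
    simp [Complex.finrank_real_complex, mul_comm]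
  rw [hrank] at hcard
  rw [← hcard]
  exact Nat.card_congr (Equiv.subtypeEquivRight fun x => Pic0.mem_torsion)

end FLTAgent.AJ

end
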