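import Fermat.Agent.AJ.ExtPic
import Fermat.Agent.AJ.GlobalC

/-!
Counting torsion classes of a function field over an algebraically closed subfield of `ℂ`.
-/

set_option autoImplicit false

noncomputable section

open AlgebraicCurve
open scoped TensorProduct

namespace FLTAgent.AJ

section Domain

variable {K₀ : Type*} [Field K₀] [IsAlgClosed K₀]

theorem exists_point (R : Type*) [CommRing R] [Nontrivial R] [Algebra K₀ R]
    [Algebra.FiniteType K₀ R] : Nonempty (R →ₐ[K₀] K₀) := by
  obtain ⟨m, hm⟩ := Ideal.exists_maximal R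
  letI := Ideal.Quotient.field m
  haveI := finite_of_finite_type_of_isJacobsonRing K₀ (R ⧸ m)
  let q : K₀ ≃ₐ[K₀] R ⧸ m := AlgEquiv.ofBijective (Algebra.ofId K₀ (R ⧸ m))
    (IsAlgClosed.algebraMap_bijective_of_isIntegral (k := K₀) (K := R ⧸ m))
  exact ⟨q.symm.toAlgHom.comp (Ideal.Quotient.mkₐ K₀ m)⟩

/-- A base change of a domain over an algebraically closed field is a domain. -/
theorem isDomain_tensor (L B : Type*) [Field L] [Algebra K₀ L] [CommRing B] [IsDomain B]
    [Algebra K₀ B] : IsDomain (L ⊗[K₀] B) := by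
  classical
  haveI : Nontrivial (L ⊗[K₀] B) :=
    (Algebra.TensorProduct.includeLeft_injective (S := K₀) (R := K₀) (A := L) (B := B)
      (algebraMap K₀ B).injective).nontrivial
  suffices NoZeroDivisors (L ⊗[K₀] B) from NoZeroDivisors.to_isDomain _
  refine ⟨fun {a b} hab => ?_⟩
  by_contra hne
  simp only [not_or] at hne
  set ℬ := Module.Basis.ofVectorSpace K₀ B
  obtain ⟨ca, hca⟩ := TensorProduct.eq_repr_basis_right (M := L) ℬ a
  obtain ⟨cb, hcb⟩ := TensorProduct.eq_repr_basis_right (M := L) ℬ b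
  obtain ⟨j₀, hj₀⟩ := Finsupp.support_nonempty_iff.mpr (fun h => hne.1 (by simp [← hca, h]) :
    ca ≠ 0)
  obtain ⟨j₁, hj₁⟩ := Finsupp.support_nonempty_iff.mpr (fun h => hne.2 (by simp [← hcb, h]) :
    cb ≠ 0)
  rw [Finsupp.mem_support_iff] at hj₀ hj₁
  set s : Finset L := ca.support.image ca ∪ cb.support.image cb ∪ {(ca j₀)⁻¹, (cb j₁)⁻¹}
  set R := Algebra.adjoin K₀ (s : Set L) with hR
  haveI : Algebra.FiniteType K₀ R := (Subalgebra.fg_iff_finiteType R).mp ⟨s, rfl⟩
  obtain ⟨ψ⟩ := exists_point (K₀ := K₀) R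
  have hsR : ∀ {l : L}, l ∈ s → l ∈ R := fun h => Algebra.subset_adjoin h
  have hmem : ∀ (c : _ →₀ L), (c = ca ∨ c = cb) → ∀ i, c i ∈ R := by
    intro c hc i
    by_cases hi : c i = 0
    · rw [hi]; exact zero_mem R
    · refine hsR ?_
      rcases hc with rfl | rfl
      · exact Finset.mem_union_left _ (Finset.mem_union_left _
          (Finset.mem_image_of_mem _ (Finsupp.mem_support_iff.mpr hi)))
      · exact Finset.mem_union_left _ (Finset.mem_union_right _
          (Finset.mem_image_of_mem _ (Finsupp.mem_support_iff.mpr hi)))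
  set a' : R ⊗[K₀] B := ∑ i ∈ ca.support, (⟨ca i, hmem ca (Or.inl rfl) i⟩ : R) ⊗ₜ[K₀] ℬ i
  set b' : R ⊗[K₀] B := ∑ i ∈ cb.support, (⟨cb i, hmem cb (Or.inr rfl) i⟩ : R) ⊗ₜ[K₀] ℬ i
  let ι : R ⊗[K₀] B →ₐ[K₀] L ⊗[K₀] B := Algebra.TensorProduct.map R.val (AlgHom.id K₀ B)
  have hι : Function.Injective ι := by
    have h := Module.Flat.rTensor_preserves_injective_linearMap (M := B) R.val.toLinearMap
      Subtype.val_injective
    have he : ∀ z, ι z = LinearMap.rTensor B R.val.toLinearMap z := fun z => by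
      induction z using TensorProduct.induction_on with
      | zero => simp
      | tmul x y => simp [ι]
      | add u v hu hv => rw [map_add, map_add, hu, hv]
    intro x y hxy
    rw [he, he] at hxy
    exact h hxy
  have ha' : ι a' = a := by
    rw [← hca, map_sum, Finsupp.sum]
    exact Finset.sum_congr rfl fun i _ => by simp [ι]
  have hb' : ι b' = b := by
    rw [← hcb, map_sum, Finsupp.sum]
    exact Finset.sum_congr rfl fun i _ => by simp [ι]
  have hab' : a' * b' = 0 := hι (by rw [map_mul, ha', hb', hab, map_zero])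
  let Θ : R ⊗[K₀] B →ₐ[K₀] B :=
    Algebra.TensorProduct.lift ((Algebra.ofId K₀ B).comp ψ) (AlgHom.id K₀ B)
      fun _ _ => Commute.all _ _
  have key : ∀ (c : _ →₀ L) (hc : ∀ i, c i ∈ R) (j), c j ≠ 0 → (c j)⁻¹ ∈ R →
      Θ (∑ i ∈ c.support, (⟨c i, hc i⟩ : R) ⊗ₜ[K₀] ℬ i) ≠ 0 := by
    intro c hc j hj hinv h0
    have hu : (⟨c j, hc j⟩ : R) * ⟨(c j)⁻¹, hinv⟩ = 1 := Subtype.ext (mul_inv_cancel₀ hj)
    have hψ : ψ ⟨c j, hc j⟩ ≠ 0 := fun h => by
      have h1 := congrArg ψ hu
      rw [map_mul, h, zero_mul, map_one] at h1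
      exact zero_ne_one h1
    have hz : ∑ i ∈ c.support, ψ ⟨c i, hc i⟩ • ℬ i = 0 := by
      rw [← h0, map_sum]
      exact Finset.sum_congr rfl fun i _ => by simp [Θ, Algebra.smul_def]
    exact hψ (linearIndependent_iff'.mp ℬ.linearIndependent _ _ hz j
      (Finsupp.mem_support_iff.mpr hj))
  have := congrArg Θ hab'
  rw [map_mul, map_zero, mul_eq_zero] at this
  rcases this with h | h
  · exact key ca _ j₀ hj₀ (hsR (Finset.mem_union_right _ (by simp))) h
  · exact key cb _ j₁ hj₁ (hsR (Finset.mem_union_right _ (by simp))) h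

end Domain

namespace ConstExt

variable {K₀ L F₀ F : Type*} [Field K₀] [Field L] [Algebra K₀ L] [Field F₀] [Algebra K₀ F₀]
  [Field F] [Algebra L F] (e : ConstExt K₀ L F₀ F)

include e in
theorem fnField [IsAlgClosed K₀] [CharZero K₀] [IsAlgClosed L] [RR.FnField K₀ F₀] :
    RR.FnField L F := by
  classical
  obtain ⟨x, hx, hfin⟩ := RR.FnField.exists_transcendental (K := K₀) (F := F₀)
  have hy : Transcendental L (e.i x) := by
    have hpow : LinearIndependent K₀ fun n : ℕ => x ^ n := by
      have h := (Polynomial.basisMonomials K₀).linearIndependent.map'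
        (Polynomial.aeval x).toLinearMap (LinearMap.ker_eq_bot.mpr (transcendental_iff_injective.mp hx))
      have he : (⇑(Polynomial.aeval x).toLinearMap ∘ ⇑(Polynomial.basisMonomials K₀)) =
          fun n : ℕ => x ^ n := by
        funext k
        simp [Polynomial.coe_basisMonomials]
      rwa [he] at h
    have h := e.linearIndependent_comp hpow
    rw [transcendental_iff]
    intro p hp
    rw [Polynomial.aeval_eq_sum_range] at hp
    refine Polynomial.ext fun k => ?_
    rw [Polynomial.coeff_zero]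
    by_cases hk : k < p.natDegree + 1
    · refine linearIndependent_iff'.mp h (Finset.range (p.natDegree + 1)) p.coeff ?_ k
        (Finset.mem_range.mpr hk)
      simpa using hp
    · exact Polynomial.coeff_eq_zero_of_natDegree_lt (by omega)
  refine ⟨e.i x, hy, ?_⟩
  set E := IntermediateField.adjoin L ({e.i x} : Set F) with hE
  have hmapE : ∀ c ∈ IntermediateField.adjoin K₀ ({x} : Set F₀), e.i c ∈ E := by
    intro c hc
    induction hc using IntermediateField.adjoin_induction with
    | mem y hy' =>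
      rw [Set.mem_singleton_iff] at hy'
      rw [hy']
      exact IntermediateField.mem_adjoin_simple_self L _
    | algebraMap a => rw [e.i_algebraMap]; exact IntermediateField.algebraMap_mem _ _
    | add u v _ _ hu hv => rw [map_add]; exact add_mem hu hv
    | inv u _ hu => rw [map_inv₀]; exact inv_mem hu
    | mul u v _ _ hu hv => rw [map_mul]; exact mul_mem hu hv
  let g : IntermediateField.adjoin K₀ ({x} : Set F₀) →+* E :=
    (e.i.comp (algebraMap (IntermediateField.adjoin K₀ ({x} : Set F₀)) F₀)).codRestrict E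
      fun c => hmapE c c.2
  set b := Module.finBasis (IntermediateField.adjoin K₀ ({x} : Set F₀)) F₀
  have hint : ∀ y ∈ Set.range (e.i ∘ b), IsIntegral E y := by
    rintro _ ⟨k, rfl⟩
    exact IsIntegral.map_of_comp_eq g e.i (RingHom.ext fun c => rfl)
      (IsIntegral.of_finite (IntermediateField.adjoin K₀ ({x} : Set F₀)) (b k))
  haveI := IntermediateField.finiteDimensional_adjoin
    (S := Set.range (e.i ∘ b)) hint
  set M := IntermediateField.adjoin E (Set.range (e.i ∘ b))
  have hi : ∀ y, e.i y ∈ M := by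
    intro y
    rw [← b.sum_repr y, map_sum]
    refine sum_mem fun k _ => ?_
    rw [Algebra.smul_def, map_mul]
    exact mul_mem (M.algebraMap_mem (g (b.repr y k))) (IntermediateField.subset_adjoin _ _ ⟨k, rfl⟩)
  have htop : M = ⊤ := by
    refine eq_top_iff.mpr fun f _ => ?_
    have key : ∀ a ∈ e.poly, a ∈ M := by
      intro a ha
      unfold poly at ha
      induction ha using Submodule.span_induction with
      | mem y hy' => obtain ⟨z, rfl⟩ := hy'; exact hi z
      | zero => exact zero_mem M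
      | add u v _ _ hu hv => exact add_mem hu hv
      | smul l u _ hu =>
        rw [Algebra.smul_def]
        exact mul_mem (M.algebraMap_mem ⟨algebraMap L F l, IntermediateField.algebraMap_mem _ _⟩) hu
    obtain ⟨a, ha, c, hc, -, rfl⟩ := e.gen f
    exact div_mem (key a ha) (key c hc)
  haveI : FiniteDimensional E (⊤ : IntermediateField E F) := htop ▸ ‹FiniteDimensional E M›
  exact IntermediateField.topEquiv.toLinearEquiv.finiteDimensional

end ConstExt

/-- torsion count over an algebraically closed subfield of `ℂ` -/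
theorem natCard_torsion_of_embedding (K₀ F₀ : Type*) [Field K₀] [IsAlgClosed K₀] [CharZero K₀]
    [Field F₀] [Algebra K₀ F₀] [RR.FnField K₀ F₀] (σ : K₀ →+* ℂ) (n : ℕ) (hn : 0 < n) :
    Nat.card (Pic0.torsion K₀ F₀ n) = n ^ (2 * genusFF K₀ F₀) := by
  letI : Algebra K₀ ℂ := σ.toAlgebra
  haveI := isDomain_tensor (K₀ := K₀) ℂ F₀
  let j : F₀ →ₐ[K₀] FractionRing (ℂ ⊗[K₀] F₀) :=
    (IsScalarTower.toAlgHom K₀ (ℂ ⊗[K₀] F₀) _).comp Algebra.TensorProduct.includeRight
  have hm : ∀ a, mulMap (L := ℂ) j a = algebraMap (ℂ ⊗[K₀] F₀) (FractionRing (ℂ ⊗[K₀] F₀)) a := by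
    intro a
    induction a using TensorProduct.induction_on with
    | zero => simp
    | tmul l x =>
      rw [mulMap_tmul, Algebra.smul_def,
        IsScalarTower.algebraMap_apply ℂ (ℂ ⊗[K₀] F₀) (FractionRing (ℂ ⊗[K₀] F₀))]
      simp [j, ← map_mul]
    | add u v hu hv => rw [map_add, map_add, hu, hv]
  have hinj : Function.Injective (mulMap (L := ℂ) j) := fun a b h =>
    IsFractionRing.injective (ℂ ⊗[K₀] F₀) (FractionRing (ℂ ⊗[K₀] F₀)) (by rwa [hm, hm] at h)
  obtain ⟨e, -⟩ := nonempty_constExt j hinj fun f => by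
    obtain ⟨a, b, -, h⟩ := IsFractionRing.div_surjective (A := ℂ ⊗[K₀] F₀) f
    exact ⟨a, b, by rw [hm, hm, h]⟩
  haveI := e.fnField
  haveI : Finite (Pic0.torsion ℂ (FractionRing (ℂ ⊗[K₀] F₀)) n) := Nat.finite_of_card_ne_zero
    (by rw [natCard_torsion_complex n hn]; exact pow_ne_zero _ hn.ne')
  rw [e.natCard_torsion_eq, natCard_torsion_complex n hn, e.genus_eq]

end FLTAgent.AJ

end
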