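import Fermat.Agent.AJ.BuildC

/-!
Models of a function field over small algebraically closed fields of constants.
-/

set_option autoImplicit false

noncomputable section

open AlgebraicCurve Cardinal
open scoped TensorProduct

namespace FLTAgent.AJ

/-- countable fields of characteristic zero embed in `ℂ` -/
theorem exists_ringHom_complex (E : Type*) [Field E] [CharZero E] [Countable E] :
    Nonempty (E →+* ℂ) := by
  classical
  obtain ⟨t, ht⟩ := exists_isTranscendenceBasis ℚ E
  obtain ⟨B, hB⟩ := exists_isTranscendenceBasis ℚ ℂ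
  haveI : Infinite B := by
    by_contra h
    rw [not_infinite_iff_finite] at h
    have h1 := IsAlgClosed.cardinal_le_max_transcendence_basis' _ hB
    have h2 : ℵ₀ < #ℂ := by rw [Cardinal.mk_complex]; exact Cardinal.aleph0_lt_continuum
    have h3 : max (max #ℚ #B) ℵ₀ ≤ ℵ₀ := by simp
    exact absurd (h1.trans h3) (not_le.mpr h2)
  obtain ⟨f, hf⟩ := Countable.exists_injective_nat t
  have hy : AlgebraicIndependent ℚ fun i : t => ((Infinite.natEmbedding B (f i) : B) : ℂ) :=
    hB.1.comp _ ((Infinite.natEmbedding B).injective.comp hf)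
  let A := Algebra.adjoin ℚ (Set.range ((↑) : t → E))
  let φ : A →ₐ[ℚ] ℂ :=
    (MvPolynomial.aeval fun i : t => ((Infinite.natEmbedding B (f i) : B) : ℂ)).comp
      (ht.1.aevalEquiv.symm : A →ₐ[ℚ] MvPolynomial t ℚ)
  have hφ : Function.Injective φ :=
    fun u v huv => ht.1.aevalEquiv.symm.injective
      (algebraicIndependent_iff_injective_aeval.mp hy huv)
  letI : Algebra A ℂ := φ.toRingHom.toAlgebra
  haveI : FaithfulSMul A ℂ := (faithfulSMul_iff_algebraMap_injective A ℂ).mpr hφ
  haveI : Algebra.IsAlgebraic A E := ht.isAlgebraic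
  exact ⟨(IsAlgClosed.lift : E →ₐ[A] ℂ).toRingHom⟩

section Generic

variable {K₀ L F₀ F : Type*} [Field K₀] [IsAlgClosed K₀] [CharZero K₀] [Field L] [Algebra K₀ L]
  [Field F₀] [Algebra K₀ F₀] [RR.FnField K₀ F₀] [Field F] [Algebra L F] [Algebra K₀ F]
  [IsScalarTower K₀ L F]

/-- multiplication is injective as soon as one coordinate stays transcendental -/
theorem mulMap_injective (j : F₀ →ₐ[K₀] F) {x₀ : F₀} (hx₀ : Transcendental K₀ x₀)
    (hx : Transcendental L (j x₀)) : Function.Injective (mulMap (L := L) j) := by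
  haveI := isDomain_tensor (K₀ := K₀) L F₀
  letI algA : Algebra (Polynomial L) (L ⊗[K₀] F₀) :=
    (Polynomial.aeval (R := L) ((1 : L) ⊗ₜ[K₀] x₀ : L ⊗[K₀] F₀)).toRingHom.toAlgebra
  have hmp : ∀ p : Polynomial L,
      mulMap (L := L) j (algebraMap (Polynomial L) (L ⊗[K₀] F₀) p) = Polynomial.aeval (j x₀) p :=
    fun p => by
      show mulMap (L := L) j (Polynomial.aeval _ p) = _
      rw [← Polynomial.aeval_algHom_apply]
      congr 1
      simp
  have halg : ∀ a : L ⊗[K₀] F₀, IsAlgebraic (Polynomial L) a := by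
    intro a
    induction a using TensorProduct.induction_on with
    | zero => exact isAlgebraic_zero
    | add u v hu hv => exact hu.add hv
    | tmul l y =>
      rw [show (l ⊗ₜ[K₀] y : L ⊗[K₀] F₀) = (l ⊗ₜ[K₀] (1 : F₀)) * ((1 : L) ⊗ₜ[K₀] y) by simp]
      refine IsAlgebraic.mul ?_ ?_
      · have : (l ⊗ₜ[K₀] (1 : F₀) : L ⊗[K₀] F₀) =
            algebraMap (Polynomial L) (L ⊗[K₀] F₀) (Polynomial.C l) := by
          show _ = Polynomial.aeval _ (Polynomial.C l)
          rw [Polynomial.aeval_C, Algebra.TensorProduct.algebraMap_apply]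
          rfl
        rw [this]
        exact isAlgebraic_algebraMap _
      · refine RR.with_chart hx₀ fun hp _ _ => ?_
        obtain ⟨R, hR0, hR⟩ := (IsFractionRing.isAlgebraic_iff (Polynomial K₀) (RatFunc K₀) F₀).mpr
          (IsIntegral.isAlgebraic (IsIntegral.of_finite (RatFunc K₀) y))
        refine ⟨R.map (Polynomial.mapRingHom (algebraMap K₀ L)), ?_, ?_⟩
        · exact (Polynomial.map_ne_zero_iff
            (Polynomial.map_injective _ (algebraMap K₀ L).injective)).mpr hR0
        · rw [Polynomial.aeval_def, Polynomial.eval₂_map]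
          have hcomp : (algebraMap (Polynomial L) (L ⊗[K₀] F₀)).comp
              (Polynomial.mapRingHom (algebraMap K₀ L)) =
              ((Algebra.TensorProduct.includeRight : F₀ →ₐ[K₀] L ⊗[K₀] F₀).toRingHom).comp
                (algebraMap (Polynomial K₀) F₀) := by
            refine Polynomial.ringHom_ext (fun c => ?_) ?_
            · show Polynomial.aeval _ (Polynomial.map (algebraMap K₀ L) (Polynomial.C c)) = _
              rw [Polynomial.map_C, Polynomial.aeval_C, RingHom.comp_apply, hp, Polynomial.aeval_C]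
              show algebraMap L (L ⊗[K₀] F₀) (algebraMap K₀ L c) =
                (Algebra.TensorProduct.includeRight : F₀ →ₐ[K₀] L ⊗[K₀] F₀) (algebraMap K₀ F₀ c)
              rw [AlgHom.commutes, ← IsScalarTower.algebraMap_apply]
            · show Polynomial.aeval _ (Polynomial.map (algebraMap K₀ L) Polynomial.X) = _
              rw [Polynomial.map_X, Polynomial.aeval_X, RingHom.comp_apply, hp, Polynomial.aeval_X]
              rfl
          rw [hcomp, show ((1 : L) ⊗ₜ[K₀] y : L ⊗[K₀] F₀) =
            (Algebra.TensorProduct.includeRight : F₀ →ₐ[K₀] L ⊗[K₀] F₀).toRingHom y from rfl,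
            ← Polynomial.hom_eval₂, ← Polynomial.aeval_def, hR, map_zero]
  rw [injective_iff_map_eq_zero]
  intro a ha
  by_contra ha0
  obtain ⟨p, hp0, c, hc⟩ := (halg a).exists_nonzero_dvd (mem_nonZeroDivisors_of_ne_zero ha0)
  have := congrArg (mulMap (L := L) j) hc
  rw [hmp, map_mul, ha, zero_mul] at this
  exact hx ⟨p, hp0, this⟩

omit [IsAlgClosed K₀] [CharZero K₀] [RR.FnField K₀ F₀] in
theorem mulMap_generates (j : F₀ →ₐ[K₀] F) {x₀ : F₀} {ι : Type*} [Fintype ι]
    (b : Module.Basis ι (RR.KK L (j x₀)) F) (hb : ∀ k, b k ∈ Set.range j) (f : F) :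
    ∃ a c, f = mulMap (L := L) j a / mulMap (L := L) j c := by
  have hR : ∀ y : F₀, j y ∈ (mulMap (L := L) j).range :=
    fun y => ⟨(1 : L) ⊗ₜ[K₀] y, by simp⟩
  have hf : f ∈ IntermediateField.adjoin L ((mulMap (L := L) j).range : Set F) := by
    rw [← b.sum_repr f]
    refine sum_mem fun k _ => ?_
    rw [Algebra.smul_def]
    refine mul_mem ?_ (IntermediateField.subset_adjoin L _ ?_)
    · have : RR.KK L (j x₀) ≤ IntermediateField.adjoin L ((mulMap (L := L) j).range : Set F) :=
        IntermediateField.adjoin_simple_le_iff.mpr (IntermediateField.subset_adjoin L _ (hR x₀))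
      exact this (b.repr f k).2
    · obtain ⟨y, hy⟩ := hb k
      exact hy ▸ hR y
  rw [IntermediateField.mem_adjoin_iff_div, Algebra.adjoin_eq] at hf
  obtain ⟨_, ⟨a, rfl⟩, _, ⟨c, rfl⟩, hac'⟩ := hf
  exact ⟨a, c, hac'⟩

end Generic

theorem exists_small_algClosed {K : Type*} [Field K] [IsAlgClosed K] [CharZero K] (S : Finset K) :
    ∃ K₀ : IntermediateField ℚ K, IsAlgClosed K₀ ∧ Countable K₀ ∧ (S : Set K) ⊆ K₀ := by
  set Q₀ := IntermediateField.adjoin ℚ (S : Set K)
  have hQc : Countable Q₀ := by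
    rw [← Cardinal.mk_le_aleph0_iff]
    refine Cardinal.lift_le.{0}.mp ((IntermediateField.lift_cardinalMk_adjoin_le ℚ (S : Set K)).trans ?_)
    simp
  refine ⟨(algebraicClosure Q₀ K).restrictScalars ℚ, IsAlgClosure.isAlgClosed Q₀
    (K := algebraicClosure Q₀ K), ?_, fun s hs =>
      (algebraicClosure Q₀ K).algebraMap_mem ⟨s, IntermediateField.subset_adjoin ℚ (S : Set K) hs⟩⟩
  have h := Algebraic.countable Q₀ K
  exact (h.mono fun z hz => mem_algebraicClosure_iff.mp hz).to_subtype

theorem fnField_adjoin {K₀ F : Type*} [Field K₀] [Field F] [Algebra K₀ F] {x : F}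
    (hx : Transcendental K₀ x) (G : Finset F)
    (hint : ∀ g ∈ (G : Set F), IsIntegral (IntermediateField.adjoin K₀ ({x} : Set F)) g) :
    RR.FnField K₀ ((IntermediateField.adjoin (IntermediateField.adjoin K₀ ({x} : Set F))
      (G : Set F)).restrictScalars K₀) := by
  haveI := IntermediateField.finiteDimensional_adjoin (S := (G : Set F)) hint
  set E₀ := IntermediateField.adjoin K₀ ({x} : Set F)
  set M₀ := IntermediateField.adjoin E₀ (G : Set F)
  set F₀ : IntermediateField K₀ F := M₀.restrictScalars K₀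
  set x₀ : F₀ := ⟨x, M₀.algebraMap_mem ⟨x, IntermediateField.mem_adjoin_simple_self K₀ x⟩⟩
  refine ⟨x₀, (transcendental_algebraMap_iff (algebraMap F₀ F).injective).mp hx, ?_⟩
  let e₁ : IntermediateField.adjoin K₀ ({x₀} : Set F₀) ≃ₐ[K₀] E₀ :=
    ((IntermediateField.adjoin K₀ ({x₀} : Set F₀)).equivMap F₀.val).trans
      (IntermediateField.equivOfEq (by
        rw [IntermediateField.adjoin_map, Set.image_singleton]
        rfl))
  exact Module.Finite.of_equiv_equiv e₁.toRingEquiv.symm
    (RingEquiv.refl M₀ : M₀ ≃+* F₀) (RingHom.ext fun c => Subtype.ext (by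
      obtain ⟨d, rfl⟩ := e₁.toRingEquiv.surjective c
      simp only [RingHom.comp_apply, RingEquiv.coe_toRingHom, RingEquiv.symm_apply_apply]
      rfl))

variable {K F : Type*} [Field K] [Field F] [Algebra K F] [IsAlgClosed K] [CharZero K]
  [RR.FnField K F]

theorem with_model {P : Prop} (G' : Finset F)
    (h : ∀ (K₀ : IntermediateField ℚ K) (F₀ : IntermediateField K₀ F) (_ : IsAlgClosed K₀)
      (_ : Countable K₀) (_ : RR.FnField K₀ F₀) (e : ConstExt K₀ K F₀ F),
      (∀ y : F₀, e.i y = y) → (↑G' : Set F) ⊆ F₀ → P) : P := by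
  classical
  obtain ⟨x, hx, -⟩ := RR.FnField.exists_transcendental (K := K) (F := F)
  haveI := RR.finiteDimensional_KK hx
  set b := Module.finBasis (RR.KK K x) F
  set G : Finset F := G' ∪ Finset.univ.image b
  choose num den hnd using fun c : RR.KK K x =>
    (IntermediateField.mem_adjoin_simple_iff K (c : F)).mp c.2
  set S : Finset K := G.biUnion fun g => (Finset.range ((minpoly (RR.KK K x) g).natDegree + 1)).biUnion
    fun k => (num ((minpoly (RR.KK K x) g).coeff k)).coeffs ∪
      (den ((minpoly (RR.KK K x) g).coeff k)).coeffs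
  obtain ⟨K₀, hac, hcount, hS⟩ := exists_small_algClosed S
  set E₀ := IntermediateField.adjoin K₀ ({x} : Set F) with hE₀
  have haeval : ∀ r : Polynomial K, (∀ n, r.coeff n ∈ K₀) → Polynomial.aeval x r ∈ E₀ := by
    intro r hr
    rw [Polynomial.aeval_eq_sum_range]
    refine sum_mem fun n _ => ?_
    rw [Algebra.smul_def]
    exact mul_mem (E₀.algebraMap_mem (⟨_, hr n⟩ : K₀))
      (pow_mem (IntermediateField.mem_adjoin_simple_self K₀ x) n)
  have hint : ∀ g ∈ (G : Set F), IsIntegral E₀ g := by
    intro g hg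
    set p := minpoly (RR.KK K x) g with hp
    have hp' : IsIntegral (RR.KK K x) g := IsIntegral.of_finite _ g
    have hcoef : ∀ k, (p.coeff k : F) ∈ E₀ := by
      intro k
      by_cases hk : k ∈ Finset.range (p.natDegree + 1)
      · have hmem : ∀ (r : Polynomial K), r.coeffs ⊆ S → ∀ n, r.coeff n ∈ K₀ := by
          intro r hr n
          by_cases h0 : r.coeff n = 0
          · rw [h0]; exact zero_mem K₀
          · exact hS (hr (Polynomial.coeff_mem_coeffs h0))
        have hsub : (num (p.coeff k)).coeffs ∪ (den (p.coeff k)).coeffs ⊆ S := fun s hs =>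
          Finset.mem_biUnion.mpr ⟨g, hg, Finset.mem_biUnion.mpr ⟨k, hk, hs⟩⟩
        rw [hnd (p.coeff k)]
        exact div_mem (haeval _ (hmem _ (Finset.union_subset_left hsub)))
          (haeval _ (hmem _ (Finset.union_subset_right hsub)))
      · rw [Polynomial.coeff_eq_zero_of_natDegree_lt (by rw [Finset.mem_range] at hk; omega)]
        simp
    have hl : p.map (algebraMap (RR.KK K x) F) ∈ Polynomial.lifts (algebraMap E₀ F) := by
      rw [Polynomial.lifts_iff_coeff_lifts]
      intro k
      rw [Polynomial.coeff_map]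
      exact ⟨⟨_, hcoef k⟩, rfl⟩
    obtain ⟨q, hq, -, hqm⟩ :=
      Polynomial.lifts_and_degree_eq_and_monic hl ((minpoly.monic hp').map _)
    refine ⟨q, hqm, ?_⟩
    rw [← Polynomial.eval_map, hq, Polynomial.eval_map]
    exact minpoly.aeval _ g
  have hxK₀ : Transcendental K₀ x := fun halg => hx (halg.tower_top K)
  set F₀ : IntermediateField K₀ F :=
    (IntermediateField.adjoin E₀ (G : Set F)).restrictScalars K₀ with hF₀
  haveI hfn : RR.FnField K₀ F₀ := fnField_adjoin hxK₀ G hint
  have hxF : x ∈ F₀ := (IntermediateField.adjoin E₀ (G : Set F)).algebraMap_mem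
    ⟨x, IntermediateField.mem_adjoin_simple_self K₀ x⟩
  have hGF : ∀ g ∈ G, g ∈ F₀ := fun g hg => IntermediateField.subset_adjoin E₀ _ hg
  have hinj : Function.Injective (mulMap (L := K) F₀.val) :=
    mulMap_injective F₀.val (x₀ := ⟨x, hxF⟩)
      ((transcendental_algebraMap_iff (algebraMap F₀ F).injective).mp hxK₀) hx
  have hgen := mulMap_generates (L := K) F₀.val (x₀ := ⟨x, hxF⟩) b fun k =>
    ⟨⟨b k, hGF _ (Finset.mem_union_right _ (Finset.mem_image_of_mem _ (Finset.mem_univ k)))⟩, rfl⟩
  obtain ⟨e, he⟩ := nonempty_constExt F₀.val hinj hgen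
  exact h K₀ F₀ hac hcount hfn e (fun y => by rw [he]; rfl)
    fun g hg => hGF g (Finset.mem_union_left _ hg)

end FLTAgent.AJ

end
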