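import Fermat.Agent.AJ.GaloisL
import Fermat.Prelude.Def_AlgebraicCurve_BaseChangeGalois

/-!
Extensions of the field of constants of a function field, with the semilinear action of the
automorphisms of the constants, and descent of stable finite dimensional spaces.
-/

set_option autoImplicit false

noncomputable section

open AlgebraicCurve
open scoped TensorProduct

namespace FLTAgent.AJ

/-- `F` is `F₀` with the constants extended from `K₀` to `L`. -/
structure ConstExt (K₀ L F₀ F : Type*) [Field K₀] [Field L] [Algebra K₀ L] [Field F₀]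
    [Algebra K₀ F₀] [Field F] [Algebra L F] where
  i : F₀ →+* F
  i_algebraMap : ∀ c, i (algebraMap K₀ F₀ c) = algebraMap L F (algebraMap K₀ L c)
  indep : ∀ (n : ℕ) (b : Fin n → F₀), LinearIndependent K₀ b → LinearIndependent L (i ∘ b)
  gen : ∀ f : F, ∃ a ∈ Submodule.span L (Set.range i), ∃ b ∈ Submodule.span L (Set.range i),
    b ≠ 0 ∧ f = a / b
  act : (L ≃ₐ[K₀] L) → SemilinearAut L F
  act_base : ∀ σ l, SemilinearAut.baseAut (act σ) l = σ l
  act_i : ∀ σ x, SemilinearAut.toRingAut (act σ) (i x) = i x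

namespace ConstExt

variable {K₀ L F₀ F : Type*} [Field K₀] [Field L] [Algebra K₀ L] [Field F₀] [Algebra K₀ F₀]
  [Field F] [Algebra L F] (e : ConstExt K₀ L F₀ F)

/-- the action on functions -/
def conj (σ : L ≃ₐ[K₀] L) : F ≃+* F := SemilinearAut.toRingAut (e.act σ)

@[simp]
theorem conj_algebraMap (σ : L ≃ₐ[K₀] L) (l : L) :
    e.conj σ (algebraMap L F l) = algebraMap L F (σ l) := by
  rw [conj, SemilinearAut.commutes, e.act_base]

@[simp]
theorem conj_i (σ : L ≃ₐ[K₀] L) (x : F₀) : e.conj σ (e.i x) = e.i x := e.act_i σ x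

theorem conj_smul (σ : L ≃ₐ[K₀] L) (l : L) (f : F) : e.conj σ (l • f) = σ l • e.conj σ f := by
  rw [Algebra.smul_def, Algebra.smul_def, map_mul, conj_algebraMap]

theorem i_smul (c : K₀) (x : F₀) : e.i (c • x) = algebraMap K₀ L c • e.i x := by
  rw [Algebra.smul_def, Algebra.smul_def, map_mul, e.i_algebraMap]

/-- the functions with coefficients in `L` -/
def poly : Submodule L F := Submodule.span L (Set.range e.i)

theorem i_mem_poly (x : F₀) : e.i x ∈ e.poly := Submodule.subset_span ⟨x, rfl⟩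

theorem one_mem_poly : (1 : F) ∈ e.poly := by simpa using e.i_mem_poly 1

theorem mul_mem_poly {a b : F} (ha : a ∈ e.poly) (hb : b ∈ e.poly) : a * b ∈ e.poly := by
  unfold poly at ha hb ⊢
  induction ha using Submodule.span_induction with
  | mem y hy =>
    induction hb using Submodule.span_induction with
    | mem z hz =>
      obtain ⟨x, rfl⟩ := hy
      obtain ⟨x', rfl⟩ := hz
      exact Submodule.subset_span ⟨x * x', map_mul _ _ _⟩
    | zero => simp
    | add u v _ _ hu hv => rw [mul_add]; exact add_mem hu hv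
    | smul l u _ hu => rw [Algebra.mul_smul_comm]; exact Submodule.smul_mem _ l hu
  | zero => simp
  | add u v _ _ hu hv => rw [add_mul]; exact add_mem hu hv
  | smul l u _ hu => rw [Algebra.smul_mul_assoc]; exact Submodule.smul_mem _ l hu

theorem conj_mem_poly (σ : L ≃ₐ[K₀] L) {a : F} (ha : a ∈ e.poly) : e.conj σ a ∈ e.poly := by
  unfold poly at ha ⊢
  induction ha using Submodule.span_induction with
  | mem y hy => obtain ⟨x, rfl⟩ := hy; rw [conj_i]; exact e.i_mem_poly x
  | zero => simp
  | add u v _ _ hu hv => rw [map_add]; exact add_mem hu hv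
  | smul l u _ hu => rw [conj_smul]; exact Submodule.smul_mem _ _ hu

theorem conj_conj_symm (σ : L ≃ₐ[K₀] L) (f : F) : e.conj σ (e.conj σ.symm f) = f := by
  have key : ∀ a ∈ e.poly, e.conj σ (e.conj σ.symm a) = a := by
    intro a ha
    unfold poly at ha
    induction ha using Submodule.span_induction with
    | mem y hy => obtain ⟨x, rfl⟩ := hy; simp
    | zero => simp
    | add u v _ _ hu hv => rw [map_add, map_add, hu, hv]
    | smul l u _ hu => rw [conj_smul, conj_smul, AlgEquiv.apply_symm_apply, hu]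
  obtain ⟨a, ha, b, hb, -, rfl⟩ := e.gen f
  rw [map_div₀, map_div₀, key a ha, key b hb]

theorem linearIndependent_comp {ι : Type*} {b : ι → F₀} (hb : LinearIndependent K₀ b) :
    LinearIndependent L (e.i ∘ b) := by
  rw [linearIndependent_iff_finset_linearIndependent]
  intro s
  have h := e.indep s.card (fun k => b (s.equivFin.symm k))
    (hb.comp _ (Subtype.val_injective.comp s.equivFin.symm.injective))
  have h2 := h.comp s.equivFin s.equivFin.injective
  convert h2 using 1
  funext x
  simp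

/-- the basis used for coordinates -/
def basis₀ : Module.Basis (Module.Basis.ofVectorSpaceIndex K₀ F₀) K₀ F₀ :=
  Module.Basis.ofVectorSpace K₀ F₀

/-- coordinates -/
def φ : (Module.Basis.ofVectorSpaceIndex K₀ F₀ →₀ L) →ₗ[L] F :=
  Finsupp.linearCombination L (e.i ∘ basis₀ (K₀ := K₀) (F₀ := F₀))

theorem φ_injective : Function.Injective e.φ :=
  e.linearIndependent_comp (Module.Basis.linearIndependent _)

theorem φ_repr (x : F₀) :
    e.φ (Finsupp.mapRange (algebraMap K₀ L) (map_zero _) (basis₀.repr x)) = e.i x := by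
  rw [φ, Finsupp.linearCombination_apply, Finsupp.sum_mapRange_index (by simp)]
  conv_rhs => rw [← (basis₀ (K₀ := K₀) (F₀ := F₀)).linearCombination_repr x]
  rw [Finsupp.linearCombination_apply, Finsupp.sum, Finsupp.sum, map_sum]
  exact Finset.sum_congr rfl fun j _ => (e.i_smul _ _).symm

theorem range_φ : LinearMap.range e.φ = e.poly := by
  refine le_antisymm ?_ (Submodule.span_le.mpr ?_)
  · rw [φ, Finsupp.range_linearCombination]
    exact Submodule.span_mono (Set.range_comp_subset_range _ _)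
  · rintro _ ⟨x, rfl⟩
    exact ⟨_, e.φ_repr x⟩

theorem conj_φ (σ : L ≃ₐ[K₀] L) (c) : e.conj σ (e.φ c) = e.φ (coordAct σ c) := by
  induction c using Finsupp.induction_linear with
  | zero => simp [coordAct]
  | add u v hu hv =>
    rw [map_add, map_add, hu, hv, ← map_add]
    congr 1
    ext j
    simp
  | single j l =>
    rw [φ, Finsupp.linearCombination_single, coordAct, Finsupp.mapRange_single,
      Finsupp.linearCombination_single, conj_smul, Function.comp_apply, conj_i]

theorem φ_mem_range {d : Module.Basis.ofVectorSpaceIndex K₀ F₀ →₀ L}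
    (hd : ∀ j, d j ∈ Set.range (algebraMap K₀ L)) : ∃ x, e.φ d = e.i x := by
  choose c hc using hd
  refine ⟨∑ j ∈ d.support, c j • basis₀ (K₀ := K₀) (F₀ := F₀) j, ?_⟩
  rw [φ, Finsupp.linearCombination_apply, Finsupp.sum, map_sum]
  exact Finset.sum_congr rfl fun j _ => by rw [i_smul, hc, Function.comp_apply]

theorem exists_common_denominator (s : Finset F) :
    ∃ b ∈ e.poly, b ≠ 0 ∧ ∀ f ∈ s, b * f ∈ e.poly := by
  classical
  induction s using Finset.induction with
  | empty => exact ⟨1, e.one_mem_poly, one_ne_zero, fun f hf => absurd hf (Finset.notMem_empty f)⟩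
  | insert f s _ ih =>
    obtain ⟨b, hb, hb0, hbs⟩ := ih
    obtain ⟨a, ha, d, hd, hd0, hf⟩ := e.gen f
    refine ⟨b * d, e.mul_mem_poly hb hd, mul_ne_zero hb0 hd0,
      Finset.forall_mem_insert .. |>.mpr ⟨?_, fun g hg => ?_⟩⟩
    · rw [hf, mul_assoc, mul_div_cancel₀ a hd0]
      exact e.mul_mem_poly hb ha
    · rw [mul_comm b d, mul_assoc]
      exact e.mul_mem_poly hd (hbs g hg)

variable [IsAlgClosed K₀] [CharZero K₀] [IsAlgClosed L]

/-- Descent: a stable finite dimensional space is spanned by functions defined over `K₀`. -/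
theorem le_span_fixed (V : Submodule L F) [FiniteDimensional L V]
    (hV : ∀ σ, ∀ f ∈ V, e.conj σ f ∈ V) :
    V ≤ Submodule.span L {f | f ∈ V ∧ f ∈ Set.range e.i} := by
  obtain ⟨s, hs⟩ := (Submodule.fg_iff_finiteDimensional V).mpr inferInstance
  obtain ⟨b, hb, hb0, hbs⟩ := e.exists_common_denominator s
  -- the ideal of denominators
  let J : Submodule L (Module.Basis.ofVectorSpaceIndex K₀ F₀ →₀ L) :=
    { carrier := {c | ∀ f ∈ V, e.φ c * f ∈ e.poly}
      zero_mem' := fun f _ => by simp
      add_mem' := fun {c c'} hc hc' f hf => by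
        rw [map_add, add_mul]
        exact add_mem (hc f hf) (hc' f hf)
      smul_mem' := fun l c hc f hf => by
        rw [map_smul, Algebra.smul_mul_assoc]
        exact Submodule.smul_mem _ l (hc f hf) }
  have hJ : ∀ σ : L ≃ₐ[K₀] L, ∀ c ∈ J, coordAct σ c ∈ J := by
    intro σ c hc f hf
    rw [← e.conj_φ, ← e.conj_conj_symm σ f, ← map_mul]
    exact e.conj_mem_poly σ (hc _ (hV _ f hf))
  obtain ⟨c, hc⟩ : b ∈ LinearMap.range e.φ := e.range_φ ▸ hb
  have hcJ : c ∈ J := by
    intro f hf
    rw [hc]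
    rw [← hs] at hf
    induction hf using Submodule.span_induction with
    | mem y hy => exact hbs y hy
    | zero => simp
    | add u v _ _ hu hv => rw [mul_add]; exact add_mem hu hv
    | smul l u _ hu => rw [Algebra.mul_smul_comm]; exact Submodule.smul_mem _ l hu
  obtain ⟨d, ⟨hdJ, hdK⟩, hd0⟩ : ∃ d ∈ {d | d ∈ J ∧ ∀ j, d j ∈ Set.range (algebraMap K₀ L)},
      d ≠ 0 := by
    by_contra hne
    simp only [not_exists, not_and, not_not] at hne
    have h0 : c = 0 := by
      have h1 := mem_span_fixed J hJ c hcJ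
      rw [Submodule.span_eq_bot.mpr hne] at h1
      exact h1
    exact hb0 (by rw [← hc, h0, map_zero])
  obtain ⟨b₀, hb₀⟩ := e.φ_mem_range hdK
  have hib : e.i b₀ ≠ 0 := by
    rw [← hb₀]
    exact fun h => hd0 (e.φ_injective (by rw [h, map_zero]))
  -- the coordinates of `b₀ • V`
  let W : Submodule L (Module.Basis.ofVectorSpaceIndex K₀ F₀ →₀ L) :=
    (V.map (LinearMap.mulLeft L (e.i b₀))).comap e.φ
  have hW : ∀ σ : L ≃ₐ[K₀] L, ∀ x ∈ W, coordAct σ x ∈ W := by
    rintro σ x ⟨f, hf, hfx⟩
    refine ⟨e.conj σ f, hV σ f hf, ?_⟩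
    simp only [LinearMap.mulLeft_apply] at hfx ⊢
    rw [← e.conj_φ, ← hfx, map_mul, conj_i]
  intro f hf
  obtain ⟨x, hx⟩ : e.i b₀ * f ∈ LinearMap.range e.φ :=
    e.range_φ ▸ (hb₀ ▸ hdJ f hf)
  have hmem := mem_span_fixed W hW x ⟨f, hf, by simp [hx]⟩
  have hle : Submodule.span L {x | x ∈ W ∧ ∀ j, x j ∈ Set.range (algebraMap K₀ L)} ≤
      (Submodule.span L {f | f ∈ V ∧ f ∈ Set.range e.i}).comap
        ((LinearMap.mulLeft L (e.i b₀)⁻¹).comp e.φ) := by
    refine Submodule.span_le.mpr ?_
    rintro y ⟨⟨g, hg, hgy⟩, hyK⟩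
    obtain ⟨y₀, hy₀⟩ := e.φ_mem_range hyK
    simp only [LinearMap.mulLeft_apply] at hgy
    refine Submodule.subset_span ⟨?_, y₀ / b₀, ?_⟩
    · simp only [LinearMap.comp_apply, LinearMap.mulLeft_apply]
      rwa [← hgy, inv_mul_cancel_left₀ hib]
    · simp only [LinearMap.comp_apply, LinearMap.mulLeft_apply]
      rw [map_div₀, hy₀, div_eq_inv_mul]
  have := hle hmem
  rwa [Submodule.mem_comap, LinearMap.comp_apply, LinearMap.mulLeft_apply, hx,
    inv_mul_cancel_left₀ hib] at this

end ConstExt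

section OfTensor

variable {K₀ L F₀ F : Type*} [Field K₀] [Field L] [Algebra K₀ L] [Field F₀] [Algebra K₀ F₀]
  [Field F] [Algebra L F] [Algebra K₀ F] [IsScalarTower K₀ L F]

/-- the multiplication map -/
def mulMap (j : F₀ →ₐ[K₀] F) : L ⊗[K₀] F₀ →ₐ[L] F :=
  Algebra.TensorProduct.lift (Algebra.ofId L F) j fun _ _ => Commute.all _ _

@[simp]
theorem mulMap_tmul (j : F₀ →ₐ[K₀] F) (l : L) (x : F₀) : mulMap j (l ⊗ₜ[K₀] x) = l • j x := by
  rw [mulMap, Algebra.TensorProduct.lift_tmul, Algebra.smul_def]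
  rfl

theorem mulMap_mem_span (j : F₀ →ₐ[K₀] F) (a : L ⊗[K₀] F₀) :
    mulMap j a ∈ Submodule.span L (Set.range j) := by
  induction a using TensorProduct.induction_on with
  | zero => simp
  | tmul l x =>
    rw [mulMap_tmul]
    exact Submodule.smul_mem _ l (Submodule.subset_span ⟨x, rfl⟩)
  | add u v hu hv => rw [map_add]; exact add_mem hu hv

theorem linearIndependent_of_mulMap (j : F₀ →ₐ[K₀] F) (hj : Function.Injective (mulMap (L := L) j))
    (n : ℕ) (b : Fin n → F₀) (hb : LinearIndependent K₀ b) :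
    LinearIndependent L (j ∘ b) := by
  obtain ⟨p, hp⟩ := LinearMap.exists_leftInverse_of_injective
    (Fintype.linearCombination K₀ b) (LinearMap.ker_eq_bot.mpr hb.fintypeLinearCombination_injective)
  rw [Fintype.linearIndependent_iff]
  intro l hl k
  have h0 : ∑ i, l i ⊗ₜ[K₀] b i = 0 := hj (by
    rw [map_zero, map_sum]
    simpa using hl)
  have := congrArg (LinearMap.lTensor L ((LinearMap.proj k).comp p)) h0
  rw [map_zero, map_sum] at this
  simp only [LinearMap.lTensor_tmul, LinearMap.comp_apply] at this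
  have hpb : ∀ i, p (b i) = Pi.single i 1 := fun i => by
    have := LinearMap.congr_fun hp (Pi.single i 1)
    simpa [Fintype.linearCombination_apply_single] using this
  simp only [hpb, LinearMap.proj_apply] at this
  rw [Finset.sum_eq_single k (fun i _ hi => by rw [Pi.single_eq_of_ne hi.symm,
    TensorProduct.tmul_zero]) (by simp), Pi.single_eq_same] at this
  simpa using congrArg (TensorProduct.rid K₀ L) this

open scoped Classical in
theorem nonempty_constExt (j : F₀ →ₐ[K₀] F) (hj : Function.Injective (mulMap (L := L) j))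
    (hgen : ∀ f : F, ∃ a b, f = mulMap (L := L) j a / mulMap (L := L) j b) :
    ∃ e : ConstExt K₀ L F₀ F, e.i = j.toRingHom := by
  letI : Algebra (L ⊗[K₀] F₀) F := (mulMap (L := L) j).toRingHom.toAlgebra
  haveI : FaithfulSMul (L ⊗[K₀] F₀) F := (faithfulSMul_iff_algebraMap_injective _ _).mpr hj
  haveI : IsFractionRing (L ⊗[K₀] F₀) F := IsFractionRing.of_field _ _ hgen
  let act0 : (L ≃ₐ[K₀] L) → (F ≃+* F) := fun σ =>
    IsFractionRing.ringEquivOfRingEquiv
      (Algebra.TensorProduct.congr (R := K₀) (S := K₀) σ (AlgEquiv.refl (R := K₀) (A₁ := F₀))).toRingEquiv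
  have hact : ∀ σ l x, act0 σ (mulMap j (l ⊗ₜ[K₀] x)) = mulMap j (σ l ⊗ₜ[K₀] x) := by
    intro σ l x
    show act0 σ (algebraMap (L ⊗[K₀] F₀) F _) = algebraMap (L ⊗[K₀] F₀) F _
    simp only [act0]
    rw [IsFractionRing.ringEquivOfRingEquiv_algebraMap]
    simp
  have h1 : ∀ σ l, act0 σ (algebraMap L F l) = algebraMap L F (σ l) := fun σ l => by
    simpa [Algebra.algebraMap_eq_smul_one] using hact σ l 1
  refine ⟨{
    i := j.toRingHom
    i_algebraMap := fun c => by
      simp [← IsScalarTower.algebraMap_apply]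
    indep := linearIndependent_of_mulMap j hj
    gen := fun f => ?_
    act := fun σ => ⟨(act0 σ, σ.toRingEquiv), h1 σ⟩
    act_base := fun σ l => rfl
    act_i := fun σ x => by
      show act0 σ (j x) = j x
      simpa using hact σ 1 x }, rfl⟩
  obtain ⟨a, b, hf⟩ := hgen f
  by_cases hb : mulMap (L := L) j b = 0
  · refine ⟨0, zero_mem _, 1, Submodule.subset_span ⟨1, map_one _⟩, one_ne_zero, ?_⟩
    rw [hf, hb, div_zero, zero_div]
  · exact ⟨_, mulMap_mem_span j a, _, mulMap_mem_span j b, hb, hf⟩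

end OfTensor

end FLTAgent.AJ

end
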