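import Mathlib

/-!
The analytic branch of a simple root of a polynomial in two variables.
-/

set_option autoImplicit false

noncomputable section

open Polynomial Filter Topology
open scoped ContDiff

namespace FLTAgent.AJ

/-- evaluation at a point of `ℂ²` -/
def evC (a : ℂ[X][X]) (z Y : ℂ) : ℂ := Polynomial.eval₂ (Polynomial.evalRingHom z) Y a

theorem evC_monomial (n : ℕ) (p : ℂ[X]) (z Y : ℂ) :
    evC (monomial n p) z Y = p.eval z * Y ^ n := by
  simp [evC, eval₂_monomial]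

theorem evC_add (a b : ℂ[X][X]) (z Y : ℂ) : evC (a + b) z Y = evC a z Y + evC b z Y := by
  simp [evC, eval₂_add]

theorem contDiff_evC (a : ℂ[X][X]) : ContDiff ℂ ω fun p : ℂ × ℂ => evC a p.1 p.2 := by
  induction a using Polynomial.induction_on' with
  | add p q hp hq => simpa only [evC_add] using hp.add hq
  | monomial n p =>
    simp only [evC_monomial]
    refine ContDiff.mul ?_ (contDiff_snd.pow n)
    have h := (p.contDiff_aeval (𝕜 := ℂ) ω).comp (contDiff_fst (𝕜 := ℂ) (E := ℂ) (F := ℂ))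
    simp only [Polynomial.coe_aeval_eq_eval] at h
    exact h

theorem hasFDerivAt_evC (a : ℂ[X][X]) (p₀ : ℂ × ℂ) :
    ∃ A : ℂ, HasFDerivAt (fun p : ℂ × ℂ => evC a p.1 p.2)
      (A • ContinuousLinearMap.fst ℂ ℂ ℂ +
        evC (derivative a) p₀.1 p₀.2 • ContinuousLinearMap.snd ℂ ℂ ℂ) p₀ := by
  induction a using Polynomial.induction_on' with
  | add p q hp hq =>
    obtain ⟨A, hA⟩ := hp
    obtain ⟨B, hB⟩ := hq
    refine ⟨A + B, ?_⟩
    have h := hA.add hB
    simp only [evC_add, derivative_add]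
    refine h.congr_fderiv ?_
    ext r <;> simp <;> ring
  | monomial n p =>
    refine ⟨(derivative p).eval p₀.1 * p₀.2 ^ n, ?_⟩
    have h1 : HasFDerivAt (fun q : ℂ × ℂ => p.eval q.1)
        ((derivative p).eval p₀.1 • ContinuousLinearMap.fst ℂ ℂ ℂ) p₀ :=
      (p.hasDerivAt p₀.1).comp_hasFDerivAt p₀ hasFDerivAt_fst
    have h2 : HasFDerivAt (fun q : ℂ × ℂ => q.2 ^ n)
        (((n : ℂ) * p₀.2 ^ (n - 1)) • ContinuousLinearMap.snd ℂ ℂ ℂ) p₀ :=
      (hasDerivAt_pow n p₀.2).comp_hasFDerivAt p₀ hasFDerivAt_snd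
    have h := h1.mul h2
    simp only [evC_monomial, derivative_monomial]
    refine h.congr_fderiv ?_
    rw [eval_mul, eval_natCast, smul_smul, smul_smul, add_comm]
    congr 2 <;> ring

/-- the branch through a simple root -/
theorem exists_branch (q : ℂ[X][X]) (h0 : evC q 0 0 = 0) (hs : evC (derivative q) 0 0 ≠ 0) :
    ∃ Y : ℂ → ℂ, Y 0 = 0 ∧
      (∀ᶠ z in 𝓝 (0 : ℂ), evC q z (Y z) = 0 ∧ AnalyticAt ℂ Y z ∧
        evC (derivative q) z (Y z) ≠ 0) ∧
      ∀ᶠ p in 𝓝 (0 : ℂ × ℂ), evC q p.1 p.2 = 0 → p.2 = Y p.1 := by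
  obtain ⟨A, hA⟩ := hasFDerivAt_evC q 0
  simp only [Prod.fst_zero, Prod.snd_zero] at hA
  set s := evC (derivative q) 0 0 with hsdef
  set Φ : ℂ × ℂ → ℂ × ℂ := fun p => (p.1, evC q p.1 p.2) with hΦ
  have hΦC : ContDiffAt ℂ ω Φ 0 := (contDiff_fst.prodMk (contDiff_evC q)).contDiffAt
  let E : (ℂ × ℂ) ≃L[ℂ] ℂ × ℂ := LinearEquiv.toContinuousLinearEquiv
    { toFun := fun p => (p.1, A * p.1 + s * p.2)
      invFun := fun p => (p.1, (p.2 - A * p.1) / s)
      left_inv := fun p => by ext <;> simp [hs]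
      right_inv := fun p => by
        ext
        · rfl
        · show A * p.1 + s * ((p.2 - A * p.1) / s) = p.2
          rw [mul_div_cancel₀ _ hs]
          ring
      map_add' := fun p r => by ext <;> simp; ring
      map_smul' := fun c p => by ext <;> simp; ring }
  have hE : HasFDerivAt Φ (E : ℂ × ℂ →L[ℂ] ℂ × ℂ) 0 := by
    refine (hasFDerivAt_fst.prodMk hA).congr_fderiv ?_
    ext p <;> simp [E]
  have hω : (ω : WithTop ℕ∞) ≠ 0 := by simp
  have hS := hΦC.hasStrictFDerivAt' hE hω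
  set G := hΦC.localInverse hE hω with hG
  have hΦ0 : Φ 0 = 0 := by simp [hΦ, h0]
  have hG0 : G 0 = 0 := by
    have := hΦC.localInverse_apply_image hE hω
    rwa [hΦ0] at this
  have hGC : ContDiffAt ℂ ω G 0 := by
    have := hΦC.to_localInverse hE hω
    rwa [hΦ0] at this
  have hr : ∀ᶠ y in 𝓝 (0 : ℂ × ℂ), Φ (G y) = y := by
    have := hS.eventually_right_inverse
    rwa [hΦ0] at this
  have hl : ∀ᶠ x in 𝓝 (0 : ℂ × ℂ), G (Φ x) = x := hS.eventually_left_inverse
  have hin : Tendsto (fun z : ℂ => ((z, 0) : ℂ × ℂ)) (𝓝 0) (𝓝 0) :=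
    (continuous_id.prodMk continuous_const).tendsto' 0 0 rfl
  set Y : ℂ → ℂ := fun z => (G (z, 0)).2 with hY
  have hY0 : Y 0 = 0 := by
    simp only [hY]
    rw [show ((0, 0) : ℂ × ℂ) = 0 from rfl, hG0]
    rfl
  have hYC : ContDiffAt ℂ ω Y 0 := by
    have h := ContDiffAt.comp (0 : ℂ) (g := G) (f := fun z : ℂ => ((z, 0) : ℂ × ℂ))
      (show ContDiffAt ℂ ω G ((0 : ℂ), (0 : ℂ)) from hGC) (contDiffAt_id.prodMk contDiffAt_const)
    exact h.snd
  refine ⟨Y, hY0, ?_, ?_⟩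
  · have han : AnalyticAt ℂ Y 0 := hYC.analyticAt
    have hpair : Tendsto (fun z : ℂ => ((z, Y z) : ℂ × ℂ)) (𝓝 0) (𝓝 0) := by
      refine tendsto_id.prodMk_nhds ?_
      simpa [hY0] using hYC.continuousAt.tendsto
    have hne : ∀ᶠ p in 𝓝 (0 : ℂ × ℂ), evC (derivative q) p.1 p.2 ≠ 0 :=
      (contDiff_evC (derivative q)).continuous.continuousAt.eventually_ne hs
    filter_upwards [hin.eventually hr, han.eventually_analyticAt, hpair.eventually hne]
      with z h1 h2 h3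
    refine ⟨?_, h2, h3⟩
    have e1 := congrArg Prod.fst h1
    have e2 := congrArg Prod.snd h1
    simp only [hΦ] at e1 e2
    simp only [hY]
    conv_lhs => arg 2; rw [← e1]
    exact e2
  · filter_upwards [hl] with p hp hq
    simp only [hΦ, hq] at hp
    simp only [hY, hp]

end FLTAgent.AJ

end
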