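import Fermat.Agent.AJ.Param
import Fermat.Agent.AJ.Implicit
import Fermat.Agent.Genus.Germ
import Fermat.Agent.Genus.Fibre

/-!
Analytic discs on a curve over `ℂ`, given by the places of the function field.
-/

set_option autoImplicit false

noncomputable section

open AlgebraicCurve Polynomial Filter Topology

namespace FLTAgent.AJ

variable {F : Type*} [Field F] [Algebra ℂ F] [RR.FnField ℂ F]

theorem order_pos {g : ℂ → ℂ} {z : ℂ} (hg : AnalyticAt ℂ g z) (h0 : g z = 0) :
    (0 : WithTop ℤ) < meromorphicOrderAt g z := by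
  rw [hg.meromorphicOrderAt_eq]
  have h := hg.analyticOrderAt_ne_zero.mpr h0
  cases hn : analyticOrderAt g z with
  | top => exact WithTop.coe_lt_top 0
  | coe n =>
    rw [hn] at h
    rw [ENat.map_natCast]
    have hn0 : n ≠ 0 := fun e => h (by rw [e]; rfl)
    exact WithTop.coe_lt_coe.mpr (by omega)

/-- evaluation of a polynomial along the graph of `Y`, as a germ at `z₀` -/
theorem analyticAt_evC {Y : ℂ → ℂ} {z₀ : ℂ} (hY : AnalyticAt ℂ Y z₀) (a : ℂ[X][X]) :
    AnalyticAt ℂ (fun z => evC a z (Y z)) z₀ := by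
  induction a using Polynomial.induction_on' with
  | add p q hp hq => simp only [evC_add]; exact hp.add hq
  | monomial n p =>
    simp only [evC_monomial]
    refine AnalyticAt.mul ?_ (hY.pow n)
    simpa only [Polynomial.coe_aeval_eq_eval, id] using (analyticAt_id (𝕜 := ℂ) (z := z₀)).aeval_polynomial p

/-- the germ homomorphism on polynomials -/
def polyGerm {Y : ℂ → ℂ} {z₀ : ℂ} (hY : AnalyticAt ℂ Y z₀) : ℂ[X][X] →+* Genus.MeroGerm z₀ where
  toFun a := Genus.germOf (fun z => evC a z (Y z)) (analyticAt_evC hY a).meromorphicAt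
  map_one' := by
    refine ((Genus.germOf_eq_iff _ (MeromorphicAt.const 1 z₀)).mpr ?_).trans rfl
    filter_upwards with z
    simp [evC]
  map_mul' a b := by
    rw [Genus.germOf_mul, Genus.germOf_eq_iff]
    filter_upwards with z
    simp [evC, eval₂_mul]
  map_zero' := by
    refine ((Genus.germOf_eq_iff _ (MeromorphicAt.const 0 z₀)).mpr ?_).trans rfl
    filter_upwards with z
    simp [evC]
  map_add' a b := by
    rw [Genus.germOf_add, Genus.germOf_eq_iff]
    filter_upwards with z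
    simp [evC, eval₂_add]

theorem polyGerm_eq {Y : ℂ → ℂ} {z₀ : ℂ} (hY : AnalyticAt ℂ Y z₀) (a : ℂ[X][X]) :
    polyGerm hY a = Genus.germOf (fun z => evC a z (Y z)) (analyticAt_evC hY a).meromorphicAt := rfl

variable {v : Place ℂ F} {t : F} (M : Model v t)

theorem polyGerm_ne_zero {Y : ℂ → ℂ} {z₀ : ℂ} (hY : AnalyticAt ℂ Y z₀)
    (hq : polyGerm hY M.q = 0) {a : ℂ[X][X]} (ha : ev2 t M.y a ≠ 0) : polyGerm hY a ≠ 0 := by
  intro h0
  obtain ⟨c, b, hc, hdvd⟩ := M.exists_den a ha
  have h1 : polyGerm hY (C c) = 0 := by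
    obtain ⟨m, hm⟩ := hdvd
    have := congrArg (polyGerm hY) hm
    rw [map_sub, map_mul, h0, zero_mul, zero_sub, map_mul, hq, zero_mul, neg_eq_zero] at this
    exact this
  rw [polyGerm_eq, Genus.germOf_eq_zero_iff, meromorphicOrderAt_eq_top_iff] at h1
  have hfin : {z : ℂ | c.eval z = 0}.Finite := by
    simpa [Polynomial.IsRoot] using Polynomial.finite_setOf_isRoot hc
  have hinf : ∀ᶠ z in 𝓝[≠] z₀, c.eval z ≠ 0 := by
    have : ∀ᶠ z in 𝓝[≠] z₀, z ∉ {z : ℂ | c.eval z = 0} \ {z₀} :=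
      eventually_nhdsWithin_of_eventually_nhds
        ((hfin.subset Set.sdiff_subset).isClosed.isOpen_compl.mem_nhds (by simp))
    filter_upwards [this, self_mem_nhdsWithin] with z hz hz' h
    exact hz ⟨h, hz'⟩
  obtain ⟨z, hz, hz'⟩ := (h1.and hinf).exists
  exact hz' (by simpa [evC] using hz)

theorem exists_sigma {Y : ℂ → ℂ} {z₀ : ℂ} (hY : AnalyticAt ℂ Y z₀)
    (hq : polyGerm hY M.q = 0) :
    ∃ σ : F →+* Genus.MeroGerm z₀, ∀ a, σ (ev2 t M.y a) = polyGerm hY a := by
  set A := (ev2 (K := ℂ) t M.y).range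
  haveI : IsFractionRing A F := IsFractionRing.of_field A F fun f => by
    obtain ⟨a, b, hb, hab⟩ := M.gen f
    exact ⟨⟨_, a, rfl⟩, ⟨_, b, rfl⟩, (eq_div_iff hb).mpr hab⟩
  have hsurj : Function.Surjective (ev2 (K := ℂ) t M.y).rangeRestrict :=
    (ev2 (K := ℂ) t M.y).rangeRestrict_surjective
  have hker : RingHom.ker (ev2 (K := ℂ) t M.y).rangeRestrict ≤ RingHom.ker (polyGerm hY) := by
    intro a ha
    rw [RingHom.mem_ker] at ha ⊢
    obtain ⟨m, rfl⟩ := M.dvd a (congrArg Subtype.val ha)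
    rw [map_mul, hq, zero_mul]
  set ρ := (ev2 (K := ℂ) t M.y).rangeRestrict.liftOfSurjective hsurj ⟨polyGerm hY, hker⟩ with hρ
  have hρe : ∀ a, ρ ((ev2 (K := ℂ) t M.y).rangeRestrict a) = polyGerm hY a :=
    fun a => RingHom.liftOfSurjective_comp_apply _ hsurj ⟨polyGerm hY, hker⟩ a
  have hinj : Function.Injective ρ := by
    rw [injective_iff_map_eq_zero]
    rintro x hx
    obtain ⟨a, rfl⟩ := hsurj x
    rw [hρe] at hx
    by_contra hne
    exact polyGerm_ne_zero M hY hq (fun h => hne (Subtype.ext h)) hx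
  refine ⟨IsFractionRing.lift hinj, fun a => ?_⟩
  rw [show ev2 t M.y a = algebraMap A F ((ev2 (K := ℂ) t M.y).rangeRestrict a) from rfl,
    IsFractionRing.lift_algebraMap, hρe]

/-- the function on the disc attached to `f` -/
def realise (Y : ℂ → ℂ) (f : F) (z : ℂ) : ℂ :=
  evC (M.gen f).choose z (Y z) / evC (M.gen f).choose_spec.choose z (Y z)

theorem meromorphicAt_realise {Y : ℂ → ℂ} {z₀ : ℂ} (hY : AnalyticAt ℂ Y z₀) (f : F) :
    MeromorphicAt (realise M Y f) z₀ :=
  (analyticAt_evC hY _).meromorphicAt.div (analyticAt_evC hY _).meromorphicAt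

theorem sigma_eq_realise {Y : ℂ → ℂ} {z₀ : ℂ} (hY : AnalyticAt ℂ Y z₀)
    (hq : polyGerm hY M.q = 0) {σ : F →+* Genus.MeroGerm z₀}
    (hσ : ∀ a, σ (ev2 t M.y a) = polyGerm hY a) (f : F) :
    σ f = Genus.germOf (realise M Y f) (meromorphicAt_realise M hY f) := by
  obtain ⟨hb, hab⟩ := (M.gen f).choose_spec.choose_spec
  set a := (M.gen f).choose
  set b := (M.gen f).choose_spec.choose
  have hb' := polyGerm_ne_zero M hY hq hb
  have e := congrArg σ hab
  rw [map_mul, hσ, hσ] at e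
  refine mul_right_cancel₀ hb' ?_
  rw [e, polyGerm_eq, polyGerm_eq, Genus.germOf_mul, Genus.germOf_eq_iff]
  have hne : ∀ᶠ z in 𝓝[≠] z₀, evC b z (Y z) ≠ 0 := by
    rw [← meromorphicOrderAt_ne_top_iff_eventually_ne_zero (analyticAt_evC hY b).meromorphicAt]
    intro h
    exact hb' ((Genus.germOf_eq_zero_iff (analyticAt_evC hY b).meromorphicAt).mpr h)
  filter_upwards [hne] with z hz
  show evC a z (Y z) = evC a z (Y z) / evC b z (Y z) * evC b z (Y z)
  rw [div_mul_cancel₀ _ hz]

/-- the place at a point of the disc -/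
theorem exists_place {Y : ℂ → ℂ} {z₀ : ℂ} (hY : AnalyticAt ℂ Y z₀)
    (hq : polyGerm hY M.q = 0) :
    ∃ w : Place ℂ F, w.ord (t - algebraMap ℂ F z₀) = 1 ∧
      ∀ f : F, f ≠ 0 → (meromorphicOrderAt (realise M Y f) z₀).untop₀ = w.ord f ∧
        meromorphicOrderAt (realise M Y f) z₀ ≠ ⊤ := by
  obtain ⟨σ, hσ⟩ := exists_sigma M hY hq
  set ν := (Genus.ordVal z₀).comap σ with hν
  have hordg : ∀ f : F, Genus.vlog ν f = (meromorphicOrderAt (realise M Y f) z₀).untop₀ := by
    intro f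
    show -(WithZero.log (Genus.ordVal z₀ (σ f))) = _
    rw [sigma_eq_realise M hY hq hσ, Genus.log_ordVal_germOf]
  have hK : ∀ c : ℂ, ν (algebraMap ℂ F c) ≤ 1 := by
    intro c
    rcases eq_or_ne c 0 with rfl | hc
    · simp
    · refine (le_of_eq ?_)
      show Genus.ordVal z₀ (σ (algebraMap ℂ F c)) = 1
      have e : algebraMap ℂ F c = ev2 t M.y (C (C c)) := by rw [ev2_C, aeval_C]
      rw [e, hσ, polyGerm_eq]
      have : Genus.germOf (fun z => evC (C (C c)) z (Y z)) (analyticAt_evC hY _).meromorphicAt =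
          algebraMap ℂ (Genus.MeroGerm z₀) c := by
        rw [Genus.algebraMap_eq_germOf, Genus.germOf_eq_iff]
        filter_upwards with z
        simp [evC]
      rw [this, Genus.ordVal_algebraMap hc]
  have htT : t - algebraMap ℂ F z₀ = ev2 t M.y (C (X - C z₀)) := by
    rw [ev2_C, map_sub, aeval_X, aeval_C]
  have htν : ν (t - algebraMap ℂ F z₀) = WithZero.exp (-(1 : ℤ)) := by
    show Genus.ordVal z₀ (σ (t - algebraMap ℂ F z₀)) = _
    rw [htT, hσ, polyGerm_eq]
    refine Genus.ordVal_germOf _ ?_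
    rw [show (fun z => evC (C (X - C z₀)) z (Y z)) = fun z => z - z₀ from funext fun z => by
      simp [evC]]
    exact meromorphicOrderAt_id_sub_const
  have hx : 1 < ν (t - algebraMap ℂ F z₀)⁻¹ := by
    rw [map_inv₀, htν, ← WithZero.exp_neg, neg_neg, ← WithZero.exp_zero, WithZero.exp_lt_exp]
    norm_num
  obtain ⟨w, g, hg, hw⟩ := Genus.exists_place_of_valuation ν hK hx
  have ht0 : t - algebraMap ℂ F z₀ ≠ 0 := fun h => by
    rw [h, map_zero] at htν
    exact WithZero.exp_ne_zero htν.symm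
  have h1 := hw _ ht0
  rw [show Genus.vlog ν (t - algebraMap ℂ F z₀) = 1 by simp [Genus.vlog, htν]] at h1
  have hg1 : (g : ℤ) = 1 := Int.eq_one_of_mul_eq_one_right (by positivity) h1.symm
  refine ⟨w, by rw [hg1, one_mul] at h1; exact h1.symm, fun f hf => ⟨?_, ?_⟩⟩
  · rw [← hordg, hw f hf, hg1, one_mul]
  · intro h
    have h0 : σ f = 0 := by
      rw [sigma_eq_realise M hY hq hσ]
      exact (Genus.germOf_eq_zero_iff _).mpr h
    exact hf ((map_eq_zero σ).mp h0)

omit M in
/-- a disc around `v` with coordinate `t` -/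
structure Disc (v : Place ℂ F) (t : F) where
  /-- radius -/
  r : ℝ
  r_pos : 0 < r
  /-- the point with coordinate `z` -/
  pt : ℂ → Place ℂ F
  pt_zero : pt 0 = v
  ord_sub : ∀ z : ℂ, ‖z‖ < r → (pt z).ord (t - algebraMap ℂ F z) = 1
  analytic : ∀ f : F, RR.Bd v f 0 → ∃ g : ℂ → ℂ, AnalyticAt ℂ g 0 ∧
    ∀ᶠ z in 𝓝 (0 : ℂ), RR.Bd (pt z) f 0 ∧ val (pt z) f = g z
  /-- second coordinate -/
  y : F
  y_bd : RR.Bd v y 0
  y_val : val v y = 0
  eq_pt : ∃ ε : ℝ, 0 < ε ∧ ε ≤ r ∧ ∀ Q : Place ℂ F, RR.Bd Q t 0 → RR.Bd Q y 0 →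
    ‖val Q t‖ < ε → ‖val Q y‖ < ε → Q = pt (val Q t)

theorem ord_pos_of_order {Y : ℂ → ℂ} {z₀ : ℂ} {w : Place ℂ F}
    (hw : ∀ f : F, f ≠ 0 → (meromorphicOrderAt (realise M Y f) z₀).untop₀ = w.ord f ∧
        meromorphicOrderAt (realise M Y f) z₀ ≠ ⊤)
    {f : F} {g : ℂ → ℂ} (hg : AnalyticAt ℂ g z₀) (he : realise M Y f =ᶠ[𝓝[≠] z₀] g) :
    RR.Bd w f 0 := by
  rw [bd_nonneg]
  rcases eq_or_ne f 0 with rfl | hf
  · exact Or.inl rfl
  refine Or.inr ?_
  rw [← (hw f hf).1, meromorphicOrderAt_congr he]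
  exact WithTop.untop₀_nonneg.mpr hg.meromorphicOrderAt_nonneg

theorem exists_disc {v : Place ℂ F} {t : F} (ht : v.ord t = 1) : Nonempty (Disc v t) := by
  classical
  obtain ⟨M⟩ := exists_model ht
  have htb : RR.Bd v t 0 := bd_nonneg.mpr (Or.inr (by omega))
  have hyb : RR.Bd v M.y 0 := bd_nonneg.mpr (Or.inr (by rw [M.ord_y]; norm_num))
  have ht0 : val v t = 0 := by
    rw [val_eq_zero_iff htb, RR.bd_iff_ord (fun h => by rw [h] at ht; simp at ht)]
    omega
  have hy0 : val v M.y = 0 := by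
    rw [val_eq_zero_iff hyb, RR.bd_iff_ord (fun h => by simpa [h] using M.ord_y)]
    rw [M.ord_y]
    norm_num
  have htT : Transcendental ℂ t := RR.transcendental_of_ord_ne_zero (v := v) (by omega)
  have hq0 : evC M.q 0 0 = 0 := by
    have := (bd_ev2_and_val htb hyb M.q).2
    rw [M.ev_q, ht0, hy0, ← map_zero (algebraMap ℂ F), val_algebraMap] at this
    exact this.symm
  obtain ⟨Y, hY0, hev, huniq⟩ := exists_branch M.q hq0 M.smooth
  obtain ⟨r, hr, hball⟩ := Metric.eventually_nhds_iff.mp hev.eventually_nhds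
  have hgood : ∀ z : ℂ, ‖z‖ < r → ∃ hY' : AnalyticAt ℂ Y z,
      polyGerm hY' M.q = 0 ∧ evC (derivative M.q) z (Y z) ≠ 0 := by
    intro z hz
    have h := hball (show dist z 0 < r by simpa using hz)
    obtain ⟨-, h2, h3⟩ := h.self_of_nhds
    refine ⟨h2, ?_, h3⟩
    rw [polyGerm_eq, Genus.germOf_eq_zero_iff, meromorphicOrderAt_eq_top_iff]
    exact eventually_nhdsWithin_of_eventually_nhds (h.mono fun x hx => hx.1)
  have hex : ∀ z : ℂ, ∃ w : Place ℂ F, ‖z‖ < r → w.ord (t - algebraMap ℂ F z) = 1 ∧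
      ∀ f : F, f ≠ 0 → (meromorphicOrderAt (realise M Y f) z).untop₀ = w.ord f ∧
        meromorphicOrderAt (realise M Y f) z ≠ ⊤ := by
    intro z
    by_cases hz : ‖z‖ < r
    · obtain ⟨hY', hq, -⟩ := hgood z hz
      obtain ⟨w, h1, h2⟩ := exists_place M hY' hq
      exact ⟨w, fun _ => ⟨h1, h2⟩⟩
    · exact ⟨v, fun h => absurd h hz⟩
  choose pt hpt using hex
  -- coordinates of the points
  have hcoord : ∀ z : ℂ, ‖z‖ < r → RR.Bd (pt z) t 0 ∧ val (pt z) t = z ∧
      RR.Bd (pt z) M.y 0 ∧ val (pt z) M.y = Y z := by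
    intro z hz
    obtain ⟨h1, h2⟩ := hpt z hz
    have hb1 : RR.Bd (pt z) (t - algebraMap ℂ F z) (-1) :=
      RR.bd_iff.mpr (Or.inr (by rw [h1]; norm_num))
    obtain ⟨hY', hq, -⟩ := hgood z hz
    obtain ⟨σ, hσ⟩ := exists_sigma M hY' hq
    have he : ∀ c : ℂ, realise M Y (M.y - algebraMap ℂ F c) =ᶠ[𝓝[≠] z] fun x => Y x - c := by
      intro c
      refine (Genus.germOf_eq_iff (meromorphicAt_realise M hY' _)
        (hY'.meromorphicAt.sub (MeromorphicAt.const c z))).mp ?_
      rw [← sigma_eq_realise M hY' hq hσ,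
        show M.y - algebraMap ℂ F c = ev2 t M.y (X - C (C c)) by
          rw [map_sub, ev2_X, ev2_C, aeval_C],
        hσ, polyGerm_eq, Genus.germOf_eq_iff]
      filter_upwards with x
      simp [evC]
    have hby : RR.Bd (pt z) M.y 0 := by
      have := ord_pos_of_order M h2 (hY'.sub analyticAt_const) (he 0)
      simpa using this
    have hbt : RR.Bd (pt z) t 0 := by
      simpa using (hb1.mono (by norm_num)).add (RR.Bd.of_algebraMap (v := pt z) z)
    refine ⟨hbt, val_eq hb1, hby, val_eq ?_⟩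
    rcases eq_or_ne (M.y - algebraMap ℂ F (Y z)) 0 with h0 | h0
    · rw [h0]; exact RR.Bd.zero
    · rw [RR.bd_iff_ord h0, ← (h2 _ h0).1, meromorphicOrderAt_congr (he _)]
      have hne := (h2 _ h0).2
      rw [meromorphicOrderAt_congr (he _)] at hne
      obtain ⟨n, hn⟩ := WithTop.ne_top_iff_exists.mp hne
      have han : AnalyticAt ℂ (fun x => Y x - Y z) z := hY'.sub analyticAt_const
      have hpos : (0 : WithTop ℤ) < meromorphicOrderAt (fun x => Y x - Y z) z :=
        order_pos han (by simp)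
      rw [← hn] at hpos ⊢
      have : (0 : ℤ) < n := by exact_mod_cast hpos
      simp only [WithTop.untop₀_coe]
      omega
  obtain ⟨hbt0, hvt0, hby0, hvy0⟩ := hcoord 0 (by simpa using hr)
  have hgen := M.gen
  have hpt0 : pt 0 = v := eq_of_val_eq htT hgen M.ev_q htb hyb hbt0 hby0 (by rw [hvt0, ht0])
    (by rw [hvy0, hY0, hy0]) (by rw [ht0, hy0]; exact M.smooth)
  refine ⟨{ r := r, r_pos := hr, pt := pt, pt_zero := hpt0, ord_sub := fun z hz => (hpt z hz).1,
            analytic := ?_, y := M.y, y_bd := hyb, y_val := hy0, eq_pt := ?_ }⟩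
  · intro f hf
    obtain ⟨hY', -, -⟩ := hgood 0 (by simpa using hr)
    have hm : MeromorphicAt (realise M Y f) 0 := meromorphicAt_realise M hY' f
    refine ⟨toMeromorphicNFAt (realise M Y f) 0, ?_, ?_⟩
    · refine hm.meromorphicOrderAt_nonneg_iff_analyticAt_toMeromorphicNFAt.mp ?_
      rcases eq_or_ne f 0 with rfl | hf0
      · obtain ⟨hY'', hq, -⟩ := hgood 0 (by simpa using hr)
        obtain ⟨σ, hσ⟩ := exists_sigma M hY'' hq
        have := sigma_eq_realise M hY'' hq hσ 0
        rw [map_zero] at this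
        rw [(Genus.germOf_eq_zero_iff _).mp this.symm]
        exact le_top
      · obtain ⟨h1, h2⟩ := (hpt 0 (by simpa using hr)).2 f hf0
        obtain ⟨n, hn⟩ := WithTop.ne_top_iff_exists.mp h2
        rw [← hn] at h1 ⊢
        rw [WithTop.untop₀_coe, hpt0] at h1
        rw [bd_nonneg, or_iff_right hf0] at hf
        exact_mod_cast (h1 ▸ hf)
    · set g := toMeromorphicNFAt (realise M Y f) 0 with hg
      have hga : AnalyticAt ℂ g 0 := by
        refine hm.meromorphicOrderAt_nonneg_iff_analyticAt_toMeromorphicNFAt.mp ?_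
        rcases eq_or_ne f 0 with rfl | hf0
        · obtain ⟨hY'', hq, -⟩ := hgood 0 (by simpa using hr)
          obtain ⟨σ, hσ⟩ := exists_sigma M hY'' hq
          have := sigma_eq_realise M hY'' hq hσ 0
          rw [map_zero] at this
          rw [(Genus.germOf_eq_zero_iff _).mp this.symm]
          exact le_top
        · obtain ⟨h1, h2⟩ := (hpt 0 (by simpa using hr)).2 f hf0
          obtain ⟨n, hn⟩ := WithTop.ne_top_iff_exists.mp h2
          rw [← hn] at h1 ⊢
          rw [WithTop.untop₀_coe, hpt0] at h1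
          rw [bd_nonneg, or_iff_right hf0] at hf
          exact_mod_cast (h1 ▸ hf)
      have heq : ∀ᶠ z in 𝓝 (0 : ℂ), realise M Y f =ᶠ[𝓝[≠] z] g := by
        have h1 : realise M Y f =ᶠ[𝓝[≠] 0] g := hm.eq_nhdsNE_toMeromorphicNFAt
        have h2 : ∀ᶠ z in 𝓝[≠] (0 : ℂ), realise M Y f =ᶠ[𝓝[≠] z] g := by
          filter_upwards [eventually_eventually_nhdsWithin.mpr h1, self_mem_nhdsWithin] with z hz hz0
          rw [nhdsWithin_eq_nhds.mpr (isOpen_compl_singleton.mem_nhds hz0)] at hz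
          exact eventually_nhdsWithin_of_eventually_nhds hz
        rw [eventually_nhdsWithin_iff] at h2
        filter_upwards [h2] with z hz
        rcases eq_or_ne z 0 with rfl | hz0
        · exact h1
        · exact hz hz0
      filter_upwards [heq, hga.eventually_analyticAt, Metric.ball_mem_nhds (0 : ℂ) hr] with z he hgz hzr
      rw [mem_ball_zero_iff] at hzr
      obtain ⟨h1, h2⟩ := hpt z hzr
      refine ⟨ord_pos_of_order M h2 hgz he, val_eq ?_⟩
      rcases eq_or_ne (f - algebraMap ℂ F (g z)) 0 with h0 | h0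
      · rw [h0]; exact RR.Bd.zero
      obtain ⟨hY'', hq, -⟩ := hgood z hzr
      obtain ⟨σ, hσ⟩ := exists_sigma M hY'' hq
      have he' : realise M Y (f - algebraMap ℂ F (g z)) =ᶠ[𝓝[≠] z] fun x => g x - g z := by
        refine (Genus.germOf_eq_iff (meromorphicAt_realise M hY'' _)
          (hgz.meromorphicAt.sub (MeromorphicAt.const (g z) z))).mp ?_
        have e1 : σ f = Genus.germOf g hgz.meromorphicAt := by
          rw [sigma_eq_realise M hY'' hq hσ, Genus.germOf_eq_iff]
          exact he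
        have e2 : σ (algebraMap ℂ F (g z)) =
            Genus.germOf (fun _ => g z) (MeromorphicAt.const (g z) z) := by
          rw [show algebraMap ℂ F (g z) = ev2 t M.y (C (C (g z))) by rw [ev2_C, aeval_C], hσ,
            polyGerm_eq, Genus.germOf_eq_iff]
          filter_upwards with x
          simp [evC]
        rw [← sigma_eq_realise M hY'' hq hσ, map_sub, e1, e2]
        rfl
      rw [RR.bd_iff_ord h0, ← (h2 _ h0).1, meromorphicOrderAt_congr he']
      have hne := (h2 _ h0).2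
      rw [meromorphicOrderAt_congr he'] at hne
      obtain ⟨n, hn⟩ := WithTop.ne_top_iff_exists.mp hne
      have hpos : (0 : WithTop ℤ) < meromorphicOrderAt (fun x => g x - g z) z :=
        order_pos (hgz.sub analyticAt_const) (by simp)
      rw [← hn] at hpos ⊢
      have : (0 : ℤ) < n := by exact_mod_cast hpos
      simp only [WithTop.untop₀_coe]
      omega
  · obtain ⟨ε, hε, hεu⟩ := Metric.eventually_nhds_iff.mp huniq
    refine ⟨min ε r, lt_min hε hr, min_le_right _ _, fun Q hQt hQy hzt hzy => ?_⟩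
    set z := val Q t with hz
    have hzr : ‖z‖ < r := hzt.trans_le (min_le_right _ _)
    have hq : evC M.q z (val Q M.y) = 0 := by
      have := (bd_ev2_and_val hQt hQy M.q).2
      rw [M.ev_q, ← map_zero (algebraMap ℂ F), val_algebraMap] at this
      exact this.symm
    have hy := hεu (y := (z, val Q M.y)) (by
      rw [dist_zero_right, Prod.norm_def]
      exact max_lt (hzt.trans_le (min_le_left _ _)) (hzy.trans_le (min_le_left _ _))) hq
    obtain ⟨hb1, hv1, hb2, hv2⟩ := hcoord z hzr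
    obtain ⟨-, -, hs⟩ := hgood z hzr
    refine (eq_of_val_eq htT hgen M.ev_q hQt hQy hb1 hb2 hv1 (by rw [hv2]; exact hy.symm) ?_).symm
    rw [← hz, show val Q M.y = Y z from hy]
    exact hs

end FLTAgent.AJ

end
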