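import Fermat.Agent.RR.API

/-!
Values of functions at places.
-/

set_option autoImplicit false

noncomputable section

open AlgebraicCurve Polynomial

namespace FLTAgent.AJ

variable {K F : Type*} [Field K] [Field F] [Algebra K F] [IsAlgClosed K] [CharZero K]
  [RR.FnField K F]

theorem bd_nonneg {v : Place K F} {f : F} : RR.Bd v f 0 ↔ f = 0 ∨ 0 ≤ v.ord f := by
  rw [RR.bd_iff, neg_zero]

/-- the value of `f` at `v` (junk at poles) -/
def val (v : Place K F) (f : F) : K := RR.res f v

theorem val_spec {v : Place K F} {f : F} (hf : RR.Bd v f 0) :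
    RR.Bd v (f - algebraMap K F (val v f)) (-1) := RR.res_spec hf

theorem val_eq {v : Place K F} {f : F} {c : K} (h : RR.Bd v (f - algebraMap K F c) (-1)) :
    val v f = c := by
  have hf : RR.Bd v f 0 := by
    simpa using (h.mono (by omega)).add (RR.Bd.of_algebraMap (v := v) c)
  exact RR.HasRes.res_unique (val_spec hf) h

theorem val_algebraMap (v : Place K F) (c : K) : val v (algebraMap K F c) = c :=
  val_eq (by rw [sub_self]; exact RR.Bd.zero)

theorem val_add {v : Place K F} {f g : F} (hf : RR.Bd v f 0) (hg : RR.Bd v g 0) :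
    val v (f + g) = val v f + val v g := by
  refine val_eq ?_
  have h := (val_spec hf).add (val_spec hg)
  convert h using 1
  rw [map_add]
  ring

theorem val_mul {v : Place K F} {f g : F} (hf : RR.Bd v f 0) (hg : RR.Bd v g 0) :
    val v (f * g) = val v f * val v g := by
  refine val_eq ?_
  have h1 : RR.Bd v ((f - algebraMap K F (val v f)) * g) (-1) := by
    simpa using (val_spec hf).mul hg
  have h2 : RR.Bd v (algebraMap K F (val v f) * (g - algebraMap K F (val v g))) (-1) := by
    simpa using (RR.Bd.of_algebraMap (v := v) (val v f)).mul (val_spec hg)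
  convert h1.add h2 using 1
  rw [map_mul]
  ring

theorem val_eq_zero_iff {v : Place K F} {f : F} (hf : RR.Bd v f 0) :
    val v f = 0 ↔ RR.Bd v f (-1) := by
  refine ⟨fun h => ?_, fun h => val_eq (by simpa using h)⟩
  simpa [h] using val_spec hf

theorem ord_eq_zero_of_val_ne {v : Place K F} {f : F} (hf : RR.Bd v f 0) (h : val v f ≠ 0) :
    f ≠ 0 ∧ v.ord f = 0 := by
  rw [Ne, val_eq_zero_iff hf] at h
  simpa using RR.ord_eq_of_bd hf (by simpa using h)

theorem bd_one (v : Place K F) : RR.Bd v (1 : F) 0 := by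
  simpa using RR.Bd.of_algebraMap (v := v) (1 : K)

theorem bd_pow {v : Place K F} {f : F} (hf : RR.Bd v f 0) (n : ℕ) : RR.Bd v (f ^ n) 0 := by
  simpa using hf.pow n

theorem val_pow {v : Place K F} {f : F} (hf : RR.Bd v f 0) (n : ℕ) :
    val v (f ^ n) = val v f ^ n := by
  induction n with
  | zero =>
    rw [pow_zero, pow_zero, ← map_one (algebraMap K F), val_algebraMap]
  | succ k ih => rw [pow_succ, pow_succ, val_mul (bd_pow hf k) hf, ih]

/-- evaluation of a polynomial in two variables at a pair of functions -/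
def ev2 (t y : F) : K[X][X] →+* F := Polynomial.eval₂RingHom (Polynomial.aeval t).toRingHom y

omit [IsAlgClosed K] [CharZero K] [RR.FnField K F] in
theorem ev2_X (t y : F) : ev2 (K := K) t y X = y := by simp [ev2]

omit [IsAlgClosed K] [CharZero K] [RR.FnField K F] in
theorem ev2_C (t y : F) (p : K[X]) : ev2 t y (C p) = aeval t p := by simp [ev2]

/-- the value at a pair of constants -/
def at2 (c d : K) : K[X][X] →+* K := Polynomial.eval₂RingHom (Polynomial.evalRingHom c) d

theorem bd_aeval_and_val {v : Place K F} {t : F} (ht : RR.Bd v t 0) (p : K[X]) :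
    RR.Bd v (aeval t p) 0 ∧ val v (aeval t p) = p.eval (val v t) := by
  induction p using Polynomial.induction_on' with
  | add p q hp hq =>
    rw [map_add, eval_add]
    exact ⟨hp.1.add hq.1, by rw [val_add hp.1 hq.1, hp.2, hq.2]⟩
  | monomial n a =>
    rw [aeval_monomial, eval_monomial]
    refine ⟨by simpa using (RR.Bd.of_algebraMap (v := v) a).mul (bd_pow ht n), ?_⟩
    rw [val_mul (RR.Bd.of_algebraMap a) (bd_pow ht n), val_algebraMap, val_pow ht]

theorem bd_ev2_and_val {v : Place K F} {t y : F} (ht : RR.Bd v t 0) (hy : RR.Bd v y 0)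
    (a : K[X][X]) : RR.Bd v (ev2 t y a) 0 ∧ val v (ev2 t y a) = at2 (val v t) (val v y) a := by
  induction a using Polynomial.induction_on' with
  | add p q hp hq =>
    rw [map_add, map_add]
    exact ⟨hp.1.add hq.1, by rw [val_add hp.1 hq.1, hp.2, hq.2]⟩
  | monomial n a =>
    obtain ⟨ha, hva⟩ := bd_aeval_and_val ht a
    simp only [ev2, at2, coe_eval₂RingHom, eval₂_monomial, AlgHom.toRingHom_eq_coe,
      RingHom.coe_coe, coe_evalRingHom]
    exact ⟨by simpa using ha.mul (bd_pow hy n), by rw [val_mul ha (bd_pow hy n), hva, val_pow hy]⟩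

end FLTAgent.AJ

end
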