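import Fermat.Agent.RR.API
import Fermat.Agent.AJ.Value

/-!
Reduced point divisors, Riemann–Roch consequences, and existence of nonspecial divisors.
-/

set_option autoImplicit false

noncomputable section

open AlgebraicCurve

namespace FLTAgent.AJ

variable {K F : Type*} [Field K] [Field F] [Algebra K F]

/-- the divisor `∑ (e i)` -/
def sumPts {ι : Type*} [Fintype ι] (e : ι → Place K F) : Divisor K F :=
  ∑ i, Finsupp.single (e i) (1 : ℤ)

theorem sumPts_nonneg {ι : Type*} [Fintype ι] (e : ι → Place K F) (v : Place K F) :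
    0 ≤ sumPts e v := by
  classical
  rw [sumPts, Finsupp.finsetSum_apply]
  refine Finset.sum_nonneg fun i _ => ?_
  rw [Finsupp.single_apply]
  split_ifs <;> norm_num

theorem sumPts_apply_self {ι : Type*} [Fintype ι] {e : ι → Place K F} (he : Function.Injective e)
    (i : ι) : sumPts e (e i) = 1 := by
  classical
  rw [sumPts, Finsupp.finsetSum_apply, Finset.sum_eq_single_of_mem i (Finset.mem_univ _)]
  · exact Finsupp.single_eq_same
  · intro j _ hj
    exact Finsupp.single_eq_of_ne (fun h => hj (he h.symm))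

theorem sumPts_apply_of_ne {ι : Type*} [Fintype ι] {e : ι → Place K F} {v : Place K F}
    (hv : ∀ i, e i ≠ v) : sumPts e v = 0 := by
  rw [sumPts, Finsupp.finsetSum_apply]
  exact Finset.sum_eq_zero fun i _ => Finsupp.single_eq_of_ne (hv i).symm

theorem sumPts_elim {ι κ : Type*} [Fintype ι] [Fintype κ] (p : ι → Place K F) (e : κ → Place K F) :
    sumPts (Sum.elim p e) = sumPts p + sumPts e := by
  rw [sumPts, Fintype.sum_sum_type]
  rfl

theorem sumPts_option {ι : Type*} [Fintype ι] (v : Place K F) (e : ι → Place K F) :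
    sumPts (fun o : Option ι => o.elim v e) = Finsupp.single v 1 + sumPts e := by
  rw [sumPts, Fintype.sum_option]
  rfl

variable [IsAlgClosed K] [CharZero K] [RR.FnField K F]

theorem degree_sumPts {ι : Type*} [Fintype ι] (e : ι → Place K F) :
    Divisor.degree (sumPts e) = Fintype.card ι := by
  simp [sumPts, map_sum, RR.deg_eq_one]

theorem eq_zero_of_nonneg_of_degree {D : Divisor K F} (h : ∀ v, 0 ≤ D v)
    (hd : Divisor.degree D = 0) : D = 0 := by
  classical
  rw [RR.degree_eq_sum] at hd
  refine Finsupp.ext fun v => ?_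
  by_cases hv : v ∈ D.support
  · simpa using (Finset.sum_eq_zero_iff_of_nonneg fun i _ => h i).mp hd v hv
  · simpa using Finsupp.notMem_support_iff.mp hv

theorem degree_isPrincipal {D : Divisor K F} (hD : D.IsPrincipal) : Divisor.degree D = 0 := by
  obtain ⟨f, hf, hD⟩ := hD
  exact RR.degree_divisor hf hD

theorem mem_rrSpace {D : Divisor K F} {f : F} :
    f ∈ riemannRochSpace D ↔ ∀ v, RR.Bd v f (D v) := by
  rw [RR.riemannRochSpace_eq_boundedOn, RR.mem_boundedOn]
  exact ⟨fun h v => h v trivial, fun h v _ => h v⟩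

theorem ell_eq_zero_iff {D : Divisor K F} : RR.ell D = 0 ↔ riemannRochSpace D = ⊥ := by
  haveI := RR.finiteDimensional_rr D
  exact Submodule.finrank_eq_zero

theorem exists_kd (K F : Type*) [Field K] [Field F] [Algebra K F] [IsAlgClosed K] [CharZero K]
    [RR.FnField K F] : ∃ W : Divisor K F, ∀ D : Divisor K F,
    (RR.ell D : ℤ) - RR.ell (W - D) = Divisor.degree D + 1 - genusFF K F := by
  obtain ⟨x, hx, -⟩ := RR.FnField.exists_transcendental (K := K) (F := F)
  exact ⟨RR.Kd hx, fun D => by rw [RR.rr hx D, RR.genusFF_eq hx]⟩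

theorem ell_ge (D : Divisor K F) :
    Divisor.degree D + 1 - genusFF K F ≤ (RR.ell D : ℤ) := by
  obtain ⟨W, hW⟩ := exists_kd K F
  have := hW D
  have : (0 : ℤ) ≤ RR.ell (W - D) := Int.natCast_nonneg _
  omega

/-- an effective divisor in a class of degree at least the genus -/
theorem exists_effective {D : Divisor K F} (hD : (genusFF K F : ℤ) ≤ Divisor.degree D) :
    ∃ E : Divisor K F, (∀ v, 0 ≤ E v) ∧ (E - D).IsPrincipal := by
  haveI := RR.finiteDimensional_rr D
  have hne : riemannRochSpace D ≠ ⊥ := fun h => by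
    have := ell_ge D
    rw [ell_eq_zero_iff.mpr h] at this
    omega
  obtain ⟨f, hf, hf0⟩ := Submodule.exists_mem_ne_zero_of_ne_bot hne
  obtain ⟨P, hP⟩ := RR.exists_divisor (K := K) hf0
  refine ⟨P + D, fun v => ?_, f, hf0, fun v => by simp [hP]⟩
  have := (RR.bd_iff_ord hf0).mp (mem_rrSpace.mp hf v)
  rw [Finsupp.add_apply, hP]
  omega

/-- Nonspecial tuples of points. -/
structure Nonspecial {g : ℕ} (e : Fin g → Place K F) : Prop where
  card_eq : g = genusFF K F
  inj : Function.Injective e
  ell_eq : RR.ell (sumPts e) = 1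

theorem ell_drop {W : Divisor K F} (hW : riemannRochSpace W ≠ ⊥) (bad : Set (Place K F))
    (hbad : bad.Finite) (hinf : (Set.univ : Set (Place K F)).Infinite) :
    ∃ v, v ∉ bad ∧ RR.ell (W - Finsupp.single v 1) + 1 ≤ RR.ell W := by
  obtain ⟨f, hf, hf0⟩ := Submodule.exists_mem_ne_zero_of_ne_bot hW
  have hfin : (bad ∪ ↑W.support ∪ {v : Place K F | v.ord f ≠ 0}).Finite :=
    (hbad.union W.support.finite_toSet).union (RR.finite_ord_ne_zero hf0)
  obtain ⟨v, -, hv⟩ := (hinf.sdiff hfin).nonempty
  simp only [Set.mem_union, Finset.mem_coe, Finsupp.mem_support_iff, not_or, not_not,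
    Set.mem_setOf_eq] at hv
  obtain ⟨⟨hb, hWv⟩, hfv⟩ := hv
  refine ⟨v, hb, ?_⟩
  have hle : riemannRochSpace (W - Finsupp.single v 1) < riemannRochSpace W := by
    classical
    refine lt_of_le_of_ne (fun h hh => mem_rrSpace.mpr fun u => (mem_rrSpace.mp hh u).mono ?_)
      fun he => ?_
    · rw [Finsupp.sub_apply, Finsupp.single_apply]
      split_ifs <;> omega
    · rw [← he] at hf
      have := (RR.bd_iff_ord hf0).mp (mem_rrSpace.mp hf v)
      rw [Finsupp.sub_apply, Finsupp.single_eq_same, hWv, hfv] at this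
      omega
  haveI := RR.finiteDimensional_rr W
  exact Submodule.finrank_lt_finrank_of_lt hle

theorem exists_nonspecial (bad : Set (Place K F)) (hbad : bad.Finite)
    (hinf : (Set.univ : Set (Place K F)).Infinite) :
    ∃ e : Fin (genusFF K F) → Place K F, Nonspecial e ∧ ∀ i, e i ∉ bad := by
  classical
  obtain ⟨W, hW⟩ := exists_kd K F
  have hW0 : RR.ell W = genusFF K F := by
    have := hW 0
    rw [RR.ell_zero, sub_zero, map_zero] at this
    omega
  have key : ∀ k : ℕ, k ≤ genusFF K F → ∃ e : Fin k → Place K F, Function.Injective e ∧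
      (∀ i, e i ∉ bad) ∧ RR.ell (W - sumPts e) + k ≤ genusFF K F := by
    intro k
    induction k with
    | zero =>
      intro _
      exact ⟨Fin.elim0, fun i => i.elim0, fun i => i.elim0, by
        simp [sumPts, hW0]⟩
    | succ k ih =>
      intro hk
      obtain ⟨e, hinj, hb, hle⟩ := ih (by omega)
      by_cases hz : riemannRochSpace (W - sumPts e) = ⊥
      · obtain ⟨v, -, hv⟩ := (hinf.sdiff (hbad.union (Set.finite_range e))).nonempty
        simp only [Set.mem_union, Set.mem_range, not_or, not_exists] at hv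
        refine ⟨Fin.cons v e, Fin.cons_injective_iff.mpr ⟨fun ⟨i, hi⟩ => hv.2 i hi, hinj⟩,
          Fin.forall_fin_succ.mpr ⟨by simpa using hv.1, by simpa using hb⟩, ?_⟩
        have : RR.ell (W - sumPts (Fin.cons v e)) = 0 := by
          rw [ell_eq_zero_iff, eq_bot_iff]
          intro f hf
          rw [← hz]
          refine mem_rrSpace.mpr fun u => (mem_rrSpace.mp hf u).mono ?_
          simp only [Finsupp.sub_apply, sumPts, Fin.sum_univ_succ, Fin.cons_zero, Fin.cons_succ,
            Finsupp.add_apply]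
          rw [Finsupp.single_apply]
          split_ifs <;> omega
        omega
      · obtain ⟨v, hv, hdrop⟩ := ell_drop hz (bad ∪ Set.range e)
          (hbad.union (Set.finite_range e)) hinf
        simp only [Set.mem_union, Set.mem_range, not_or, not_exists] at hv
        refine ⟨Fin.cons v e, Fin.cons_injective_iff.mpr ⟨fun ⟨i, hi⟩ => hv.2 i hi, hinj⟩,
          Fin.forall_fin_succ.mpr ⟨by simpa using hv.1, by simpa using hb⟩, ?_⟩
        have e1 : W - sumPts (Fin.cons v e) = W - sumPts e - Finsupp.single v 1 := by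
          simp only [sumPts, Fin.sum_univ_succ, Fin.cons_zero, Fin.cons_succ]
          abel
        rw [e1]
        omega
  obtain ⟨e, hinj, hb, hle⟩ := key _ le_rfl
  refine ⟨e, ⟨rfl, hinj, ?_⟩, hb⟩
  have := hW (sumPts e)
  rw [degree_sumPts, Fintype.card_fin] at this
  omega

end FLTAgent.AJ

end
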