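import Fermat.Agent.AJ.ExtPlaces
import Fermat.Agent.AJ.GlobalC

/-!
Divisor classes under an extension of algebraically closed fields of constants.
-/

set_option autoImplicit false

noncomputable section

open AlgebraicCurve

namespace FLTAgent.AJ

namespace ConstExt

variable {K₀ L F₀ F : Type*} [Field K₀] [Field L] [Algebra K₀ L] [Field F₀] [Algebra K₀ F₀]
  [Field F] [Algebra L F] (e : ConstExt K₀ L F₀ F)
  [IsAlgClosed L] [CharZero L] [RR.FnField L F]
  [IsAlgClosed K₀] [CharZero K₀] [RR.FnField K₀ F₀]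

/-- the divisor with the same coefficients at the places over the given ones -/
def liftDiv : Divisor K₀ F₀ →+ Divisor L F := Finsupp.mapDomain.addMonoidHom e.lift

theorem liftDiv_single (v : Place K₀ F₀) (n : ℤ) :
    e.liftDiv (Finsupp.single v n) = Finsupp.single (e.lift v) n := Finsupp.mapDomain_single

theorem liftDiv_apply_lift (D : Divisor K₀ F₀) (v : Place K₀ F₀) :
    e.liftDiv D (e.lift v) = D v := Finsupp.mapDomain_apply e.lift_injective D v

theorem liftDiv_apply_of_ne (D : Divisor K₀ F₀) {w : Place L F} (hw : ∀ v, e.lift v ≠ w) :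
    e.liftDiv D w = 0 :=
  Finsupp.mapDomain_notin_range D w (by rintro ⟨v, hv⟩; exact hw v hv)

theorem degree_liftDiv (D : Divisor K₀ F₀) :
    Divisor.degree (e.liftDiv D) = Divisor.degree D := by
  induction D using Finsupp.induction_linear with
  | zero => simp
  | add u v hu hv => rw [map_add, map_add, hu, hv, map_add]
  | single v n =>
    rw [liftDiv_single, Divisor.degree_single, Divisor.degree_single, RR.deg_eq_one,
      RR.deg_eq_one]

theorem liftDiv_stable (D : Divisor K₀ F₀) (σ : L ≃ₐ[K₀] L) (w : Place L F) :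
    e.liftDiv D (e.act σ • w) = e.liftDiv D w := by
  by_cases h : ∃ v, e.lift v = w
  · obtain ⟨v, rfl⟩ := h
    rw [e.lift_fixed v σ]
  · have h' : ∀ v, e.lift v ≠ e.act σ • w := fun v hv => h ⟨v, by
      have : e.act σ • e.lift v = e.act σ • w := by rw [e.lift_fixed v σ, hv]
      exact MulAction.injective _ this⟩
    rw [e.liftDiv_apply_of_ne D h', e.liftDiv_apply_of_ne D fun v hv => h ⟨v, hv⟩]

theorem i_mem_rr_iff {D : Divisor K₀ F₀} {x : F₀} :
    e.i x ∈ riemannRochSpace (e.liftDiv D) ↔ x ∈ riemannRochSpace D := by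
  rw [mem_rrSpace, mem_rrSpace]
  rcases eq_or_ne x 0 with rfl | hx
  · exact ⟨fun _ v => RR.Bd.zero, fun _ w => by rw [map_zero]; exact RR.Bd.zero⟩
  have hix : e.i x ≠ 0 := (map_ne_zero e.i).mpr hx
  constructor
  · intro h v
    have := (RR.bd_iff_ord hix).mp (h (e.lift v))
    rw [e.ord_lift, e.liftDiv_apply_lift] at this
    exact (RR.bd_iff_ord hx).mpr this
  · intro h w
    rw [RR.bd_iff_ord hix]
    by_cases hw : ∃ v, e.lift v = w
    · obtain ⟨v, rfl⟩ := hw
      rw [e.ord_lift, e.liftDiv_apply_lift]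
      exact (RR.bd_iff_ord hx).mp (h v)
    · have hw' : ∀ v, e.lift v ≠ w := fun v hv => hw ⟨v, hv⟩
      rw [e.liftDiv_apply_of_ne D hw', e.ord_i_eq_zero hw']
      simp

theorem ell_liftDiv (D : Divisor K₀ F₀) : RR.ell (e.liftDiv D) = RR.ell D := by
  classical
  haveI := RR.finiteDimensional_rr D
  set b := Module.finBasis K₀ (riemannRochSpace D) with hb
  have hli : LinearIndependent K₀ fun k => (b k : F₀) :=
    b.linearIndependent.map' (riemannRochSpace D).subtype (Submodule.ker_subtype _)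
  have hli' := e.linearIndependent_comp hli
  have hspan : riemannRochSpace (e.liftDiv D) =
      Submodule.span L (Set.range fun k => e.i (b k : F₀)) := by
    refine le_antisymm ((e.rr_le_span (e.liftDiv_stable D)).trans (Submodule.span_le.mpr ?_))
      (Submodule.span_le.mpr ?_)
    · rintro _ ⟨hx, x, rfl⟩
      have hx0 : x ∈ riemannRochSpace D := e.i_mem_rr_iff.mp hx
      have hsum := congrArg (Subtype.val) (b.sum_repr ⟨x, hx0⟩)
      simp only [Submodule.coe_sum, SetLike.val_smul] at hsum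
      rw [← hsum, map_sum]
      refine Submodule.sum_mem _ fun k _ => ?_
      rw [i_smul]
      exact Submodule.smul_mem _ _ (Submodule.subset_span ⟨k, rfl⟩)
    · rintro _ ⟨k, rfl⟩
      exact e.i_mem_rr_iff.mpr (b k).2
  show Module.finrank L (riemannRochSpace (e.liftDiv D)) = _
  rw [hspan, finrank_span_eq_card (b := fun k => e.i (b k : F₀)) hli', Fintype.card_fin]
  rfl

include e in
theorem genus_eq : genusFF L F = genusFF K₀ F₀ := by
  obtain ⟨W, hW⟩ := exists_kd L F
  obtain ⟨W₀, hW₀⟩ := exists_kd K₀ F₀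
  obtain ⟨x, hx, -⟩ := RR.FnField.exists_transcendental (K := K₀) (F := F₀)
  obtain ⟨v, -⟩ := RR.exists_zero hx
  set N : ℤ := max (Divisor.degree W) (Divisor.degree W₀) + 1 with hN
  have h1 := hW (e.liftDiv (Finsupp.single v N))
  have h2 := hW₀ (Finsupp.single v N)
  rw [e.ell_liftDiv, RR.ell_of_degree_neg (D := W - _) (by
    rw [map_sub, e.degree_liftDiv, Divisor.degree_single, RR.deg_eq_one]; push_cast; omega),
    e.degree_liftDiv] at h1
  rw [RR.ell_of_degree_neg (D := W₀ - _) (by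
    rw [map_sub, Divisor.degree_single, RR.deg_eq_one]; push_cast; omega)] at h2
  omega

theorem liftDiv_principal {D : Divisor K₀ F₀} (hD : D.IsPrincipal) :
    (e.liftDiv D).IsPrincipal := by
  obtain ⟨f, hf, hfD⟩ := hD
  refine ⟨e.i f, (map_ne_zero e.i).mpr hf, fun w => ?_⟩
  by_cases hw : ∃ v, e.lift v = w
  · obtain ⟨v, rfl⟩ := hw
    rw [e.ord_lift, e.liftDiv_apply_lift, hfD]
  · have hw' : ∀ v, e.lift v ≠ w := fun v hv => hw ⟨v, hv⟩
    rw [e.ord_i_eq_zero hw', e.liftDiv_apply_of_ne _ hw']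

/-- the map on classes of degree zero -/
def toPic : Pic0 K₀ F₀ →+ Pic0 L F :=
  QuotientAddGroup.map _ _
    ((e.liftDiv.domRestrict (Divisor.degZero (K := K₀) (F := F₀))).codRestrict
      (Divisor.degZero (K := L) (F := F)) fun D => by
        rw [Divisor.mem_degZero]
        exact (e.degree_liftDiv _).trans D.2)
    (fun D hD => by
      simp only [AddSubgroup.mem_addSubgroupOf, AddSubgroup.mem_comap] at hD ⊢
      exact e.liftDiv_principal hD)

theorem toPic_mk (D : Divisor.degZero (K := K₀) (F := F₀)) :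
    e.toPic (Pic0.mk D) = cls (e.liftDiv (D : Divisor K₀ F₀)) := by
  rw [cls_of_deg ((e.degree_liftDiv _).trans D.2)]
  rfl

theorem toPic_injective : Function.Injective e.toPic := by
  rw [injective_iff_map_eq_zero]
  intro c hc
  obtain ⟨D, rfl⟩ := Pic0.mk_surjective c
  have hdeg : Divisor.degree (D : Divisor K₀ F₀) = 0 := D.2
  rw [e.toPic_mk, cls_eq_zero_iff ((e.degree_liftDiv _).trans hdeg)] at hc
  obtain ⟨f, hf, hfD⟩ := hc
  have hmem : f ∈ riemannRochSpace (e.liftDiv (-(D : Divisor K₀ F₀))) :=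
    mem_rrSpace.mpr fun w => by
      rw [RR.bd_iff_ord hf, map_neg, Finsupp.neg_apply, hfD]
      omega
  have hne : riemannRochSpace (-(D : Divisor K₀ F₀)) ≠ ⊥ := by
    intro h
    have h' : RR.ell (e.liftDiv (-(D : Divisor K₀ F₀))) = 0 := by
      rw [e.ell_liftDiv, ell_eq_zero_iff, h]
    rw [ell_eq_zero_iff] at h'
    rw [h', Submodule.mem_bot] at hmem
    exact hf hmem
  obtain ⟨x, hx, hx0⟩ := Submodule.exists_mem_ne_zero_of_ne_bot hne
  obtain ⟨P, hP⟩ := RR.exists_divisor (K := K₀) hx0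
  have heq : P - (D : Divisor K₀ F₀) = 0 := by
    refine eq_zero_of_nonneg_of_degree (fun v => ?_) (by rw [map_sub, RR.degree_divisor hx0 hP,
      hdeg, sub_zero])
    have := (RR.bd_iff_ord hx0).mp (mem_rrSpace.mp hx v)
    rw [Finsupp.neg_apply] at this
    rw [Finsupp.sub_apply, hP]
    omega
  rw [← cls_of_deg hdeg, cls_eq_zero_iff hdeg]
  exact ⟨x, hx0, fun v => by rw [← sub_eq_zero.mp heq, hP]⟩

end ConstExt

section Reduced

variable {K F : Type*} [Field K] [Field F] [Algebra K F] [IsAlgClosed K] [CharZero K]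
  [RR.FnField K F]

theorem unique_of_bot {A : Divisor K F} {v : Place K F} {f f' : F}
    (hbot : riemannRochSpace (A - Finsupp.single v 1) = ⊥) (hf : f ∈ riemannRochSpace A)
    (hf0 : f ≠ 0) (hf' : f' ∈ riemannRochSpace A) : ∃ c : K, f' = c • f := by
  classical
  have hstep : ∀ g ∈ riemannRochSpace A, RR.Bd v g (A v - 1) → g = 0 := by
    intro g hg hgv
    have : g ∈ riemannRochSpace (A - Finsupp.single v 1) := mem_rrSpace.mpr fun u => by
      rcases eq_or_ne u v with rfl | hu
      · rwa [Finsupp.sub_apply, Finsupp.single_eq_same]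
      · rw [Finsupp.sub_apply, Finsupp.single_eq_of_ne hu, sub_zero]
        exact mem_rrSpace.mp hg u
    rwa [hbot, Submodule.mem_bot] at this
  have hfv : v.ord f = -A v :=
    (RR.ord_eq_of_bd (mem_rrSpace.mp hf v) fun h => hf0 (hstep f hf h)).2
  obtain ⟨c, hc⟩ := (RR.hasRes v).exists_sub_smul (mem_rrSpace.mp hf' v) hf0 hfv
  exact ⟨c, sub_eq_zero.mp (hstep _ (sub_mem hf' (Submodule.smul_mem _ c hf)) hc)⟩

/-- the reduced representative of a class with respect to a base point -/
theorem exists_reduced_rep {D : Divisor K F} (hD : Divisor.degree D = 0) (P : Place K F) :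
    ∃ r : ℕ, ∃ E : Divisor K F, (∀ u, 0 ≤ E u) ∧ Divisor.degree E = r ∧
      (E - (D + (r : ℤ) • Finsupp.single P 1)).IsPrincipal ∧
      ∀ E' : Divisor K F, (∀ u, 0 ≤ E' u) →
        (E' - (D + (r : ℤ) • Finsupp.single P 1)).IsPrincipal → E' = E := by
  classical
  set A : ℕ → Divisor K F := fun r => D + (r : ℤ) • Finsupp.single P 1 with hA
  have hdegA : ∀ r, Divisor.degree (A r) = r := fun r => by
    rw [hA]
    simp [hD, RR.deg_eq_one]
  have hex : ∃ r, riemannRochSpace (A r) ≠ ⊥ := ⟨genusFF K F, fun h => by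
    have := ell_ge (A (genusFF K F))
    rw [ell_eq_zero_iff.mpr h, hdegA] at this
    omega⟩
  set r := Nat.find hex with hr
  obtain ⟨f, hf, hf0⟩ := Submodule.exists_mem_ne_zero_of_ne_bot (Nat.find_spec hex)
  have hbot : riemannRochSpace (A r - Finsupp.single P 1) = ⊥ := by
    rcases Nat.eq_zero_or_pos r with h0 | h0
    · rw [← ell_eq_zero_iff]
      refine RR.ell_of_degree_neg ?_
      rw [map_sub, hdegA, h0, Divisor.degree_single, RR.deg_eq_one]
      simp
    · have h1 := not_not.mp (Nat.find_min hex (m := r - 1) (by omega))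
      have h2 : A r - Finsupp.single P 1 = A (r - 1) := by
        simp only [hA]
        rw [show ((r - 1 : ℕ) : ℤ) = (r : ℤ) - 1 by omega, sub_smul, one_smul]
        abel
      rw [h2, h1]
  obtain ⟨N, hN⟩ := RR.exists_divisor (K := K) hf0
  refine ⟨r, N + A r, fun u => ?_, ?_, ?_, ?_⟩
  · have := (RR.bd_iff_ord hf0).mp (mem_rrSpace.mp hf u)
    rw [← hr] at this
    rw [Finsupp.add_apply, hN]
    omega
  · rw [map_add, RR.degree_divisor hf0 hN, hdegA, zero_add]
  · exact ⟨f, hf0, fun u => by rw [show N + A r - _ = N from add_sub_cancel_right N (A r), hN]⟩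
  · intro E' hE' hpr
    obtain ⟨f', hf'0, hf'E⟩ := hpr
    have hf' : f' ∈ riemannRochSpace (A r) := mem_rrSpace.mpr fun u => by
      rw [RR.bd_iff_ord hf'0, ← hf'E u, Finsupp.sub_apply]
      have := hE' u
      simp only [hA]
      omega
    obtain ⟨c, hc⟩ := unique_of_bot hbot hf hf0 hf'
    have hc0 : c ≠ 0 := fun h => hf'0 (by rw [hc, h, zero_smul])
    refine Finsupp.ext fun u => ?_
    have := hf'E u
    rw [hc, Algebra.smul_def, u.ord_mul ((map_ne_zero _).mpr hc0) hf0, RR.ord_algebraMap,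
      Finsupp.sub_apply] at this
    rw [Finsupp.add_apply, hN]
    simp only [hA]
    omega

end Reduced

namespace ConstExt

variable {K₀ L F₀ F : Type*} [Field K₀] [Field L] [Algebra K₀ L] [Field F₀] [Algebra K₀ F₀]
  [Field F] [Algebra L F] (e : ConstExt K₀ L F₀ F)
  [IsAlgClosed L] [CharZero L] [RR.FnField L F]
  [IsAlgClosed K₀] [CharZero K₀] [RR.FnField K₀ F₀]

theorem mem_range_toPic_of_finite_orbit (c : Pic0 L F)
    (hc : (Set.range fun σ : L ≃ₐ[K₀] L => e.act σ • c).Finite) :
    ∃ c₀, e.toPic c₀ = c := by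
  classical
  obtain ⟨D, rfl⟩ := Pic0.mk_surjective c
  have hdeg : Divisor.degree (D : Divisor L F) = 0 := D.2
  obtain ⟨x, hx, -⟩ := RR.FnField.exists_transcendental (K := K₀) (F := F₀)
  obtain ⟨v₀, -⟩ := RR.exists_zero hx
  set P := e.lift v₀ with hP
  obtain ⟨r, E, hE, hEdeg, hEp, huniq⟩ := exists_reduced_rep hdeg P
  have hdegE : Divisor.degree (E - (r : ℤ) • Finsupp.single P 1) = 0 := by
    simp [hEdeg, RR.deg_eq_one]
  have hclsE : cls (E - (r : ℤ) • Finsupp.single P 1) = Pic0.mk D := by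
    rw [show E - (r : ℤ) • Finsupp.single P 1 =
        (D : Divisor L F) + (E - ((D : Divisor L F) + (r : ℤ) • Finsupp.single P 1)) by abel,
      cls_add hdeg (degree_isPrincipal hEp), (cls_eq_zero_iff (degree_isPrincipal hEp)).mpr hEp,
      add_zero, cls_of_deg hdeg]
  -- uniqueness in terms of classes
  have hu : ∀ E' : Divisor L F, (∀ u, 0 ≤ E' u) → Divisor.degree E' = r →
      cls (E' - (r : ℤ) • Finsupp.single P 1) = Pic0.mk D → E' = E := by
    intro E' h1 h2 h3
    refine huniq E' h1 ?_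
    have hd : Divisor.degree (E' - ((D : Divisor L F) + (r : ℤ) • Finsupp.single P 1)) = 0 := by
      simp [h2, hdeg, RR.deg_eq_one]
    rw [← cls_eq_zero_iff hd, show E' - ((D : Divisor L F) + (r : ℤ) • Finsupp.single P 1) =
      (E' - (r : ℤ) • Finsupp.single P 1) + -(D : Divisor L F) by abel,
      cls_add (by simp [h2, RR.deg_eq_one]) (by simp [hdeg]), cls_neg hdeg, h3, cls_of_deg hdeg,
      add_neg_cancel]
  have hgfix : ∀ g : SemilinearAut L F, g • P = P → g • Pic0.mk D = Pic0.mk D → g • E = E := by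
    intro g hgP hgc
    refine hu (g • E) (fun u => ?_) (by rw [SemilinearAut.degree_smul, hEdeg]) ?_
    · rw [SemilinearAut.divisor_smul_apply]
      exact hE _
    · have hsub : g • E - (r : ℤ) • Finsupp.single P 1 =
          g • (E - (r : ℤ) • Finsupp.single P 1) := by
        rw [smul_sub, show g • ((r : ℤ) • Finsupp.single P (1 : ℤ)) =
          (r : ℤ) • (g • Finsupp.single P (1 : ℤ)) from
            map_zsmul (DistribSMul.toAddMonoidHom (Divisor L F) g) _ _,
          SemilinearAut.smul_single, hgP]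
      rw [hsub, cls_of_deg (by rw [SemilinearAut.degree_smul, hdegE])]
      conv_rhs => rw [← hgc, ← hclsE, cls_of_deg hdegE, SemilinearAut.pic0_smul_mk]
      rfl
  have hfix : ∀ u ∈ E.support, e.IsFixed u := by
    intro u hu'
    refine e.isFixed_of_finite_orbit ?_
    choose s hs using fun z : Set.range (fun σ : L ≃ₐ[K₀] L => e.act σ • Pic0.mk D) => z.2
    haveI := hc.to_subtype
    refine (Set.finite_iUnion fun z => (e.act (s z) • E).support.finite_toSet).subset ?_
    rintro _ ⟨σ, rfl⟩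
    refine Set.mem_iUnion.mpr ⟨⟨_, σ, rfl⟩, ?_⟩
    set τ := s ⟨_, σ, rfl⟩ with hτ
    have hτc : e.act τ • Pic0.mk D = e.act σ • Pic0.mk D := hs ⟨_, σ, rfl⟩
    have hg := hgfix ((e.act τ)⁻¹ * e.act σ) (by
        rw [mul_smul, hP, e.lift_fixed v₀ σ, inv_smul_eq_iff, e.lift_fixed v₀ τ])
      (by rw [mul_smul, inv_smul_eq_iff, hτc])
    rw [mul_smul, inv_smul_eq_iff] at hg
    rw [Finset.mem_coe, Finsupp.mem_support_iff, ← hg]
    simp only
    rw [SemilinearAut.divisor_smul_apply_smul]
    exact Finsupp.mem_support_iff.mp hu'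
  obtain ⟨E₀, hE₀⟩ : ∃ E₀, e.liftDiv E₀ = E := by
    choose v hv using fun u : E.support => e.exists_lift_eq (hfix u.1 u.2)
    refine ⟨∑ u : E.support, Finsupp.single (v u) (E u), ?_⟩
    simp only [map_sum, liftDiv_single, hv]
    rw [Finset.sum_coe_sort E.support fun u => Finsupp.single u (E u)]
    exact Finsupp.sum_single E
  have hd₀ : Divisor.degree (E₀ - (r : ℤ) • Finsupp.single v₀ 1) = 0 := by
    rw [← e.degree_liftDiv, map_sub, map_zsmul, liftDiv_single, hE₀]
    exact hdegE
  refine ⟨Pic0.mk ⟨_, hd₀⟩, ?_⟩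
  rw [e.toPic_mk]
  simp only [map_sub, map_zsmul, liftDiv_single, hE₀]
  exact hclsE

include e in
theorem natCard_torsion_eq (n : ℕ) [Finite (Pic0.torsion L F n)] :
    Nat.card (Pic0.torsion K₀ F₀ n) = Nat.card (Pic0.torsion L F n) := by
  refine Nat.card_congr (Equiv.ofBijective
    (fun c => ⟨e.toPic c.1, Pic0.mem_torsion.mpr (by
      rw [← map_zsmul, Pic0.mem_torsion.mp c.2, map_zero])⟩) ⟨fun c c' h => ?_, fun c => ?_⟩)
  · exact Subtype.ext (e.toPic_injective (congrArg Subtype.val h))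
  · obtain ⟨c₀, hc₀⟩ := e.mem_range_toPic_of_finite_orbit c.1
      ((Set.toFinite (Pic0.torsion L F n : Set (Pic0 L F))).subset (by
        rintro _ ⟨σ, rfl⟩
        exact SemilinearAut.smul_mem_torsion _ c.2))
    refine ⟨⟨c₀, Pic0.mem_torsion.mpr (e.toPic_injective ?_)⟩, Subtype.ext hc₀⟩
    rw [map_zsmul, hc₀, map_zero]
    exact Pic0.mem_torsion.mp c.2

end ConstExt

end FLTAgent.AJ

end
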