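import Fermat.Agent.AJ.DiscC
import Fermat.Agent.HeckeJ.AlongAux

/-!
The places of a function field over `ℂ` as a compact connected space.
-/

set_option autoImplicit false

noncomputable section

open AlgebraicCurve Filter Topology

namespace FLTAgent.AJ

section General

variable {K F : Type*} [Field K] [Field F] [Algebra K F] [IsAlgClosed K] [CharZero K]
  [RR.FnField K F]

/-- a proper valuation ring containing the constants is the ring of a place -/
theorem exists_place_eq (O : ValuationSubring F) (hK : ∀ c : K, algebraMap K F c ∈ O)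
    (htop : O ≠ ⊤) : ∃ v : Place K F, v.toValuationSubring = O := by
  classical
  obtain ⟨x, hx, hxO⟩ : ∃ x : F, Transcendental K x ∧ x ∈ O := by
    obtain ⟨x, hx, -⟩ := RR.FnField.exists_transcendental (K := K) (F := F)
    rcases O.mem_or_inv_mem x with h | h
    · exact ⟨x, hx, h⟩
    · exact ⟨x⁻¹, RR.transcendental_inv hx, h⟩
  obtain ⟨v, hv⟩ : ∃ v : Place K F, v.toValuationSubring ≤ O := by
    refine RR.with_chart hx fun hp _ _ => ?_
    let toO : Polynomial K →+* O :=
      Polynomial.eval₂RingHom ((algebraMap K F).codRestrict O.toSubring hK) ⟨x, hxO⟩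
    have htoO : ∀ p, (toO p : F) = algebraMap (Polynomial K) F p := by
      intro p
      rw [hp, Polynomial.aeval_def]
      induction p using Polynomial.induction_on' with
      | add p q hp' hq' => simp [hp', hq']
      | monomial n a => simp [toO]
    have hA : ∀ a : RR.Chart.A K F, (a : F) ∈ O := by
      intro a
      obtain ⟨P, hP, hPa⟩ := a.2
      have h : IsIntegral O (a : F) := by
        refine ⟨P.map toO, hP.map _, ?_⟩
        rw [Polynomial.eval₂_map]
        rw [show (algebraMap O F).comp toO = algebraMap (Polynomial K) F from RingHom.ext htoO]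
        exact hPa
      obtain ⟨y, hy⟩ := IsIntegrallyClosed.isIntegral_iff.mp h
      exact hy ▸ y.2
    let inc : RR.Chart.A K F →+* O :=
      (algebraMap (RR.Chart.A K F) F).codRestrict O.toSubring hA
    set P := Ideal.comap inc (IsLocalRing.maximalIdeal O) with hP
    have hmemP : ∀ a, a ∉ P → ∀ h : (a : F) ∈ O, IsUnit (⟨(a : F), h⟩ : O) := by
      intro a ha h
      by_contra hu
      exact ha (show inc a ∈ IsLocalRing.maximalIdeal O from
        (IsLocalRing.mem_maximalIdeal _).mpr hu)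
    have hinvmem : ∀ a, a ∉ P → (a : F)⁻¹ ∈ O := by
      intro a ha
      obtain ⟨b, hb⟩ := isUnit_iff_exists_inv.mp (hmemP a ha (hA a))
      have hb' : (a : F) * (b : F) = 1 := congrArg Subtype.val hb
      rw [inv_eq_of_mul_eq_one_right hb']
      exact b.2
    have hPbot : P ≠ ⊥ := by
      intro h0
      apply htop
      refine SetLike.ext fun f => ⟨fun _ => ValuationSubring.mem_top f, fun _ => ?_⟩
      obtain ⟨a, b, hb, rfl⟩ := RR.Chart.exists_div (K := K) f
      rw [div_eq_mul_inv]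
      refine mul_mem (hA a) (hinvmem b ?_)
      rw [h0, Ideal.mem_bot]
      rintro rfl
      exact hb rfl
    let hP1 : IsDedekindDomain.HeightOneSpectrum (RR.Chart.A K F) :=
      ⟨P, Ideal.IsPrime.comap _, hPbot⟩
    refine ⟨RR.Chart.ofPrime hP1, fun g hg => ?_⟩
    obtain ⟨a, s, h⟩ := hP1.exists_primeCompl_mul_eq_of_integer g hg
    have hs : (s : RR.Chart.A K F) ∉ P := s.2
    have hs0 : ((s : RR.Chart.A K F) : F) ≠ 0 := fun h0 => hs (by
      rw [show (s : RR.Chart.A K F) = 0 from Subtype.ext h0]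
      exact zero_mem _)
    have e : g = (a : F) * ((s : RR.Chart.A K F) : F)⁻¹ := by
      have h' : g * ((s : RR.Chart.A K F) : F) = (a : F) := h
      rw [← h', mul_inv_cancel_right₀ hs0]
    rw [e]
    exact mul_mem (hA a) (hinvmem _ hs)
  refine ⟨v, le_antisymm hv fun f hf => ?_⟩
  by_contra hfv
  obtain ⟨π, hπ⟩ := IsDiscreteValuationRing.exists_irreducible v.toValuationSubring
  have hπ0 : (π : F) ≠ 0 := by simpa [ZeroMemClass.coe_eq_zero] using hπ.ne_zero
  have hπord := v.ord_coe_irreducible hπ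
  rw [RR.mem_iff_bd, RR.not_bd_iff] at hfv
  obtain ⟨hf0, hneg⟩ := hfv
  set k := (-v.ord f - 1).toNat with hk
  have hu : f * (π : F) ^ (k + 1) ≠ 0 := mul_ne_zero hf0 (pow_ne_zero _ hπ0)
  have hmem : (f * (π : F) ^ (k + 1))⁻¹ ∈ v.toValuationSubring := by
    rw [RR.mem_iff_bd, RR.bd_iff_ord (inv_ne_zero hu), v.ord_inv,
      v.ord_mul hf0 (pow_ne_zero _ hπ0), RR.ord_pow, hπord]
    push_cast
    omega
  have hπinv : (π : F)⁻¹ ∈ O := by
    have h := mul_mem (mul_mem hf (pow_mem (hv π.2) k)) (hv hmem)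
    have e : f * (π : F) ^ k * (f * (π : F) ^ (k + 1))⁻¹ = (π : F)⁻¹ := by
      rw [pow_succ]
      field_simp
    rwa [e] at h
  apply htop
  refine SetLike.ext fun g => ⟨fun _ => ValuationSubring.mem_top g, fun _ => ?_⟩
  rcases eq_or_ne g 0 with rfl | hg
  · exact zero_mem _
  set l := (-v.ord g).toNat
  have hgm : g * (π : F) ^ l ∈ O := hv (by
    rw [RR.mem_iff_bd, RR.bd_iff_ord (mul_ne_zero hg (pow_ne_zero _ hπ0)),
      v.ord_mul hg (pow_ne_zero _ hπ0), RR.ord_pow, hπord]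
    omega)
  have := mul_mem hgm (pow_mem hπinv l)
  rwa [mul_assoc, ← mul_pow, mul_inv_cancel₀ hπ0, one_pow, mul_one] at this

end General

variable {F : Type*} [Field F] [Algebra ℂ F] [RR.FnField ℂ F]

open scoped Classical in
/-- value in the Riemann sphere -/
def sval (f : F) (Q : Place ℂ F) : OnePoint ℂ :=
  if RR.Bd Q f 0 then ((val Q f : ℂ) : OnePoint ℂ) else OnePoint.infty

/-- the topology of pointwise convergence of values -/
scoped instance placeTopology : TopologicalSpace (Place ℂ F) :=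
  TopologicalSpace.induced (fun Q f => sval f Q) Pi.topologicalSpace

theorem continuous_sval (f : F) : Continuous (sval f) :=
  (continuous_apply (A := fun _ : F => OnePoint ℂ) f).comp
    (continuous_induced_dom (f := fun Q (g : F) => sval g Q))

theorem tendsto_place {α : Type*} {l : Filter α} {u : α → Place ℂ F} {P : Place ℂ F}
    (h : ∀ f : F, Tendsto (fun a => sval f (u a)) l (𝓝 (sval f P))) : Tendsto u l (𝓝 P) := by
  rw [nhds_induced, tendsto_comap_iff]
  exact tendsto_pi_nhds.mpr h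

theorem sval_of_bd {Q : Place ℂ F} {f : F} (h : RR.Bd Q f 0) :
    sval f Q = ((val Q f : ℂ) : OnePoint ℂ) := if_pos h

theorem sval_of_not_bd {Q : Place ℂ F} {f : F} (h : ¬ RR.Bd Q f 0) :
    sval f Q = OnePoint.infty := if_neg h

theorem sval_inv_zero {Q : Place ℂ F} {f : F} (h : ¬ RR.Bd Q f 0) :
    RR.Bd Q f⁻¹ 0 ∧ val Q f⁻¹ = 0 := by
  have h1 := RR.bd_inv_of_not_bd h
  exact ⟨h1.mono (by norm_num), (val_eq_zero_iff (h1.mono (by norm_num))).mpr h1⟩

theorem val_inv {Q : Place ℂ F} {f : F} (h : RR.Bd Q f 0) (h0 : val Q f ≠ 0) :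
    RR.Bd Q f⁻¹ 0 ∧ val Q f⁻¹ = (val Q f)⁻¹ := by
  obtain ⟨hf0, hord⟩ := ord_eq_zero_of_val_ne h h0
  have hb : RR.Bd Q f⁻¹ 0 := bd_nonneg.mpr (Or.inr (by rw [Q.ord_inv, hord, neg_zero]))
  refine ⟨hb, eq_inv_of_mul_eq_one_left ?_⟩
  rw [← val_mul hb h, inv_mul_cancel₀ hf0, ← map_one (algebraMap ℂ F), val_algebraMap]

theorem mem_nhds_some {c : ℂ} {ε : ℝ} (hε : 0 < ε) :
    ((↑) '' Metric.ball c ε : Set (OnePoint ℂ)) ∈ 𝓝 (c : OnePoint ℂ) :=
  (OnePoint.isOpen_image_coe.mpr Metric.isOpen_ball).mem_nhds ⟨c, Metric.mem_ball_self hε, rfl⟩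

theorem mem_nhds_infty_iff {s : Set (OnePoint ℂ)} :
    s ∈ 𝓝 OnePoint.infty ↔ OnePoint.infty ∈ s ∧ ∃ R : ℝ, ∀ z : ℂ, R < ‖z‖ → (z : OnePoint ℂ) ∈ s := by
  rw [OnePoint.nhds_infty_eq, mem_sup, mem_map, mem_pure, coclosedCompact_eq_cocompact, and_comm,
    ← Metric.cobounded_eq_cocompact]
  refine and_congr_right fun _ => ?_
  rw [← Bornology.isCobounded_def, ← Bornology.isBounded_compl_iff,
    Metric.isBounded_iff_subset_closedBall 0]
  constructor
  · rintro ⟨R, hR⟩
    refine ⟨R, fun z hz => ?_⟩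
    by_contra h
    have := hR h
    rw [Metric.mem_closedBall, dist_zero_right] at this
    linarith
  · rintro ⟨R, hR⟩
    refine ⟨R, fun z hz => ?_⟩
    rw [Metric.mem_closedBall, dist_zero_right]
    by_contra h
    exact hz (hR z (not_le.mp h))

theorem tendsto_sval_inv_of_infty {α : Type*} {l : Filter α} {u : α → Place ℂ F} {f : F}
    (h : Tendsto (fun a => sval f (u a)) l (𝓝 OnePoint.infty)) :
    ∀ ε > 0, ∀ᶠ a in l, RR.Bd (u a) f⁻¹ 0 ∧ ‖val (u a) f⁻¹‖ < ε := by
  intro ε hε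
  have hs : ({OnePoint.infty} ∪ (↑) '' {z : ℂ | ε⁻¹ < ‖z‖} : Set (OnePoint ℂ)) ∈ 𝓝 OnePoint.infty :=
    mem_nhds_infty_iff.mpr ⟨Or.inl rfl, ε⁻¹, fun z hz => Or.inr ⟨z, hz, rfl⟩⟩
  filter_upwards [h hs] with a ha
  by_cases hb : RR.Bd (u a) f 0
  · rw [Set.mem_preimage, sval_of_bd hb] at ha
    rcases ha with ha | ⟨z, hz, hze⟩
    · exact absurd ha (OnePoint.coe_ne_infty _)
    · rw [OnePoint.coe_injective hze] at hz
      have hpos : 0 < ‖val (u a) f‖ := lt_trans (inv_pos.mpr hε) hz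
      obtain ⟨hb', hv⟩ := val_inv hb (norm_pos_iff.mp hpos)
      refine ⟨hb', ?_⟩
      rw [hv, norm_inv]
      exact inv_lt_of_inv_lt₀ hε hz
  · obtain ⟨hb', hv⟩ := sval_inv_zero hb
    exact ⟨hb', by rw [hv, norm_zero]; exact hε⟩

theorem tendsto_sval_infty_of_inv {α : Type*} {l : Filter α} {u : α → Place ℂ F} {f : F}
    (hf : f ≠ 0) (h : ∀ ε > 0, ∀ᶠ a in l, RR.Bd (u a) f⁻¹ 0 ∧ ‖val (u a) f⁻¹‖ < ε) :
    Tendsto (fun a => sval f (u a)) l (𝓝 OnePoint.infty) := by
  intro s hs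
  rw [mem_map]
  obtain ⟨hinf, R, hR⟩ := mem_nhds_infty_iff.mp hs
  filter_upwards [h (|R| + 1)⁻¹ (by positivity)] with a ⟨hb, hv⟩
  show sval f (u a) ∈ s
  by_cases hbf : RR.Bd (u a) f 0
  · rw [sval_of_bd hbf]
    apply hR
    have h0 : val (u a) f ≠ 0 := by
      intro h0
      have := val_mul hbf hb
      rw [mul_inv_cancel₀ hf, ← map_one (algebraMap ℂ F), val_algebraMap, h0, zero_mul] at this
      exact one_ne_zero this
    rw [(val_inv hbf h0).2, norm_inv, inv_lt_inv₀ (norm_pos_iff.mpr h0) (by positivity)] at hv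
    linarith [le_abs_self R]
  · rw [sval_of_not_bd hbf]
    exact hinf

theorem tendsto_val_of_some {α : Type*} {l : Filter α} {u : α → Place ℂ F} {f : F} {c : ℂ}
    (h : Tendsto (fun a => sval f (u a)) l (𝓝 (c : OnePoint ℂ))) :
    (∀ᶠ a in l, RR.Bd (u a) f 0) ∧ Tendsto (fun a => val (u a) f) l (𝓝 c) := by
  have key : ∀ ε > 0, ∀ᶠ a in l, RR.Bd (u a) f 0 ∧ val (u a) f ∈ Metric.ball c ε := fun ε hε => by
    filter_upwards [h (mem_nhds_some hε)] with a ha
    by_cases hb : RR.Bd (u a) f 0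
    · rw [Set.mem_preimage, sval_of_bd hb] at ha
      obtain ⟨z, hz, hze⟩ := ha
      exact ⟨hb, OnePoint.coe_injective hze ▸ hz⟩
    · rw [Set.mem_preimage, sval_of_not_bd hb] at ha
      obtain ⟨z, -, hze⟩ := ha
      exact absurd hze (OnePoint.coe_ne_infty z)
  exact ⟨(key 1 one_pos).mono fun a ha => ha.1,
    Metric.tendsto_nhds.mpr fun ε hε => (key ε hε).mono fun a ha => ha.2⟩

theorem tendsto_some_of_val {α : Type*} {l : Filter α} {u : α → Place ℂ F} {f : F} {c : ℂ}
    (hb : ∀ᶠ a in l, RR.Bd (u a) f 0) (h : Tendsto (fun a => val (u a) f) l (𝓝 c)) :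
    Tendsto (fun a => sval f (u a)) l (𝓝 (c : OnePoint ℂ)) :=
  ((OnePoint.continuous_coe.tendsto c).comp h).congr' (hb.mono fun a ha => (sval_of_bd ha).symm)

theorem compactSpace_place : CompactSpace (Place ℂ F) := by
  classical
  refine ⟨isCompact_iff_ultrafilter_le_nhds.mpr fun U _ => ?_⟩
  have hlim : ∀ f : F, ∃ a : OnePoint ℂ, Tendsto (sval f) (U : Filter (Place ℂ F)) (𝓝 a) := fun f =>
    ⟨_, (U.map (sval f)).le_nhds_lim⟩
  choose a ha using hlim
  have hcoe : ∀ f, a f ≠ OnePoint.infty → ∃ c : ℂ, a f = c := fun f hf =>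
    OnePoint.ne_infty_iff_exists.mp hf |>.imp fun c hc => hc.symm
  have hsome : ∀ f (c : ℂ), a f = c →
      (∀ᶠ Q in (U : Filter (Place ℂ F)), RR.Bd Q f 0) ∧
        Tendsto (fun Q => val Q f) (U : Filter (Place ℂ F)) (𝓝 c) := fun f c hc =>
    tendsto_val_of_some (u := id) (hc ▸ ha f)
  have heq : ∀ f (c : ℂ), (∀ᶠ Q in (U : Filter (Place ℂ F)), RR.Bd Q f 0) →
      Tendsto (fun Q => val Q f) (U : Filter (Place ℂ F)) (𝓝 c) → a f = c := fun f c hb hc =>
    tendsto_nhds_unique (ha f) (tendsto_some_of_val (u := id) hb hc)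
  have hconst : ∀ c : ℂ, a (algebraMap ℂ F c) = c := fun c =>
    heq _ c (Eventually.of_forall fun Q => RR.Bd.of_algebraMap c)
      (by simp only [val_algebraMap]; exact tendsto_const_nhds)
  have hadd : ∀ f g (c d : ℂ), a f = c → a g = d → a (f + g) = ((c + d : ℂ) : OnePoint ℂ) := by
    intro f g c d hf hg
    obtain ⟨hbf, htf⟩ := hsome f c hf
    obtain ⟨hbg, htg⟩ := hsome g d hg
    refine heq _ _ ((hbf.and hbg).mono fun Q h => h.1.add h.2)
      ((htf.add htg).congr' ((hbf.and hbg).mono fun Q h => (val_add h.1 h.2).symm))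
  have hmul : ∀ f g (c d : ℂ), a f = c → a g = d → a (f * g) = ((c * d : ℂ) : OnePoint ℂ) := by
    intro f g c d hf hg
    obtain ⟨hbf, htf⟩ := hsome f c hf
    obtain ⟨hbg, htg⟩ := hsome g d hg
    refine heq _ _ ((hbf.and hbg).mono fun Q h => by simpa using h.1.mul h.2)
      ((htf.mul htg).congr' ((hbf.and hbg).mono fun Q h => (val_mul h.1 h.2).symm))
  have hinv : ∀ f, a f = OnePoint.infty → a f⁻¹ = ((0 : ℂ) : OnePoint ℂ) := by
    intro f hf
    have h := tendsto_sval_inv_of_infty (u := id) (hf ▸ ha f)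
    exact heq _ _ ((h 1 one_pos).mono fun Q hQ => hQ.1)
      (Metric.tendsto_nhds.mpr fun ε hε => (h ε hε).mono fun Q hQ => by simpa using hQ.2)
  let R : Subring F :=
    { carrier := {f | a f ≠ OnePoint.infty}
      one_mem' := by
        show a 1 ≠ _
        rw [← map_one (algebraMap ℂ F), hconst]
        exact OnePoint.coe_ne_infty _
      zero_mem' := by
        show a 0 ≠ _
        rw [← map_zero (algebraMap ℂ F), hconst]
        exact OnePoint.coe_ne_infty _
      add_mem' := fun {f g} hf hg => by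
        obtain ⟨c, hc⟩ := hcoe f hf
        obtain ⟨d, hd⟩ := hcoe g hg
        show a (f + g) ≠ _
        rw [hadd f g c d hc hd]
        exact OnePoint.coe_ne_infty _
      mul_mem' := fun {f g} hf hg => by
        obtain ⟨c, hc⟩ := hcoe f hf
        obtain ⟨d, hd⟩ := hcoe g hg
        show a (f * g) ≠ _
        rw [hmul f g c d hc hd]
        exact OnePoint.coe_ne_infty _
      neg_mem' := fun {f} hf => by
        obtain ⟨c, hc⟩ := hcoe f hf
        show a (-f) ≠ _
        rw [show -f = algebraMap ℂ F (-1) * f by simp, hmul _ f (-1) c (hconst _) hc]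
        exact OnePoint.coe_ne_infty _ }
  let O : ValuationSubring F :=
    { R with mem_or_inv_mem' := (fun f => by
        by_cases hf : a f = OnePoint.infty
        · exact Or.inr (show a f⁻¹ ≠ _ by rw [hinv f hf]; exact OnePoint.coe_ne_infty _)
        · exact Or.inl hf) }
  have htop : O ≠ ⊤ := by
    intro h
    obtain ⟨x, hx, -⟩ := RR.FnField.exists_transcendental (K := ℂ) (F := F)
    have hall : ∀ f : F, a f ≠ OnePoint.infty := fun f => (h ▸ ValuationSubring.mem_top f : f ∈ O)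
    obtain ⟨c, hc⟩ := hcoe x (hall x)
    set z := x - algebraMap ℂ F c with hz
    have hz0 : z ≠ 0 := RR.ne_zero_of_transcendental (RR.transcendental_sub_const hx c)
    have hz' : a z = ((0 : ℂ) : OnePoint ℂ) := by
      rw [hz, sub_eq_add_neg, ← map_neg, hadd x _ c (-c) hc (hconst _), add_neg_cancel]
    obtain ⟨d, hd⟩ := hcoe z⁻¹ (hall _)
    have := hmul z z⁻¹ 0 d hz' hd
    rw [mul_inv_cancel₀ hz0, ← map_one (algebraMap ℂ F), hconst, zero_mul] at this
    exact one_ne_zero (OnePoint.coe_injective this)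
  obtain ⟨P, hP⟩ := exists_place_eq (K := ℂ) O (fun c => show a _ ≠ _ by
    rw [hconst]; exact OnePoint.coe_ne_infty _) htop
  have hPO : ∀ f, RR.Bd P f 0 ↔ a f ≠ OnePoint.infty := fun f => by
    rw [← RR.mem_iff_bd, hP]
    exact Iff.rfl
  refine ⟨P, Set.mem_univ _, ?_⟩
  refine tendsto_place (u := id) fun f => ?_
  by_cases hf : a f = OnePoint.infty
  · rw [sval_of_not_bd (fun h => (hPO f).mp h hf), ← hf]
    exact ha f
  · have hb := (hPO f).mpr hf
    obtain ⟨c, hc⟩ := hcoe f hf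
    suffices val P f = c by
      rw [sval_of_bd hb, this, ← hc]
      exact ha f
    set z := f - algebraMap ℂ F c with hz
    have hz' : a z = ((0 : ℂ) : OnePoint ℂ) := by
      rw [hz, sub_eq_add_neg, ← map_neg, hadd f _ c (-c) hc (hconst _), add_neg_cancel]
    refine val_eq ?_
    by_contra hb1
    have hzb : RR.Bd P z 0 := (hPO z).mpr (by rw [hz']; exact OnePoint.coe_ne_infty _)
    rw [RR.not_bd_iff] at hb1
    have hord : P.ord z = 0 := by
      have := (RR.bd_iff_ord hb1.1).mp hzb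
      simp only [hz] at this hb1 ⊢; omega
    have hib : RR.Bd P z⁻¹ 0 := bd_nonneg.mpr (Or.inr (by rw [P.ord_inv, hord, neg_zero]))
    obtain ⟨d, hd⟩ := hcoe z⁻¹ ((hPO _).mp hib)
    have := hmul z z⁻¹ 0 d hz' hd
    rw [mul_inv_cancel₀ hb1.1, ← map_one (algebraMap ℂ F), hconst, zero_mul] at this
    exact one_ne_zero (OnePoint.coe_injective this)

namespace Disc

variable {v : Place ℂ F} {t : F} (D : Disc v t)

theorem bd_pt {z : ℂ} (hz : ‖z‖ < D.r) : RR.Bd (D.pt z) t 0 ∧ val (D.pt z) t = z := by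
  have h : RR.Bd (D.pt z) (t - algebraMap ℂ F z) (-1) :=
    RR.bd_iff.mpr (Or.inr (by rw [D.ord_sub z hz]; norm_num))
  exact ⟨by simpa using (h.mono (by norm_num)).add (RR.Bd.of_algebraMap (v := D.pt z) z),
    val_eq h⟩

theorem injOn : Set.InjOn D.pt (Metric.ball 0 D.r) := fun z hz z' hz' h => by
  rw [mem_ball_zero_iff] at hz hz'
  rw [← (D.bd_pt hz).2, h, (D.bd_pt hz').2]

theorem tendsto_pt : Tendsto D.pt (𝓝 0) (𝓝 v) := by
  refine tendsto_place fun f => ?_
  by_cases hf : RR.Bd v f 0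
  · obtain ⟨g, hg, hev⟩ := D.analytic f hf
    have h0 : g 0 = val v f := by
      have h := hev.self_of_nhds.2
      rw [D.pt_zero] at h
      exact h.symm
    rw [sval_of_bd hf, ← h0]
    exact tendsto_some_of_val (hev.mono fun z hz => hz.1)
      (hg.continuousAt.tendsto.congr' (hev.mono fun z hz => hz.2.symm))
  · obtain ⟨hb, hv⟩ := sval_inv_zero hf
    obtain ⟨g, hg, hev⟩ := D.analytic f⁻¹ hb
    have h0 : g 0 = 0 := by
      have h := hev.self_of_nhds.2
      rw [D.pt_zero, hv] at h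
      exact h.symm
    rw [sval_of_not_bd hf]
    refine tendsto_sval_infty_of_inv (fun h => hf (h ▸ RR.Bd.zero)) fun ε hε => ?_
    have := (h0 ▸ hg.continuousAt.tendsto).norm.eventually (Iio_mem_nhds (by simpa using hε))
    filter_upwards [hev, this] with z hz hz'
    exact ⟨hz.1, by rw [hz.2]; exact hz'⟩

theorem image_mem_nhds {δ : ℝ} (hδ : 0 < δ) : D.pt '' Metric.ball 0 δ ∈ 𝓝 v := by
  obtain ⟨ε, hε, hεr, hQ⟩ := D.eq_pt
  set η := min ε δ
  have hη : 0 < η := lt_min hε hδ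
  have h1 : RR.Bd v t 0 ∧ val v t = 0 := by
    have := D.bd_pt (z := 0) (by simpa using D.r_pos)
    rwa [D.pt_zero] at this
  have ht : sval t ⁻¹' ((↑) '' Metric.ball (0 : ℂ) η) ∈ 𝓝 v := by
    refine (continuous_sval t).continuousAt ?_
    rw [sval_of_bd h1.1, h1.2]
    exact mem_nhds_some hη
  have hy : sval D.y ⁻¹' ((↑) '' Metric.ball (0 : ℂ) η) ∈ 𝓝 v := by
    refine (continuous_sval D.y).continuousAt ?_
    rw [sval_of_bd D.y_bd, D.y_val]
    exact mem_nhds_some hη
  filter_upwards [ht, hy] with Q h2 h3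
  obtain ⟨c, hc, hce⟩ := h2
  obtain ⟨d, hd, hde⟩ := h3
  have hbt : RR.Bd Q t 0 := by
    by_contra hb
    rw [sval_of_not_bd hb] at hce
    exact OnePoint.coe_ne_infty c hce
  have hby : RR.Bd Q D.y 0 := by
    by_contra hb
    rw [sval_of_not_bd hb] at hde
    exact OnePoint.coe_ne_infty d hde
  rw [sval_of_bd hbt] at hce
  rw [sval_of_bd hby] at hde
  rw [OnePoint.coe_injective hce, mem_ball_zero_iff] at hc
  rw [OnePoint.coe_injective hde, mem_ball_zero_iff] at hd
  exact ⟨val Q t, mem_ball_zero_iff.mpr (hc.trans_le (min_le_right _ _)),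
    (hQ Q hbt hby (hc.trans_le (min_le_left _ _)) (hd.trans_le (min_le_left _ _))).symm⟩

end Disc

theorem exists_disc_at (v : Place ℂ F) : ∃ t : F, v.ord t = 1 ∧ Nonempty (Disc v t) := by
  obtain ⟨π, hπ⟩ := IsDiscreteValuationRing.exists_irreducible v.toValuationSubring
  exact ⟨π, v.ord_coe_irreducible hπ, exists_disc (v.ord_coe_irreducible hπ)⟩

/-- connectedness -/
theorem eq_univ_of_isClopen {S : Set (Place ℂ F)} (hS : IsClopen S) (hne : S.Nonempty) :
    S = Set.univ := by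
  by_contra hu
  obtain ⟨P, hP⟩ := (Set.ne_univ_iff_exists_notMem S).mp hu
  obtain ⟨f, hfT, -, hreg⟩ := HeckeJ.exists_only_pole P
  haveI := compactSpace_place (F := F)
  have hbd : ∀ Q ∈ S, RR.Bd Q f 0 := fun Q hQ =>
    bd_nonneg.mpr (Or.inr (hreg Q fun h => hP (h ▸ hQ)))
  have hcont : ContinuousOn (fun Q => ‖val Q f‖) S := fun Q hQ => by
    have h : Tendsto (fun R => sval f R) (𝓝[S] Q) (𝓝 ((val Q f : ℂ) : OnePoint ℂ)) := by
      rw [← sval_of_bd (hbd Q hQ)]
      exact (continuous_sval f).continuousAt.mono_left nhdsWithin_le_nhds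
    exact (tendsto_val_of_some (u := id) h).2.norm
  obtain ⟨Q, hQ, hmax⟩ := hS.isClosed.isCompact.exists_isMaxOn hne hcont
  obtain ⟨t, -, ⟨D⟩⟩ := exists_disc_at Q
  obtain ⟨g, hg, hev⟩ := D.analytic f (hbd Q hQ)
  have hg0 : g 0 = val Q f := by
    have h := hev.self_of_nhds.2
    rw [D.pt_zero] at h
    exact h.symm
  have hloc : IsLocalMax (norm ∘ g) 0 := by
    filter_upwards [hev, D.tendsto_pt.eventually (hS.isOpen.mem_nhds hQ)] with z hz hzS
    simp only [Function.comp_apply]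
    rw [hg0, ← hz.2]
    exact hmax hzS
  have hconst : ∀ᶠ z in 𝓝 (0 : ℂ), g z = g 0 :=
    Complex.eventually_eq_of_isLocalMax_norm
      (hg.eventually_analyticAt.mono fun z hz => hz.differentiableAt) hloc
  obtain ⟨δ, hδ, hball⟩ := Metric.eventually_nhds_iff_ball.mp (hev.and hconst)
  have hinj : Set.InjOn D.pt (Metric.ball 0 (min δ D.r)) :=
    D.injOn.mono (Metric.ball_subset_ball (min_le_right _ _))
  have hinf : (D.pt '' Metric.ball 0 (min δ D.r)).Infinite :=
    (Set.infinite_image_iff hinj).mpr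
      (infinite_of_mem_nhds (0 : ℂ) (Metric.ball_mem_nhds _ (lt_min hδ D.r_pos)))
  set c := g 0
  have hne0 : f - algebraMap ℂ F c ≠ 0 :=
    RR.ne_zero_of_transcendental (RR.transcendental_sub_const hfT c)
  refine hinf ((RR.finite_ord_ne_zero hne0).subset ?_)
  rintro _ ⟨z, hz, rfl⟩
  obtain ⟨⟨hb, hv⟩, he⟩ := hball z (Metric.ball_subset_ball (min_le_left _ _) hz)
  have h := val_spec hb
  rw [hv, he, RR.bd_iff_ord hne0] at h
  show (D.pt z).ord (f - algebraMap ℂ F c) ≠ 0
  omega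

end FLTAgent.AJ

end
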