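import Fermat.Agent.AJ.ConstExt
import Fermat.Agent.AJ.Divisors
import Fermat.Agent.AJ.SpaceC
import Fermat.Agent.HeckeJ.AlongAux

/-!
Places and Riemann–Roch spaces under an extension of algebraically closed fields of constants.
-/

set_option autoImplicit false

noncomputable section

open AlgebraicCurve

namespace FLTAgent.AJ

namespace ConstExt

variable {K₀ L F₀ F : Type*} [Field K₀] [Field L] [Algebra K₀ L] [Field F₀] [Algebra K₀ F₀]
  [Field F] [Algebra L F] (e : ConstExt K₀ L F₀ F)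

theorem smul_eq_conj (σ : L ≃ₐ[K₀] L) (f : F) : e.act σ • f = e.conj σ f := rfl

theorem hom_ext {M : Type*} [Field M] {f g : F →+* M}
    (hL : ∀ l, f (algebraMap L F l) = g (algebraMap L F l)) (hi : ∀ x, f (e.i x) = g (e.i x)) :
    f = g := by
  have key : ∀ a ∈ e.poly, f a = g a := by
    intro a ha
    unfold poly at ha
    induction ha using Submodule.span_induction with
    | mem y hy => obtain ⟨x, rfl⟩ := hy; exact hi x
    | zero => simp
    | add u v _ _ hu hv => rw [map_add, map_add, hu, hv]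
    | smul l u _ hu => rw [Algebra.smul_def, map_mul, map_mul, hL, hu]
  refine RingHom.ext fun x => ?_
  obtain ⟨a, ha, b, hb, -, rfl⟩ := e.gen x
  rw [map_div₀, map_div₀, key a ha, key b hb]

theorem conj_mul (σ τ : L ≃ₐ[K₀] L) (f : F) : e.conj (σ * τ) f = e.conj σ (e.conj τ f) := by
  have h := e.hom_ext (f := (e.conj (σ * τ)).toRingHom)
    (g := ((e.conj τ).trans (e.conj σ)).toRingHom) (fun l => by simp) (fun x => by simp)
  exact RingHom.congr_fun h f

theorem act_mul (σ τ : L ≃ₐ[K₀] L) : e.act (σ * τ) = e.act σ * e.act τ := by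
  refine Subtype.ext (Prod.ext ?_ ?_)
  · exact RingEquiv.ext fun f => e.conj_mul σ τ f
  · refine RingEquiv.ext fun l => ?_
    show SemilinearAut.baseAut (e.act (σ * τ)) l =
      SemilinearAut.baseAut (e.act σ) (SemilinearAut.baseAut (e.act τ) l)
    rw [e.act_base, e.act_base, e.act_base]
    rfl

/-- a place fixed by all automorphisms of the constants -/
def IsFixed (w : Place L F) : Prop := ∀ σ : L ≃ₐ[K₀] L, e.act σ • w = w

theorem ord_conj (σ : L ≃ₐ[K₀] L) (w : Place L F) (f : F) :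
    (e.act σ • w).ord (e.conj σ f) = w.ord f :=
  SemilinearAut.ord_smul (e.act σ) w f

theorem ord_smul_i (σ : L ≃ₐ[K₀] L) (w : Place L F) (x : F₀) :
    (e.act σ • w).ord (e.i x) = w.ord (e.i x) := by
  conv_lhs => rw [← e.conj_i σ x]
  exact e.ord_conj σ w _

theorem bd_conj {σ : L ≃ₐ[K₀] L} {w : Place L F} {f : F} {n : ℤ} :
    RR.Bd (e.act σ • w) (e.conj σ f) n ↔ RR.Bd w f n := by
  rw [RR.bd_iff, RR.bd_iff, ord_conj, map_eq_zero_iff _ (e.conj σ).injective]

variable [IsAlgClosed L] [CharZero L] [RR.FnField L F]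

theorem mem_rr_conj {D : Divisor L F} (hD : ∀ (σ : L ≃ₐ[K₀] L) w, D (e.act σ • w) = D w)
    (σ : L ≃ₐ[K₀] L) {f : F} (hf : f ∈ riemannRochSpace D) :
    e.conj σ f ∈ riemannRochSpace D := by
  refine mem_rrSpace.mpr fun w => ?_
  obtain ⟨u, rfl⟩ : ∃ u, e.act σ • u = w := ⟨_, smul_inv_smul _ w⟩
  rw [bd_conj, hD]
  exact mem_rrSpace.mp hf u


theorem val_conj {σ : L ≃ₐ[K₀] L} {w : Place L F} {f : F} (hf : RR.Bd w f 0) :
    val (e.act σ • w) (e.conj σ f) = σ (val w f) := by
  refine val_eq ?_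
  rw [← conj_algebraMap e σ, ← map_sub, bd_conj]
  exact val_spec hf

variable [IsAlgClosed K₀] [CharZero K₀]

theorem rr_le_span {D : Divisor L F} (hD : ∀ (σ : L ≃ₐ[K₀] L) w, D (e.act σ • w) = D w) :
    riemannRochSpace D ≤
      Submodule.span L {f | f ∈ riemannRochSpace D ∧ f ∈ Set.range e.i} := by
  haveI := RR.finiteDimensional_rr D
  exact e.le_span_fixed _ fun σ f hf => e.mem_rr_conj hD σ hf

/-- in a stable space, a pole order reached at `w` is reached by a function over `K₀` -/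
theorem exists_fixed_exact {D : Divisor L F} (hD : ∀ (σ : L ≃ₐ[K₀] L) w, D (e.act σ • w) = D w)
    {w : Place L F} {n : ℤ} {f : F} (hf : f ∈ riemannRochSpace D) (hfn : ¬ RR.Bd w f n) :
    ∃ x : F₀, e.i x ∈ riemannRochSpace D ∧ ¬ RR.Bd w (e.i x) n := by
  by_contra hne
  simp only [not_exists, not_and, not_not] at hne
  apply hfn
  have hf' := e.rr_le_span hD hf
  clear hfn hf
  induction hf' using Submodule.span_induction with
  | mem y hy => obtain ⟨h1, x, rfl⟩ := hy; exact hne x h1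
  | zero => exact RR.Bd.zero
  | add u v _ _ hu hv => exact hu.add hv
  | smul l u _ hu => exact hu.smul l

theorem isFixed_of_finite_orbit {w : Place L F}
    (h : (Set.range fun σ : L ≃ₐ[K₀] L => e.act σ • w).Finite) : e.IsFixed w := by
  classical
  intro σ₀
  by_contra hne
  set T := h.toFinset with hT
  have hmem : ∀ u, u ∈ T ↔ ∃ σ : L ≃ₐ[K₀] L, e.act σ • w = u := fun u => by simp [hT]
  have hwT : w ∈ T := (hmem w).mpr ⟨1, by
    have h1 : e.act 1 = 1 := by
      have := e.act_mul 1 1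
      rwa [mul_one, left_eq_mul] at this
    rw [h1, one_smul]⟩
  obtain ⟨f, hfT, hfw, hfo⟩ := HeckeJ.exists_only_pole w
  set k₀ : ℤ := -w.ord f with hk₀
  set D : Divisor L F := ∑ u ∈ T, Finsupp.single u k₀ with hDdef
  have hDapp : ∀ u, D u = if u ∈ T then k₀ else 0 := fun u => by
    rw [hDdef, Finsupp.finsetSum_apply]
    simp [Finsupp.single_apply]
  have hD : ∀ (σ : L ≃ₐ[K₀] L) u, D (e.act σ • u) = D u := by
    intro σ u
    rw [hDapp, hDapp]
    have hiff : e.act σ • u ∈ T ↔ u ∈ T := by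
      refine ⟨fun hu => ?_, fun hu => ?_⟩
      · obtain ⟨τ, hτ⟩ := (hmem _).mp hu
        refine (hmem _).mpr ⟨σ⁻¹ * τ, ?_⟩
        refine MulAction.injective (e.act σ) ?_
        simp only
        rw [← hτ, ← mul_smul, ← act_mul, mul_inv_cancel_left]
      · obtain ⟨τ, rfl⟩ := (hmem _).mp hu
        exact (hmem _).mpr ⟨σ * τ, by rw [act_mul, mul_smul]⟩
    simp only [hiff]
  have hf0 : f ≠ 0 := RR.ne_zero_of_transcendental hfT
  have hfD : f ∈ riemannRochSpace D := mem_rrSpace.mpr fun u => by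
    rw [RR.bd_iff_ord hf0, hDapp]
    rcases eq_or_ne u w with rfl | hu
    · rw [if_pos hwT]; omega
    · have := hfo u hu
      split_ifs <;> omega
  obtain ⟨x, hxD, hxw⟩ := e.exists_fixed_exact hD hfD (n := k₀ - 1) (w := w)
    (by rw [RR.bd_iff_ord hf0]; omega)
  have hx0 : e.i x ≠ 0 := fun h0 => hxw (by rw [h0]; exact RR.Bd.zero)
  have hxord : w.ord (e.i x) = -k₀ := by
    have h1 := (RR.bd_iff_ord hx0).mp (mem_rrSpace.mp hxD w)
    rw [RR.bd_iff_ord hx0] at hxw
    rw [hDapp, if_pos hwT] at h1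
    omega
  set w' := e.act σ₀ • w with hw'
  have hxord' : ∀ u ∈ T, u.ord (e.i x) = -k₀ := fun u hu => by
    obtain ⟨σ, rfl⟩ := (hmem u).mp hu
    rw [ord_smul_i, hxord]
  have hw'T : w' ∈ T := (hmem _).mpr ⟨σ₀, rfl⟩
  have hbd : ∀ g ∈ riemannRochSpace D, ∀ u ∈ T, RR.Bd u (g / e.i x) 0 := fun g hg u hu => by
    rw [RR.bd_div_iff hx0, hxord' u hu]
    have := mem_rrSpace.mp hg u
    rw [hDapp, if_pos hu] at this
    simpa using this
  have hconst : ∀ y : F₀, e.i y ∈ riemannRochSpace D →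
      val w' (e.i y / e.i x) = val w (e.i y / e.i x) := by
    intro y hy
    have hc : ∀ σ : L ≃ₐ[K₀] L, val (e.act σ • w) (e.i y / e.i x) = σ (val w (e.i y / e.i x)) :=
      fun σ => by
        conv_lhs => rw [← map_div₀, ← e.conj_i σ, map_div₀]
        rw [e.val_conj (hbd _ hy w hwT)]
    obtain ⟨c, hc0⟩ : val w (e.i y / e.i x) ∈ Set.range (algebraMap K₀ L) := by
      refine mem_range_of_finite_orbit ?_
      refine (T.finite_toSet.image fun u => val u (e.i y / e.i x)).subset ?_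
      rintro _ ⟨σ, rfl⟩
      exact ⟨_, (hmem _).mpr ⟨σ, rfl⟩, hc σ⟩
    rw [hw', hc, ← hc0, AlgEquiv.commutes]
  have hall : ∀ g ∈ riemannRochSpace D, val w' (g / e.i x) = val w (g / e.i x) := by
    intro g hg
    have hg' := e.rr_le_span hD hg
    have key : g ∈ riemannRochSpace D ∧ val w' (g / e.i x) = val w (g / e.i x) := by
      clear hg
      induction hg' using Submodule.span_induction with
      | mem y hy => obtain ⟨h1, y₀, rfl⟩ := hy; exact ⟨h1, hconst y₀ h1⟩
      | zero => exact ⟨zero_mem _, by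
          rw [zero_div, ← map_zero (algebraMap L F), val_algebraMap, val_algebraMap]⟩
      | add u v _ _ hu hv =>
        refine ⟨add_mem hu.1 hv.1, ?_⟩
        rw [add_div, val_add (hbd _ hu.1 _ hw'T) (hbd _ hv.1 _ hw'T),
          val_add (hbd _ hu.1 _ hwT) (hbd _ hv.1 _ hwT), hu.2, hv.2]
      | smul l u _ hu =>
        refine ⟨Submodule.smul_mem _ l hu.1, ?_⟩
        rw [Algebra.smul_def, mul_div_assoc, val_mul (RR.Bd.of_algebraMap l) (hbd _ hu.1 _ hw'T),
          val_mul (RR.Bd.of_algebraMap l) (hbd _ hu.1 _ hwT), val_algebraMap, val_algebraMap, hu.2]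
    exact key.2
  have h1 : val w' (f / e.i x) = 0 := by
    rw [val_eq_zero_iff (hbd f hfD _ hw'T), RR.bd_div_iff hx0, hxord' _ hw'T,
      RR.bd_iff_ord hf0]
    have := hfo w' hne
    omega
  have h2 := (val_eq_zero_iff (hbd f hfD _ hwT)).mp (hall f hfD ▸ h1)
  rw [RR.bd_div_iff hx0, hxord, RR.bd_iff_ord hf0] at h2
  omega

theorem isFixed_of_ord_ne_zero {w : Place L F} {x : F₀} (hx : w.ord (e.i x) ≠ 0) :
    e.IsFixed w := by
  have hx0 : e.i x ≠ 0 := fun h0 => hx (by rw [h0]; exact Place.ord_zero w)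
  refine e.isFixed_of_finite_orbit ((RR.finite_ord_ne_zero (K := L) hx0).subset ?_)
  rintro _ ⟨σ, rfl⟩
  show (e.act σ • w).ord (e.i x) ≠ 0
  rwa [ord_smul_i]

theorem single_stable {w : Place L F} (hw : e.IsFixed w) (n : ℤ) (σ : L ≃ₐ[K₀] L) (u : Place L F) :
    Finsupp.single w n (e.act σ • u) = Finsupp.single w n u := by
  classical
  rw [Finsupp.single_apply, Finsupp.single_apply]
  have : w = e.act σ • u ↔ w = u :=
    ⟨fun h => MulAction.injective (e.act σ) (show e.act σ • w = e.act σ • u by rw [hw σ, ← h]),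
      fun h => by rw [← h, hw σ]⟩
  simp only [this]

theorem exists_fixed_pole {w : Place L F} (hw : e.IsFixed w) :
    ∃ x : F₀, w.ord (e.i x) < 0 ∧ ∀ u : Place L F, u ≠ w → 0 ≤ u.ord (e.i x) := by
  obtain ⟨f, hfT, hfw, hfo⟩ := HeckeJ.exists_only_pole w
  have hf0 := RR.ne_zero_of_transcendental hfT
  have hf : f ∈ riemannRochSpace (Finsupp.single w (-w.ord f)) := mem_rrSpace.mpr fun u => by
    rw [RR.bd_iff_ord hf0]
    rcases eq_or_ne u w with rfl | hu
    · rw [Finsupp.single_eq_same]; omega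
    · rw [Finsupp.single_eq_of_ne hu]
      have := hfo u hu
      omega
  obtain ⟨x, hx, hxw⟩ := e.exists_fixed_exact (e.single_stable hw _) hf (w := w) (n := 0)
    (by rw [RR.bd_iff_ord hf0]; omega)
  have hx0 : e.i x ≠ 0 := fun h0 => hxw (by rw [h0]; exact RR.Bd.zero)
  rw [RR.bd_iff_ord hx0] at hxw
  refine ⟨x, by omega, fun u hu => ?_⟩
  have := (RR.bd_iff_ord hx0).mp (mem_rrSpace.mp hx u)
  rw [Finsupp.single_eq_of_ne hu] at this
  omega

theorem exists_fixed_unif {w : Place L F} (hw : e.IsFixed w) :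
    ∃ x : F₀, w.ord (e.i x) = 1 := by
  obtain ⟨W, hW⟩ := exists_kd L F
  have hex : ∀ m : ℤ, Divisor.degree W < m →
      ∃ x : F₀, e.i x ≠ 0 ∧ w.ord (e.i x) = -(m + 1) := by
    intro m hm
    have h1 := hW (Finsupp.single w (m + 1))
    have h2 := hW (Finsupp.single w m)
    have hz : ∀ n : ℤ, Divisor.degree W < n → RR.ell (W - Finsupp.single w n) = 0 := fun n hn =>
      RR.ell_of_degree_neg (by
        rw [map_sub, Divisor.degree_single, RR.deg_eq_one]; push_cast; omega)
    rw [hz m hm, Divisor.degree_single, RR.deg_eq_one] at h2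
    rw [hz (m + 1) (by omega), Divisor.degree_single, RR.deg_eq_one] at h1
    obtain ⟨f, hf, hfn⟩ : ∃ f ∈ riemannRochSpace (Finsupp.single w (m + 1)), ¬ RR.Bd w f m := by
      by_contra hne
      simp only [not_exists, not_and, not_not] at hne
      have hle : riemannRochSpace (Finsupp.single w (m + 1)) ≤
          riemannRochSpace (Finsupp.single w m) := fun f hf => mem_rrSpace.mpr fun u => by
        rcases eq_or_ne u w with rfl | hu
        · rw [Finsupp.single_eq_same]; exact hne f hf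
        · have := mem_rrSpace.mp hf u
          rwa [Finsupp.single_eq_of_ne hu] at this ⊢
      haveI := RR.finiteDimensional_rr (Finsupp.single w m)
      have := Submodule.finrank_mono hle
      simp only [RR.ell] at h1 h2
      omega
    obtain ⟨x, hx, hxn⟩ := e.exists_fixed_exact (e.single_stable hw _) hf hfn
    have hx0 : e.i x ≠ 0 := fun h0 => hxn (by rw [h0]; exact RR.Bd.zero)
    refine ⟨x, hx0, ?_⟩
    have := (RR.bd_iff_ord hx0).mp (mem_rrSpace.mp hx w)
    rw [Finsupp.single_eq_same] at this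
    rw [RR.bd_iff_ord hx0] at hxn
    omega
  obtain ⟨a, ha, haw⟩ := hex (Divisor.degree W + 1) (by omega)
  obtain ⟨b, hb, hbw⟩ := hex (Divisor.degree W + 2) (by omega)
  refine ⟨a / b, ?_⟩
  rw [map_div₀, div_eq_mul_inv, w.ord_mul ha (inv_ne_zero hb), w.ord_inv, haw, hbw]
  omega

variable [RR.FnField K₀ F₀]

theorem exists_restrict {w : Place L F} (hw : e.IsFixed w) :
    ∃ v : Place K₀ F₀, ∀ x, w.ord (e.i x) = v.ord x := by
  obtain ⟨p, hp, -⟩ := e.exists_fixed_pole hw
  obtain ⟨π, hπ⟩ := e.exists_fixed_unif hw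
  obtain ⟨v, hv⟩ := exists_place_eq (w.toValuationSubring.comap e.i)
    (fun c => by
      rw [ValuationSubring.mem_comap, e.i_algebraMap]
      exact w.algebraMap_mem' _)
    (fun htop => by
      have : p ∈ w.toValuationSubring.comap e.i := htop ▸ ValuationSubring.mem_top p
      rw [ValuationSubring.mem_comap, RR.mem_iff_bd, RR.bd_iff] at this
      rcases this with h | h
      · rw [h, Place.ord_zero] at hp; omega
      · omega)
  have hmem : ∀ x, RR.Bd v x 0 ↔ RR.Bd w (e.i x) 0 := fun x => by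
    rw [← RR.mem_iff_bd, ← RR.mem_iff_bd, hv, ValuationSubring.mem_comap]
  have hzero : ∀ x : F₀, x ≠ 0 → w.ord (e.i x) = 0 → v.ord x = 0 := by
    intro x hx h
    have hix : e.i x ≠ 0 := (map_ne_zero e.i).mpr hx
    have h1 := (RR.bd_iff_ord hx).mp ((hmem x).mpr ((RR.bd_iff_ord hix).mpr (by omega)))
    have h2 := (RR.bd_iff_ord (inv_ne_zero hx)).mp ((hmem x⁻¹).mpr
      ((RR.bd_iff_ord ((map_ne_zero e.i).mpr (inv_ne_zero hx))).mpr
        (by rw [map_inv₀, w.ord_inv]; omega)))
    rw [v.ord_inv] at h2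
    omega
  have hπ0 : π ≠ 0 := fun h0 => by
    rw [h0, map_zero, Place.ord_zero] at hπ
    omega
  have hlin : ∀ x : F₀, x ≠ 0 → v.ord x = w.ord (e.i x) * v.ord π := by
    intro x hx
    have hy0 : x / π ^ w.ord (e.i x) ≠ 0 := div_ne_zero hx (zpow_ne_zero _ hπ0)
    have h := hzero _ hy0 (by
      rw [map_div₀, map_zpow₀, div_eq_mul_inv, w.ord_mul ((map_ne_zero e.i).mpr hx)
        (inv_ne_zero (zpow_ne_zero _ ((map_ne_zero e.i).mpr hπ0))), w.ord_inv, w.ord_zpow, hπ]
      ring)
    rw [div_eq_mul_inv, v.ord_mul hx (inv_ne_zero (zpow_ne_zero _ hπ0)), v.ord_inv,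
      v.ord_zpow] at h
    omega
  obtain ⟨u, hu⟩ := IsDiscreteValuationRing.exists_irreducible v.toValuationSubring
  have hu1 := v.ord_coe_irreducible hu
  have hu0 : (u : F₀) ≠ 0 := fun h0 => by rw [h0, Place.ord_zero] at hu1; omega
  have ha : v.ord π = 1 := by
    have h := hlin _ hu0
    rw [hu1] at h
    rcases Int.eq_one_or_neg_one_of_mul_eq_one' h.symm with ⟨-, h2⟩ | ⟨-, h2⟩
    · exact h2
    · have := (RR.bd_iff_ord hπ0).mp ((hmem π).mpr
        ((RR.bd_iff_ord ((map_ne_zero e.i).mpr hπ0)).mpr (by omega)))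
      omega
  refine ⟨v, fun x => ?_⟩
  rcases eq_or_ne x 0 with rfl | hx
  · rw [map_zero, Place.ord_zero, Place.ord_zero]
  · rw [hlin x hx, ha, mul_one]

theorem fixed_ext {w w' : Place L F} (hw : e.IsFixed w)
    (h : ∀ x, w'.ord (e.i x) = w.ord (e.i x)) : w' = w := by
  obtain ⟨x, hx, hxo⟩ := e.exists_fixed_pole hw
  by_contra hne
  have := hxo w' hne
  rw [h] at this
  omega

theorem exists_over (v : Place K₀ F₀) :
    ∃ w : Place L F, e.IsFixed w ∧ ∀ x, w.ord (e.i x) = v.ord x := by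
  classical
  obtain ⟨x, hxT, hxv, hxo⟩ := HeckeJ.exists_only_pole v
  have hx0 := RR.ne_zero_of_transcendental hxT
  obtain ⟨w, hw⟩ : ∃ w : Place L F, w.ord (e.i x) < 0 := by
    by_contra hne
    simp only [not_exists, not_lt] at hne
    have hmem : e.i x ∈ riemannRochSpace (0 : Divisor L F) := mem_rrSpace.mpr fun u => by
      rw [RR.bd_iff_ord ((map_ne_zero e.i).mpr hx0)]
      simpa using hne u
    obtain ⟨l, hl⟩ : ∃ l, algebraMap L F l = e.i x := by
      rcases RR.exists_const_or_transcendental (K := L) (e.i x) with ⟨a, ha⟩ | hT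
      · exact ⟨a, ha⟩
      · exfalso
        obtain ⟨u, hu⟩ := RR.exists_zero (RR.transcendental_inv hT)
        rw [u.ord_inv] at hu
        have := hne u
        omega
    obtain ⟨c, hc⟩ : l ∈ Set.range (algebraMap K₀ L) := by
      refine mem_range_of_finite_orbit ((Set.finite_singleton l).subset ?_)
      rintro _ ⟨σ, rfl⟩
      refine (algebraMap L F).injective ?_
      rw [← e.conj_algebraMap σ, hl, conj_i]
    rw [← hc, ← e.i_algebraMap] at hl
    exact hxT (e.i.injective hl ▸ isAlgebraic_algebraMap c)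
  have hfix := e.isFixed_of_ord_ne_zero (w := w) (x := x) (by omega)
  obtain ⟨v', hv'⟩ := e.exists_restrict hfix
  have : v' = v := by
    by_contra hne
    have := hxo v' hne
    rw [← hv'] at this
    omega
  exact ⟨w, hfix, fun y => by rw [hv', this]⟩

/-- the place over `v` -/
def lift (v : Place K₀ F₀) : Place L F := (e.exists_over v).choose

theorem lift_fixed (v : Place K₀ F₀) : e.IsFixed (e.lift v) := (e.exists_over v).choose_spec.1

theorem ord_lift (v : Place K₀ F₀) (x : F₀) : (e.lift v).ord (e.i x) = v.ord x :=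
  (e.exists_over v).choose_spec.2 x

theorem lift_injective : Function.Injective e.lift := by
  intro v v' h
  by_contra hne
  obtain ⟨x, -, hxv, hxo⟩ := HeckeJ.exists_only_pole v
  have := hxo v' (Ne.symm hne)
  rw [← e.ord_lift v', ← h, e.ord_lift] at this
  omega

theorem exists_lift_eq {w : Place L F} (hw : e.IsFixed w) : ∃ v, e.lift v = w := by
  obtain ⟨v, hv⟩ := e.exists_restrict hw
  exact ⟨v, e.fixed_ext hw fun x => by rw [e.ord_lift, hv]⟩

theorem ord_i_eq_zero {w : Place L F} (hw : ∀ v, e.lift v ≠ w) (x : F₀) : w.ord (e.i x) = 0 := by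
  by_contra hne
  obtain ⟨v, hv⟩ := e.exists_lift_eq (e.isFixed_of_ord_ne_zero hne)
  exact hw v hv

end ConstExt

end FLTAgent.AJ

end
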