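import Fermat.Agent.RR.API

/-!
Function fields in the sense of `IsCurveOver` with `EssFiniteType` are finite over a rational
function field.
-/

set_option autoImplicit false

noncomputable section

open AlgebraicCurve KaehlerDifferential
open scoped TensorProduct

namespace FLTAgent.AJ

variable {K F : Type*} [Field K] [Field F] [Algebra K F]

open scoped IntermediateField.algebraAdjoinAdjoin in
theorem finrank_kaehler_of_separable {ι : Type*} [Fintype ι] {v : ι → F}
    (hb : AlgebraicIndependent K v)
    [Algebra.IsSeparable (IntermediateField.adjoin K (Set.range v)) F] :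
    Module.finrank F Ω[F⁄K] = Fintype.card ι := by
  letI : Algebra (MvPolynomial ι K) (Algebra.adjoin K (Set.range v)) :=
    (hb.aevalEquiv : MvPolynomial ι K →+* Algebra.adjoin K (Set.range v)).toAlgebra
  letI : Algebra (MvPolynomial ι K) F :=
    ((algebraMap (Algebra.adjoin K (Set.range v)) F).comp
      (algebraMap (MvPolynomial ι K) (Algebra.adjoin K (Set.range v)))).toAlgebra
  haveI : IsScalarTower (MvPolynomial ι K) (Algebra.adjoin K (Set.range v)) F :=
    IsScalarTower.of_algebraMap_eq fun _ => rfl
  haveI : IsScalarTower K (MvPolynomial ι K) F := IsScalarTower.of_algebraMap_eq fun c => by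
    show _ = algebraMap (Algebra.adjoin K (Set.range v)) F
      (hb.aevalEquiv (algebraMap K (MvPolynomial ι K) c))
    rw [AlgEquiv.commutes, ← IsScalarTower.algebraMap_apply]
  haveI : Algebra.FormallyEtale (MvPolynomial ι K) (Algebra.adjoin K (Set.range v)) :=
    Algebra.FormallyEtale.of_equiv (AlgEquiv.ofBijective
      (Algebra.ofId (MvPolynomial ι K) (Algebra.adjoin K (Set.range v))) hb.aevalEquiv.bijective)
  haveI : Algebra.FormallyEtale (Algebra.adjoin K (Set.range v))
      (IntermediateField.adjoin K (Set.range v)) :=
    Algebra.FormallyEtale.of_isLocalization (nonZeroDivisors _)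
  haveI : Algebra.FormallyEtale (IntermediateField.adjoin K (Set.range v)) F :=
    Algebra.FormallyEtale.of_isSeparable _ F
  haveI : Algebra.FormallyEtale (Algebra.adjoin K (Set.range v)) F :=
    Algebra.FormallyEtale.comp _ (IntermediateField.adjoin K (Set.range v)) F
  haveI : Algebra.FormallyEtale (MvPolynomial ι K) F :=
    Algebra.FormallyEtale.comp _ (Algebra.adjoin K (Set.range v)) F
  have b := ((KaehlerDifferential.mvPolynomialBasis K ι).baseChange F).map
    (KaehlerDifferential.tensorKaehlerEquivOfFormallyEtale K (MvPolynomial ι K) F)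
  exact Module.finrank_eq_card_basis b

theorem fnField_of_isCurveOver (K F : Type*) [Field K] [Field F] [Algebra K F] [CharZero K]
    [IsCurveOver K F] [Algebra.EssFiniteType K F] : RR.FnField K F := by
  obtain ⟨s, hs, hsep⟩ := exists_isTranscendenceBasis_and_isSeparable_of_perfectField K F
  haveI : Algebra.IsSeparable
      (IntermediateField.adjoin K (Set.range (Subtype.val : ↥(s : Set F) → F))) F := by
    rw [Subtype.range_coe]; exact hsep
  have hcard := finrank_kaehler_of_separable (ι := (s : Set F)) hs.1
  rw [(IsCurveOver.kaehler_free_rank_one (K := K) (F := F)).2] at hcard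
  obtain ⟨x, hx⟩ := Finset.card_eq_one.mp (by simpa using hcard.symm)
  subst hx
  refine ⟨x, AlgebraicIndependent.transcendental hs.1 ⟨x, by simp⟩, ?_⟩
  rw [Finset.coe_singleton] at hsep
  haveI : Algebra.EssFiniteType (IntermediateField.adjoin K ({x} : Set F)) F :=
    Algebra.EssFiniteType.of_comp K _ F
  haveI := hsep
  exact Algebra.finite_of_essFiniteType_of_isAlgebraic

end FLTAgent.AJ

end
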