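import Mathlib

/-!
Automorphisms of an algebraically closed field over an algebraically closed subfield: elements
with finite orbit are constants; stable subspaces of coordinate spaces are spanned by fixed vectors.
-/

set_option autoImplicit false

noncomputable section

namespace FLTAgent.AJ

variable {K₀ L : Type*} [Field K₀] [Field L] [Algebra K₀ L]

theorem exists_aut_shift [IsAlgClosed L] {a : L} (ha : Transcendental K₀ a) (m : K₀) :
    ∃ σ : L ≃ₐ[K₀] L, σ a = a + algebraMap K₀ L m := by
  classical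
  obtain ⟨B, haB, hB⟩ := exists_isTranscendenceBasis_superset (R := K₀) (s := ({a} : Set L))
    (by simpa using ha)
  set i₀ : B := ⟨a, haB rfl⟩ with hi₀
  letI := IsAlgClosed.isAlgClosure_of_transcendence_basis (Subtype.val : B → L) hB
  let up : MvPolynomial B K₀ →ₐ[K₀] MvPolynomial B K₀ :=
    MvPolynomial.aeval fun b => MvPolynomial.X b + (if b = i₀ then MvPolynomial.C m else 0)
  let down : MvPolynomial B K₀ →ₐ[K₀] MvPolynomial B K₀ :=
    MvPolynomial.aeval fun b => MvPolynomial.X b - (if b = i₀ then MvPolynomial.C m else 0)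
  let shift : MvPolynomial B K₀ ≃ₐ[K₀] MvPolynomial B K₀ :=
    AlgEquiv.ofAlgHom up down (MvPolynomial.algHom_ext fun b => by
        simp only [up, down, AlgHom.comp_apply, AlgHom.id_apply, MvPolynomial.aeval_X, map_sub]
        split_ifs with h <;> simp [h, MvPolynomial.algebraMap_eq])
      (MvPolynomial.algHom_ext fun b => by
        simp only [up, down, AlgHom.comp_apply, AlgHom.id_apply, MvPolynomial.aeval_X, map_add]
        split_ifs with h <;> simp [h, MvPolynomial.algebraMap_eq])
  let e : Algebra.adjoin K₀ (Set.range (Subtype.val : B → L)) ≃ₐ[K₀]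
      Algebra.adjoin K₀ (Set.range (Subtype.val : B → L)) :=
    (hB.1.aevalEquiv.symm.trans shift).trans hB.1.aevalEquiv
  let σ : L ≃+* L := IsAlgClosure.equivOfEquiv L L e.toRingEquiv
  have hσ : ∀ z, σ (algebraMap _ L z) = algebraMap _ L (e z) := fun z =>
    IsAlgClosure.equivOfEquiv_algebraMap L L e.toRingEquiv z
  have hc : ∀ c : K₀, σ (algebraMap K₀ L c) = algebraMap K₀ L c := fun c => by
    rw [IsScalarTower.algebraMap_apply K₀ (Algebra.adjoin K₀ (Set.range (Subtype.val : B → L))) L,
      hσ, AlgEquiv.commutes]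
  refine ⟨AlgEquiv.ofRingEquiv (f := σ) hc, ?_⟩
  have hX : ((hB.1.aevalEquiv (MvPolynomial.X i₀) :
      Algebra.adjoin K₀ (Set.range (Subtype.val : B → L))) : L) = a := by simp [hi₀]
  show σ a = _
  conv_lhs => rw [← hX]
  rw [show ((hB.1.aevalEquiv (MvPolynomial.X i₀) :
      Algebra.adjoin K₀ (Set.range (Subtype.val : B → L))) : L) =
      algebraMap _ L (hB.1.aevalEquiv (MvPolynomial.X i₀)) from rfl, hσ]
  simp only [e, AlgEquiv.trans_apply, AlgEquiv.symm_apply_apply]
  show ((hB.1.aevalEquiv (shift (MvPolynomial.X i₀)) :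
      Algebra.adjoin K₀ (Set.range (Subtype.val : B → L))) : L) = _
  simp [shift, up, hi₀]

theorem mem_range_of_finite_orbit [IsAlgClosed K₀] [CharZero K₀] [IsAlgClosed L] {a : L}
    (h : (Set.range fun σ : L ≃ₐ[K₀] L => σ a).Finite) : a ∈ Set.range (algebraMap K₀ L) := by
  by_cases ha : IsAlgebraic K₀ a
  · exact minpoly.degree_eq_one_iff.mp
      (IsAlgClosed.degree_eq_one_of_irreducible K₀ (minpoly.irreducible ha.isIntegral))
  · exfalso
    choose σ hσ using fun m : ℕ => exists_aut_shift (K₀ := K₀) ha (m : K₀)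
    have hinj : Function.Injective fun m : ℕ => σ m a := by
      intro m n hmn
      simp only [hσ] at hmn
      exact Nat.cast_injective ((algebraMap K₀ L).injective (add_left_cancel hmn))
    exact Set.infinite_range_of_injective hinj (h.subset (by rintro _ ⟨m, rfl⟩; exact ⟨σ m, rfl⟩))

/-- coordinatewise action -/
def coordAct {ι : Type*} (σ : L ≃ₐ[K₀] L) (c : ι →₀ L) : ι →₀ L :=
  Finsupp.mapRange σ (map_zero σ) c

@[simp]
theorem coordAct_apply {ι : Type*} (σ : L ≃ₐ[K₀] L) (c : ι →₀ L) (j : ι) :
    coordAct σ c j = σ (c j) := rfl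

theorem coordAct_smul {ι : Type*} (σ : L ≃ₐ[K₀] L) (l : L) (c : ι →₀ L) :
    coordAct σ (l • c) = σ l • coordAct σ c := by
  ext j
  simp

variable [IsAlgClosed K₀] [CharZero K₀] [IsAlgClosed L]

/-- Galois descent in coordinates. -/
theorem mem_span_fixed {ι : Type*} (W : Submodule L (ι →₀ L))
    (hW : ∀ σ : L ≃ₐ[K₀] L, ∀ c ∈ W, coordAct σ c ∈ W) (c : ι →₀ L) (hc : c ∈ W) :
    c ∈ Submodule.span L {d : ι →₀ L | d ∈ W ∧ ∀ j, d j ∈ Set.range (algebraMap K₀ L)} := by
  classical
  induction h : c.support.card using Nat.strong_induction_on generalizing c with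
  | _ n ih =>
  rcases eq_or_ne c 0 with rfl | hc0
  · exact zero_mem _
  -- a vector of minimal support inside that of `c`
  have hex : ∃ k, ∃ d ∈ W, d ≠ 0 ∧ d.support ⊆ c.support ∧ d.support.card = k :=
    ⟨_, c, hc, hc0, le_rfl, rfl⟩
  obtain ⟨d, hd, hd0, hsub, hcard⟩ := Nat.find_spec hex
  obtain ⟨j₀, hj₀⟩ := Finsupp.support_nonempty_iff.mpr hd0
  have hdj : d j₀ ≠ 0 := Finsupp.mem_support_iff.mp hj₀
  set u := (d j₀)⁻¹ • d with hu
  have huW : u ∈ W := W.smul_mem _ hd
  have huj : u j₀ = 1 := by simp [hu, hdj]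
  have husupp : u.support = d.support := Finsupp.support_smul_eq (inv_ne_zero hdj)
  have hfix : ∀ σ : L ≃ₐ[K₀] L, coordAct σ u = u := by
    intro σ
    by_contra hne
    have hsub' : (coordAct σ u - u).support ⊆ d.support.erase j₀ := by
      intro j hj
      rw [Finsupp.mem_support_iff, Finsupp.sub_apply, coordAct_apply] at hj
      refine Finset.mem_erase.mpr ⟨?_, ?_⟩
      · rintro rfl
        exact hj (by rw [huj, map_one, sub_self])
      · rw [← husupp, Finsupp.mem_support_iff]
        intro h0
        exact hj (by rw [h0, map_zero, sub_self])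
    refine Nat.find_min hex (m := (coordAct σ u - u).support.card) ?_
      ⟨_, W.sub_mem (hW σ u huW) huW, sub_ne_zero.mpr hne,
        hsub'.trans ((Finset.erase_subset _ _).trans hsub), rfl⟩
    rw [← hcard]
    exact lt_of_le_of_lt (Finset.card_le_card hsub') (Finset.card_erase_lt_of_mem hj₀)
  have humem : u ∈ Submodule.span L
      {d : ι →₀ L | d ∈ W ∧ ∀ j, d j ∈ Set.range (algebraMap K₀ L)} := by
    refine Submodule.subset_span ⟨huW, fun j => mem_range_of_finite_orbit ?_⟩
    refine (Set.finite_singleton (u j)).subset ?_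
    rintro _ ⟨σ, rfl⟩
    exact DFunLike.congr_fun (hfix σ) j
  have hlt : (c - c j₀ • u).support.card < n := by
    rw [← h]
    refine lt_of_le_of_lt (Finset.card_le_card (t := c.support.erase j₀) ?_)
      (Finset.card_erase_lt_of_mem (hsub hj₀))
    intro j hj
    rw [Finsupp.mem_support_iff, Finsupp.sub_apply, Finsupp.smul_apply, smul_eq_mul] at hj
    refine Finset.mem_erase.mpr ⟨?_, ?_⟩
    · rintro rfl
      exact hj (by rw [huj, mul_one, sub_self])
    · rw [Finsupp.mem_support_iff]
      intro h0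
      have : u j = 0 := by
        rw [← Finsupp.notMem_support_iff, husupp]
        exact fun hh => (Finsupp.mem_support_iff.mp (hsub hh)) h0
      exact hj (by rw [h0, this, mul_zero, sub_self])
  have := ih _ hlt _ (W.sub_mem hc (W.smul_mem _ huW)) rfl
  simpa using add_mem this (Submodule.smul_mem _ (c j₀) humem)

end FLTAgent.AJ

end
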