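import Fermat.Agent.AJ.BuildK
import Fermat.Agent.AJ.FieldFn

/-!
Torsion of degree zero divisor classes over an algebraically closed field of characteristic zero.
-/

set_option autoImplicit false

noncomputable section

open AlgebraicCurve

namespace FLTAgent.AJ

variable {K F : Type*} [Field K] [Field F] [Algebra K F] [IsAlgClosed K] [CharZero K]
  [RR.FnField K F]

theorem card_le_of_finset (n : ℕ) (hn : 0 < n) (T : Finset (Pic0 K F))
    (hT : ∀ c ∈ T, c ∈ Pic0.torsion K F n) : T.card ≤ n ^ (2 * genusFF K F) := by
  classical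
  choose D hD using fun c : Pic0 K F => Pic0.mk_surjective c
  choose f hfT hfw hfo using fun w : Place K F => HeckeJ.exists_only_pole w
  refine with_model (K := K) (T.biUnion fun c => ((D c : Divisor K F)).support.image f)
    fun K₀ F₀ _ _ _ e he hG => ?_
  obtain ⟨σ⟩ := exists_ringHom_complex K₀
  haveI : Finite (Pic0.torsion K₀ F₀ n) := Nat.finite_of_card_ne_zero
    (by rw [natCard_torsion_of_embedding K₀ F₀ σ n hn]; exact pow_ne_zero _ hn.ne')
  have hex : ∀ c ∈ T, ∃ c₀ : Pic0.torsion K₀ F₀ n, e.toPic c₀ = c := by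
    intro c hc
    have hfix : ∀ w ∈ ((D c : Divisor K F)).support, ∃ v, e.lift v = w := by
      intro w hw
      have hmem : f w ∈ F₀ := hG (Finset.mem_coe.mpr
        (Finset.mem_biUnion.mpr ⟨c, hc, Finset.mem_image_of_mem f hw⟩))
      refine e.exists_lift_eq fun τ => ?_
      by_contra hne
      have h1 := e.ord_smul_i τ w ⟨f w, hmem⟩
      rw [he] at h1
      have h2 := hfo w _ hne
      have h3 := hfw w
      simp only at h1
      omega
    choose v hv using fun u : ((D c : Divisor K F)).support => hfix u.1 u.2
    set D₀ : Divisor K₀ F₀ := ∑ u, Finsupp.single (v u) ((D c : Divisor K F) u) with hD₀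
    have hlift : e.liftDiv D₀ = (D c : Divisor K F) := by
      simp only [hD₀, map_sum, ConstExt.liftDiv_single, hv]
      rw [Finset.sum_coe_sort ((D c : Divisor K F)).support
        fun u => Finsupp.single u ((D c : Divisor K F) u)]
      exact Finsupp.sum_single _
    have hdeg : Divisor.degree D₀ = 0 := by
      rw [← e.degree_liftDiv, hlift]
      exact (D c).2
    have heq : e.toPic (Pic0.mk ⟨D₀, hdeg⟩) = c := by
      rw [e.toPic_mk]
      simp only [hlift]
      rw [cls_of_deg (D c).2]
      exact hD c
    refine ⟨⟨Pic0.mk ⟨D₀, hdeg⟩, Pic0.mem_torsion.mpr (e.toPic_injective ?_)⟩, heq⟩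
    rw [map_zsmul, heq, map_zero]
    exact Pic0.mem_torsion.mp (hT c hc)
  choose g hg using hex
  calc T.card = Nat.card T := by simp
    _ ≤ Nat.card (Pic0.torsion K₀ F₀ n) :=
        Nat.card_le_card_of_injective (fun c : T => g c.1 c.2) fun a b hab => by
          have ha := hg a.1 a.2
          have hb := hg b.1 b.2
          simp only at hab
          rw [hab] at ha
          exact Subtype.ext (ha.symm.trans hb)
    _ = n ^ (2 * genusFF K F) := by
        rw [natCard_torsion_of_embedding K₀ F₀ σ n hn, e.genus_eq]

theorem natCard_torsion (n : ℕ) (hn : 0 < n) :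
    Nat.card (Pic0.torsion K F n) = n ^ (2 * genusFF K F) := by
  classical
  have hfin : (Pic0.torsion K F n : Set (Pic0 K F)).Finite := by
    by_contra h
    obtain ⟨T, hT, hcard⟩ :=
      Set.Infinite.exists_subset_card_eq h (n ^ (2 * genusFF K F) + 1)
    have := card_le_of_finset n hn T fun c hc => hT hc
    omega
  haveI : Finite (Pic0.torsion K F n) := hfin.to_subtype
  refine le_antisymm ?_ ?_
  · have hle := card_le_of_finset n hn hfin.toFinset fun c hc => by simpa using hc
    rwa [← Nat.card_eq_card_finite_toFinset hfin] at hle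
  · refine with_model (K := K) (∅ : Finset F) fun K₀ F₀ _ _ _ e _ _ => ?_
    obtain ⟨σ⟩ := exists_ringHom_complex K₀
    rw [e.genus_eq, ← natCard_torsion_of_embedding K₀ F₀ σ n hn, e.natCard_torsion_eq n]

end FLTAgent.AJ

end
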