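import Fermat.Agent.AJ.SpaceC
import Fermat.Agent.AJ.Divisors

/-!
Moving points in their linear system: if `e` is a nonspecial tuple, then nearby positions of
further points `p` determine, holomorphically, positions of `e` with linearly equivalent total.
-/

set_option autoImplicit false

noncomputable section

open AlgebraicCurve Filter Topology
open scoped ContDiff

namespace FLTAgent.AJ

variable {F : Type*} [Field F] [Algebra ℂ F] [RR.FnField ℂ F]

theorem t2Space_place : T2Space (Place ℂ F) := by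
  refine T2Space.of_injective_continuous (f := fun Q (f : F) => sval f Q) ?_ continuous_induced_dom
  intro P Q h
  refine RR.place_eq_of_le fun f hf => ?_
  rw [RR.mem_iff_bd] at hf ⊢
  by_contra hQ
  have hfun := congrFun h f
  simp only [sval_of_bd hf, sval_of_not_bd hQ] at hfun
  exact OnePoint.coe_ne_infty _ hfun

/-- a chosen uniformiser -/
def unif (v : Place ℂ F) : F := (exists_disc_at v).choose

/-- a chosen disc -/
def disc (v : Place ℂ F) : Disc v (unif v) := (exists_disc_at v).choose_spec.2.some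

/-- the point with coordinate `z` in the chosen disc at `v` -/
def dpt (v : Place ℂ F) (z : ℂ) : Place ℂ F := (disc v).pt z

theorem dpt_zero (v : Place ℂ F) : dpt v 0 = v := (disc v).pt_zero

theorem ord_unif (v : Place ℂ F) : v.ord (unif v) = 1 := (exists_disc_at v).choose_spec.1

/-- the divisor of the points with coordinates `y` near `e` -/
def moved {ι : Type*} [Fintype ι] (e : ι → Place ℂ F) (y : ι → ℂ) : Divisor ℂ F :=
  sumPts fun i => dpt (e i) (y i)

theorem moved_zero {ι : Type*} [Fintype ι] (e : ι → Place ℂ F) : moved e 0 = sumPts e := by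
  simp [moved, dpt_zero]

theorem eventually_sep {α : Type*} [Fintype α] {q : α → Place ℂ F} (hq : Function.Injective q) :
    ∀ᶠ y in 𝓝 (0 : α → ℂ), ∀ a b, a ≠ b → dpt (q a) (y a) ≠ dpt (q b) (y b) ∧
      q a ≠ dpt (q b) (y b) := by
  haveI := t2Space_place (F := F)
  rw [eventually_all]
  intro a
  rw [eventually_all]
  intro b
  by_cases hab : a = b
  · exact Eventually.of_forall fun y h => absurd hab h
  have hne : q a ≠ q b := fun h => hab (hq h)
  obtain ⟨U, V, hU, hV, haU, hbV, hUV⟩ := t2_separation hne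
  have hA : ∀ c, Tendsto (fun y : α → ℂ => dpt (q c) (y c)) (𝓝 0) (𝓝 (q c)) := fun c =>
    (disc (q c)).tendsto_pt.comp ((continuous_apply c).tendsto' _ _ rfl)
  filter_upwards [(hA a).eventually (hU.mem_nhds haU), (hA b).eventually (hV.mem_nhds hbV)]
    with y h1 h2 _
  exact ⟨fun h => Set.disjoint_left.mp hUV h1 (by rw [h]; exact h2),
    fun h => Set.disjoint_left.mp hUV haU (by rw [h]; exact h2)⟩

theorem eventually_radius {α : Type*} [Fintype α] (q : α → Place ℂ F) :
    ∀ᶠ y in 𝓝 (0 : α → ℂ), ∀ a, ‖y a‖ < (disc (q a)).r := by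
  rw [eventually_all]
  exact fun a => (((continuous_norm.comp (continuous_apply a)).tendsto' (0 : α → ℂ) 0
    (by simp))).eventually (Iio_mem_nhds (disc (q a)).r_pos)

theorem moved_inj {ι : Type*} [Fintype ι] {e : ι → Place ℂ F} (he : Function.Injective e) :
    ∃ U ∈ 𝓝 (0 : ι → ℂ), Set.InjOn (moved e) U := by
  haveI := t2Space_place (F := F)
  have hsep : ∀ᶠ p in 𝓝 (0 : (ι → ℂ) × (ι → ℂ)), ∀ a b, a ≠ b →
      dpt (e a) (p.1 a) ≠ dpt (e b) (p.2 b) := by
    rw [eventually_all]
    intro a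
    rw [eventually_all]
    intro b
    by_cases hab : a = b
    · exact Eventually.of_forall fun y h => absurd hab h
    obtain ⟨U, V, hU, hV, haU, hbV, hUV⟩ := t2_separation fun h => hab (he h)
    have hA : Tendsto (fun p : (ι → ℂ) × (ι → ℂ) => dpt (e a) (p.1 a)) (𝓝 0) (𝓝 (e a)) :=
      (disc (e a)).tendsto_pt.comp (((continuous_apply a).comp continuous_fst).tendsto' _ _ rfl)
    have hB : Tendsto (fun p : (ι → ℂ) × (ι → ℂ) => dpt (e b) (p.2 b)) (𝓝 0) (𝓝 (e b)) :=
      (disc (e b)).tendsto_pt.comp (((continuous_apply b).comp continuous_snd).tendsto' _ _ rfl)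
    filter_upwards [hA.eventually (hU.mem_nhds haU), hB.eventually (hV.mem_nhds hbV)] with p h1 h2 _
    exact fun h => Set.disjoint_left.mp hUV h1 (by rw [h]; exact h2)
  rw [show (0 : (ι → ℂ) × (ι → ℂ)) = (0, 0) from rfl, nhds_prod_eq, eventually_prod_iff] at hsep
  obtain ⟨pa, hpa, pb, hpb, hsep⟩ := hsep
  refine ⟨{y | pa y ∧ pb y ∧ ∀ a, ‖y a‖ < (disc (e a)).r},
    hpa.and (hpb.and (eventually_radius e)), fun y hy y' hy' h => funext fun a => ?_⟩
  have hmem : 0 < moved e y (dpt (e a) (y a)) := by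
    classical
    rw [moved, sumPts, Finsupp.finsetSum_apply]
    refine lt_of_lt_of_le ?_ (Finset.single_le_sum (fun i _ => ?_) (Finset.mem_univ a))
    · simp
    · rw [Finsupp.single_apply]; split_ifs <;> norm_num
  rw [h] at hmem
  obtain ⟨b, hb⟩ : ∃ b, dpt (e b) (y' b) = dpt (e a) (y a) := by
    by_contra hne
    push Not at hne
    rw [moved, sumPts_apply_of_ne hne] at hmem
    exact lt_irrefl _ hmem
  rcases eq_or_ne a b with rfl | hab
  · exact (disc (e a)).injOn (mem_ball_zero_iff.mpr (hy.2.2 a))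
      (mem_ball_zero_iff.mpr (hy'.2.2 a)) hb.symm
  · exact absurd hb.symm (hsep hy.1 hy'.2.1 a b hab)

section Move

variable {ι κ : Type*} [Fintype ι] [Fintype κ]

theorem exists_move {p : ι → Place ℂ F} {e : κ → Place ℂ F}
    (hinj : Function.Injective (Sum.elim p e)) (hκ : Fintype.card κ = genusFF ℂ F)
    (he : RR.ell (sumPts e) = 1) :
    ∃ T : (ι → ℂ) → (κ → ℂ), T 0 = 0 ∧ ContDiffAt ℂ ω T 0 ∧ ∀ᶠ y in 𝓝 (0 : ι → ℂ),
      Divisor.IsPrincipal (moved p y + moved e (T y) - (sumPts p + sumPts e)) ∧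
      ∀ E : Divisor ℂ F, (∀ v, 0 ≤ E v) → Divisor.degree E = genusFF ℂ F →
        Divisor.IsPrincipal (moved p y + E - (sumPts p + sumPts e)) → E = moved e (T y) := by
  classical
  set q := Sum.elim p e with hq
  set D := sumPts q with hD
  have hDq : ∀ a, D (q a) = 1 := sumPts_apply_self hinj
  -- residues
  have hb : ∀ (a : ι ⊕ κ) (f : F), f ∈ riemannRochSpace D → RR.Bd (q a) (unif (q a) * f) 0 := by
    intro a f hf
    have h1 : RR.Bd (q a) (unif (q a)) (-1) :=
      RR.bd_iff.mpr (Or.inr (by rw [ord_unif]; norm_num))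
    have h2 := mem_rrSpace.mp hf (q a)
    rw [hDq] at h2
    simpa using h1.mul h2
  haveI := RR.finiteDimensional_rr D
  let Res : riemannRochSpace D →ₗ[ℂ] (ι → ℂ) :=
    { toFun := fun f i => val (q (Sum.inl i)) (unif (q (Sum.inl i)) * (f : F))
      map_add' := fun f f' => funext fun i => by
        show val (q (Sum.inl i)) (unif (q (Sum.inl i)) * ((f : F) + (f' : F))) =
          val (q (Sum.inl i)) (unif (q (Sum.inl i)) * (f : F)) +
            val (q (Sum.inl i)) (unif (q (Sum.inl i)) * (f' : F))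
        rw [mul_add, val_add (hb _ _ f.2) (hb _ _ f'.2)]
      map_smul' := fun c f => funext fun i => by
        show val _ (unif (q (Sum.inl i)) * (c • (f : F))) = c * _
        rw [Algebra.smul_def, mul_left_comm, val_mul (RR.Bd.of_algebraMap c) (hb _ _ f.2),
          val_algebraMap] }
  have hker : ∀ f : riemannRochSpace D, Res f = 0 → ∃ c : ℂ, (f : F) = algebraMap ℂ F c := by
    intro f hf
    have hfe : (f : F) ∈ riemannRochSpace (sumPts e) := mem_rrSpace.mpr fun v => by
      have h := mem_rrSpace.mp f.2 v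
      by_cases hv : ∃ i, p i = v
      · obtain ⟨i, rfl⟩ := hv
        have h0 : RR.Bd (p i) (unif (p i) * (f : F)) (-1) :=
          (val_eq_zero_iff (hb (Sum.inl i) _ f.2)).mp (congrFun hf i)
        have hu0 : unif (p i) ≠ 0 := fun h0 => by simpa [h0] using ord_unif (p i)
        rw [mul_comm, RR.bd_mul_iff hu0, ord_unif] at h0
        refine h0.mono ?_
        have := sumPts_nonneg e (p i)
        omega
      · push Not at hv
        have e' : D v = sumPts e v := by
          rw [hD, hq, sumPts_elim, Finsupp.add_apply, sumPts_apply_of_ne hv, zero_add]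
        rwa [e'] at h
    have h1 : (1 : F) ∈ riemannRochSpace (sumPts e) := mem_rrSpace.mpr fun v =>
      (bd_one v).mono (sumPts_nonneg e v)
    obtain ⟨c, hc⟩ := exists_smul_eq_of_finrank_eq_one he (x := (⟨1, h1⟩ : riemannRochSpace (sumPts e)))
      (fun h => one_ne_zero (α := F) (congrArg Subtype.val h)) ⟨(f : F), hfe⟩
    refine ⟨c, ?_⟩
    have hc' := congrArg Subtype.val hc
    rw [← hc']
    show c • (1 : F) = _
    rw [Algebra.smul_def, mul_one]
  have hsurj : Function.Surjective Res := by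
    rw [← LinearMap.range_eq_top]
    refine Submodule.eq_top_of_finrank_eq ?_
    have h := Res.finrank_range_add_finrank_ker
    have hk : Module.finrank ℂ (LinearMap.ker Res) ≤ 1 := by
      have hmap : (LinearMap.ker Res).map (riemannRochSpace D).subtype ≤ (ℂ ∙ (1 : F)) := by
        rintro _ ⟨f, hf, rfl⟩
        obtain ⟨c, hc⟩ := hker f hf
        exact Submodule.mem_span_singleton.mpr ⟨c, by
          rw [Algebra.smul_def, mul_one]; exact hc.symm⟩
      haveI : FiniteDimensional ℂ (ℂ ∙ (1 : F) : Submodule ℂ F) := Module.Finite.span_singleton ℂ 1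
      have := Submodule.finrank_mono hmap
      rw [finrank_span_singleton (one_ne_zero (α := F))] at this
      rwa [(Submodule.equivMapOfInjective _ (riemannRochSpace D).injective_subtype _).finrank_eq]
    have hdim := ell_ge D
    have hdeg : Divisor.degree D = ((Fintype.card ι + genusFF ℂ F : ℕ) : ℤ) := by
      rw [hD, degree_sumPts, Fintype.card_sum, hκ]
    rw [hdeg] at hdim
    have hle : Module.finrank ℂ (LinearMap.range Res) ≤ Module.finrank ℂ (ι → ℂ) :=
      Submodule.finrank_le _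
    rw [Module.finrank_fintype_fun_eq_card] at hle ⊢
    have hell : (RR.ell D : ℤ) = Module.finrank ℂ (riemannRochSpace D) := rfl
    push_cast at hdim
    omega
  choose hs hhs using fun i => hsurj (Pi.single i 1)
  -- local expansions
  choose H hH hHev using fun (a : ι ⊕ κ) (i : ι) =>
    (disc (q a)).analytic (unif (q a) * (hs i : F)) (hb a _ (hs i).2)
  have hH0 : ∀ (j i : ι), H (Sum.inl j) i 0 = if j = i then 1 else 0 := by
    intro j i
    have h := (hHev (Sum.inl j) i).self_of_nhds.2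
    rw [(disc _).pt_zero] at h
    rw [← h]
    exact (congrFun (hhs i) j).trans (Pi.single_apply i 1 j)
  -- the system of equations
  set G : ι ⊕ κ → (ι → ℂ) → ℂ → ℂ := fun a c z => z + ∑ i, c i * H a i z with hG
  set Φ : (ι → ℂ) × (ι → ℂ) × (κ → ℂ) → (ι → ℂ) × (ι → ℂ) × (κ → ℂ) := fun x =>
    (x.1, (fun j => G (Sum.inl j) x.2.1 (x.1 j)), fun k => G (Sum.inr k) x.2.1 (x.2.2 k)) with hΦ
  have hcj : ∀ j, ContDiffAt ℂ ω
      (fun x : (ι → ℂ) × (ι → ℂ) × (κ → ℂ) => G (Sum.inl j) x.2.1 (x.1 j)) 0 := by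
    intro j
    have h1 : ContDiffAt ℂ ω (fun x : (ι → ℂ) × (ι → ℂ) × (κ → ℂ) => x.1 j) 0 :=
      ((contDiff_apply ℂ ℂ j).comp contDiff_fst).contDiffAt
    refine h1.add (ContDiffAt.sum fun i _ => ContDiffAt.mul ?_ ?_)
    · exact ((contDiff_apply ℂ ℂ i).comp (contDiff_fst.comp contDiff_snd)).contDiffAt
    · exact ContDiffAt.comp (0 : (ι → ℂ) × (ι → ℂ) × (κ → ℂ)) (g := H (Sum.inl j) i)
        (show ContDiffAt ℂ ω (H (Sum.inl j) i) _ from (hH _ _).contDiffAt) h1
  have hck : ∀ k, ContDiffAt ℂ ω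
      (fun x : (ι → ℂ) × (ι → ℂ) × (κ → ℂ) => G (Sum.inr k) x.2.1 (x.2.2 k)) 0 := by
    intro k
    have h1 : ContDiffAt ℂ ω (fun x : (ι → ℂ) × (ι → ℂ) × (κ → ℂ) => x.2.2 k) 0 :=
      ((contDiff_apply ℂ ℂ k).comp (contDiff_snd.comp contDiff_snd)).contDiffAt
    refine h1.add (ContDiffAt.sum fun i _ => ContDiffAt.mul ?_ ?_)
    · exact ((contDiff_apply ℂ ℂ i).comp (contDiff_fst.comp contDiff_snd)).contDiffAt
    · exact ContDiffAt.comp (0 : (ι → ℂ) × (ι → ℂ) × (κ → ℂ)) (g := H (Sum.inr k) i)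
        (show ContDiffAt ℂ ω (H (Sum.inr k) i) _ from (hH _ _).contDiffAt) h1
  have hΦC : ContDiffAt ℂ ω Φ 0 :=
    contDiffAt_fst.prodMk ((contDiffAt_pi.mpr hcj).prodMk (contDiffAt_pi.mpr hck))
  let A : κ → ι → ℂ := fun k i => H (Sum.inr k) i 0
  let E : ((ι → ℂ) × (ι → ℂ) × (κ → ℂ)) ≃L[ℂ] (ι → ℂ) × (ι → ℂ) × (κ → ℂ) :=
    LinearEquiv.toContinuousLinearEquiv
      { toFun := fun x => (x.1, x.1 + x.2.1, fun k => x.2.2 k + ∑ i, x.2.1 i * A k i)
        invFun := fun x => (x.1, x.2.1 - x.1, fun k => x.2.2 k - ∑ i, (x.2.1 i - x.1 i) * A k i)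
        left_inv := fun x => by
          refine Prod.ext rfl (Prod.ext ?_ ?_)
          · simp
          · funext k; simp
        right_inv := fun x => by
          refine Prod.ext rfl (Prod.ext ?_ ?_)
          · simp
          · funext k; simp
        map_add' := fun x y => by
          refine Prod.ext rfl (Prod.ext ?_ ?_)
          · simp only [Prod.fst_add, Prod.snd_add]; abel
          · funext k
            simp only [Prod.fst_add, Prod.snd_add, Pi.add_apply, add_mul, Finset.sum_add_distrib]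
            abel
        map_smul' := fun c x => by
          refine Prod.ext rfl (Prod.ext ?_ ?_)
          · simp [smul_add]
          · funext k
            simp [Finset.mul_sum, mul_assoc, mul_add] }
  have hE : HasFDerivAt Φ
      (E : (ι → ℂ) × (ι → ℂ) × (κ → ℂ) →L[ℂ] (ι → ℂ) × (ι → ℂ) × (κ → ℂ)) 0 := by
    let π1 : ι → ((ι → ℂ) × (ι → ℂ) × (κ → ℂ) →L[ℂ] ℂ) := fun i =>
      (ContinuousLinearMap.proj (R := ℂ) (φ := fun _ : ι => ℂ) i).comp
        (ContinuousLinearMap.fst ℂ (ι → ℂ) ((ι → ℂ) × (κ → ℂ)))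
    let π2 : ι → ((ι → ℂ) × (ι → ℂ) × (κ → ℂ) →L[ℂ] ℂ) := fun i =>
      (ContinuousLinearMap.proj (R := ℂ) (φ := fun _ : ι => ℂ) i).comp
        ((ContinuousLinearMap.fst ℂ (ι → ℂ) (κ → ℂ)).comp
          (ContinuousLinearMap.snd ℂ (ι → ℂ) ((ι → ℂ) × (κ → ℂ))))
    let π3 : κ → ((ι → ℂ) × (ι → ℂ) × (κ → ℂ) →L[ℂ] ℂ) := fun k =>
      (ContinuousLinearMap.proj (R := ℂ) (φ := fun _ : κ => ℂ) k).comp
        ((ContinuousLinearMap.snd ℂ (ι → ℂ) (κ → ℂ)).comp
          (ContinuousLinearMap.snd ℂ (ι → ℂ) ((ι → ℂ) × (κ → ℂ))))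
    have hterm : ∀ (a : ι ⊕ κ) (i : ι) (L : (ι → ℂ) × (ι → ℂ) × (κ → ℂ) →L[ℂ] ℂ),
        HasFDerivAt (fun x => x.2.1 i * H a i (L x)) (H a i 0 • π2 i) 0 := by
      intro a i L
      have hl : HasFDerivAt (fun x => H a i (L x)) (deriv (H a i) 0 • L) 0 := by
        have hd : HasDerivAt (H a i) (deriv (H a i) 0) (L 0) := by
          rw [map_zero]
          exact (hH a i).differentiableAt.hasDerivAt
        exact hd.comp_hasFDerivAt 0 L.hasFDerivAt
      refine ((π2 i).hasFDerivAt.mul hl).congr_fderiv ?_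
      refine ContinuousLinearMap.ext fun x => ?_
      simp
    have hj : ∀ j, HasFDerivAt
        (fun x : (ι → ℂ) × (ι → ℂ) × (κ → ℂ) => G (Sum.inl j) x.2.1 (x.1 j))
        (π1 j + ∑ i, H (Sum.inl j) i 0 • π2 i) 0 := fun j =>
      (π1 j).hasFDerivAt.add (HasFDerivAt.fun_sum fun i _ => hterm (Sum.inl j) i (π1 j))
    have hk : ∀ k, HasFDerivAt
        (fun x : (ι → ℂ) × (ι → ℂ) × (κ → ℂ) => G (Sum.inr k) x.2.1 (x.2.2 k))
        (π3 k + ∑ i, H (Sum.inr k) i 0 • π2 i) 0 := fun k =>
      (π3 k).hasFDerivAt.add (HasFDerivAt.fun_sum fun i _ => hterm (Sum.inr k) i (π3 k))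
    refine (hasFDerivAt_fst.prodMk ((hasFDerivAt_pi.mpr hj).prodMk (hasFDerivAt_pi.mpr hk))).congr_fderiv ?_
    refine ContinuousLinearMap.ext fun x => ?_
    refine Prod.ext rfl (Prod.ext ?_ ?_)
    · funext j
      show (π1 j + ∑ i, H (Sum.inl j) i 0 • π2 i) x = x.1 j + x.2.1 j
      rw [ContinuousLinearMap.add_apply, ContinuousLinearMap.sum_apply]
      simp only [ContinuousLinearMap.smul_apply, hH0, smul_eq_mul, ite_mul, one_mul, zero_mul,
        Finset.sum_ite_eq, Finset.mem_univ, if_true]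
      rfl
    · funext k
      show (π3 k + ∑ i, H (Sum.inr k) i 0 • π2 i) x = x.2.2 k + ∑ i, x.2.1 i * A k i
      rw [ContinuousLinearMap.add_apply, ContinuousLinearMap.sum_apply]
      refine congrArg₂ (· + ·) rfl (Finset.sum_congr rfl fun i _ => ?_)
      exact mul_comm _ _
  have hω : (ω : WithTop ℕ∞) ≠ 0 := by simp
  have hS := hΦC.hasStrictFDerivAt' hE hω
  set Ψ := hΦC.localInverse hE hω
  have hΦ0 : Φ 0 = 0 := by
    refine Prod.ext rfl (Prod.ext ?_ ?_)
    · funext j; simp [hΦ, hG]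
    · funext k; simp [hΦ, hG]
  have hΨ0 : Ψ 0 = 0 := by
    have := hΦC.localInverse_apply_image hE hω
    rwa [hΦ0] at this
  have hΨC : ContDiffAt ℂ ω Ψ 0 := by
    have := hΦC.to_localInverse hE hω
    rwa [hΦ0] at this
  have hr : ∀ᶠ x in 𝓝 0, Φ (Ψ x) = x := by
    have := hS.eventually_right_inverse
    rwa [hΦ0] at this
  set ins : (ι → ℂ) → (ι → ℂ) × (ι → ℂ) × (κ → ℂ) := fun y => (y, 0, 0)
  have hins : ContDiff ℂ ω ins := contDiff_id.prodMk (contDiff_const.prodMk contDiff_const)
  set S : (ι → ℂ) → (ι → ℂ) × (ι → ℂ) × (κ → ℂ) := fun y => Ψ (ins y)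
  have hSC : ContDiffAt ℂ ω S 0 :=
    ContDiffAt.comp (0 : ι → ℂ) (g := Ψ) (f := ins)
      (show ContDiffAt ℂ ω Ψ (ins 0) from hΨC) hins.contDiffAt
  have hS0 : S 0 = 0 := by
    show Ψ (ins 0) = 0
    rw [show ins 0 = 0 from rfl, hΨ0]
  refine ⟨fun y => (S y).2.2, by show (S 0).2.2 = 0; rw [hS0]; rfl, hSC.snd.snd, ?_⟩
  -- conditions on `y`
  have hSt : Tendsto S (𝓝 0) (𝓝 0) := by simpa [hS0] using hSC.continuousAt.tendsto
  set pos : (ι → ℂ) → (ι ⊕ κ → ℂ) := fun y => Sum.elim y (S y).2.2 with hpos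
  have hpost : Tendsto pos (𝓝 0) (𝓝 0) := by
    refine tendsto_pi_nhds.mpr fun a => ?_
    rcases a with i | k
    · exact (continuous_apply i).tendsto' 0 0 rfl
    · exact ((((continuous_apply k).comp continuous_snd).comp continuous_snd).tendsto' 0 0 rfl).comp hSt
  have hev1 : ∀ᶠ z in 𝓝 (0 : ι ⊕ κ → ℂ), ∀ a i, RR.Bd (dpt (q a) (z a)) (unif (q a) * (hs i : F)) 0 ∧
      val (dpt (q a) (z a)) (unif (q a) * (hs i : F)) = H a i (z a) := by
    rw [eventually_all]
    intro a
    rw [eventually_all]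
    intro i
    exact ((continuous_apply a).tendsto' (0 : ι ⊕ κ → ℂ) 0 rfl).eventually (hHev a i)
  have hdet : ∀ᶠ y in 𝓝 (0 : ι → ℂ), (Matrix.of fun j i => H (Sum.inl j) i (y j)).det ≠ 0 := by
    have hc : ContinuousAt (fun y : ι → ℂ => (Matrix.of fun j i => H (Sum.inl j) i (y j)).det) 0 := by
      refine (continuous_id.matrix_det.continuousAt).comp
        (f := fun y : ι → ℂ => Matrix.of fun j i => H (Sum.inl j) i (y j)) ?_
      refine continuousAt_pi.mpr fun j => continuousAt_pi.mpr fun i => ?_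
      exact ContinuousAt.comp (g := H (Sum.inl j) i) (by simpa using (hH _ i).continuousAt)
        (continuous_apply j).continuousAt
    refine hc.eventually_ne ?_
    rw [show (Matrix.of fun j i => H (Sum.inl j) i ((0 : ι → ℂ) j)) = (1 : Matrix ι ι ℂ) from
      Matrix.ext fun j i => by simp [hH0, Matrix.one_apply]]
    simp
  have hins0 : Tendsto ins (𝓝 0) (𝓝 0) := hins.continuous.tendsto' 0 0 rfl
  filter_upwards [hins0.eventually hr, hpost.eventually hev1, hpost.eventually (eventually_sep hinj),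
    hpost.eventually (eventually_radius q), hdet] with y hy hval hsep hrad hdety
  set z := pos y with hzdef
  set c := (S y).2.1 with hcdef
  have hy1 : (S y).1 = y := congrArg Prod.fst hy
  have heq : ∀ a, z a + ∑ i, c i * H a i (z a) = 0 := by
    have e2 := congrArg (fun x => x.2.1) hy
    have e3 := congrArg (fun x => x.2.2) hy
    intro a
    rcases a with j | k
    · have := congrFun e2 j
      simp only [hΦ, hG] at this
      rw [show (Ψ (ins y)).1 = y from hy1] at this
      exact this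
    · exact congrFun e3 k
  -- functions in the span
  have hcomb : ∀ (a₀ : ℂ) (b : ι → ℂ),
      algebraMap ℂ F a₀ + ∑ i, algebraMap ℂ F (b i) * (hs i : F) ∈ riemannRochSpace D := by
    intro a₀ b
    refine add_mem (mem_rrSpace.mpr fun v => (RR.Bd.of_algebraMap a₀).mono (sumPts_nonneg q v))
      (sum_mem fun i _ => ?_)
    rw [← Algebra.smul_def]
    exact Submodule.smul_mem _ _ (hs i).2
  have hvalcomb : ∀ (a : ι ⊕ κ) (a₀ : ℂ) (b : ι → ℂ),
      RR.Bd (dpt (q a) (z a))
          (unif (q a) * (algebraMap ℂ F a₀ + ∑ i, algebraMap ℂ F (b i) * (hs i : F))) 0 ∧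
        val (dpt (q a) (z a))
          (unif (q a) * (algebraMap ℂ F a₀ + ∑ i, algebraMap ℂ F (b i) * (hs i : F))) =
          a₀ * z a + ∑ i, b i * H a i (z a) := by
    intro a a₀ b
    set Q := dpt (q a) (z a)
    obtain ⟨hbt, hvt⟩ : RR.Bd Q (unif (q a)) 0 ∧ val Q (unif (q a)) = z a :=
      (disc (q a)).bd_pt (hrad a)
    have hb1 : RR.Bd Q (algebraMap ℂ F a₀ * unif (q a)) 0 := by
      simpa using (RR.Bd.of_algebraMap (v := Q) a₀).mul hbt
    have hterm : ∀ i, RR.Bd Q (algebraMap ℂ F (b i) * (unif (q a) * (hs i : F))) 0 ∧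
        val Q (algebraMap ℂ F (b i) * (unif (q a) * (hs i : F))) = b i * H a i (z a) := fun i =>
      ⟨by simpa using (RR.Bd.of_algebraMap (v := Q) (b i)).mul (hval a i).1, by
        rw [val_mul (RR.Bd.of_algebraMap (b i)) (hval a i).1, val_algebraMap, (hval a i).2]⟩
    have hsum : ∀ s : Finset ι, RR.Bd Q (∑ i ∈ s, algebraMap ℂ F (b i) * (unif (q a) * (hs i : F))) 0 ∧
        val Q (∑ i ∈ s, algebraMap ℂ F (b i) * (unif (q a) * (hs i : F))) = ∑ i ∈ s, b i * H a i (z a) := by
      intro s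
      induction s using Finset.induction with
      | empty => exact ⟨by simpa using RR.Bd.zero, by
          rw [Finset.sum_empty, Finset.sum_empty, ← map_zero (algebraMap ℂ F), val_algebraMap]⟩
      | insert i s hi ih =>
        rw [Finset.sum_insert hi, Finset.sum_insert hi]
        exact ⟨(hterm i).1.add ih.1, by rw [val_add (hterm i).1 ih.1, (hterm i).2, ih.2]⟩
    have e : unif (q a) * (algebraMap ℂ F a₀ + ∑ i, algebraMap ℂ F (b i) * (hs i : F)) =
        algebraMap ℂ F a₀ * unif (q a) +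
          ∑ i, algebraMap ℂ F (b i) * (unif (q a) * (hs i : F)) := by
      rw [mul_add, Finset.mul_sum, mul_comm]
      congr 1
      exact Finset.sum_congr rfl fun i _ => by ring
    rw [e]
    refine ⟨hb1.add (hsum _).1, ?_⟩
    rw [val_add hb1 (hsum _).1, (hsum _).2, val_mul (RR.Bd.of_algebraMap a₀) hbt, val_algebraMap,
      hvt]
  -- the divisor `D` at the moved points
  set pts : ι ⊕ κ → Place ℂ F := fun a => dpt (q a) (z a) with hpts
  have hptsinj : Function.Injective pts := fun a b h => by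
    by_contra hne
    exact (hsep a b hne).1 h
  have hDpts : ∀ a, D (pts a) = (pts a).ord (unif (q a)) := by
    intro a
    by_cases hz0 : z a = 0
    · simp only [hpts, hz0, dpt_zero, hDq, ord_unif]
    · have h1 : D (pts a) = 0 := by
        refine sumPts_apply_of_ne fun b hb' => ?_
        rcases eq_or_ne b a with rfl | hne
        · refine hz0 ((disc (q b)).injOn (mem_ball_zero_iff.mpr (hrad b))
            (mem_ball_zero_iff.mpr (by simpa using (disc (q b)).r_pos)) ?_)
          exact (hb'.symm).trans (disc (q b)).pt_zero.symm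
        · exact (hsep b a hne).2 hb'
      obtain ⟨hbt, hvt⟩ : RR.Bd (pts a) (unif (q a)) 0 ∧ val (pts a) (unif (q a)) = z a :=
        (disc (q a)).bd_pt (hrad a)
      rw [h1, (ord_eq_zero_of_val_ne hbt (by rw [hvt]; exact hz0)).2]
  have hmoved : moved p y + moved e (S y).2.2 = sumPts pts := by
    rw [moved, moved, ← sumPts_elim]
    congr 1
    funext a
    rcases a with j | k <;> rfl
  have hDsum : sumPts p + sumPts e = D := by rw [hD, hq, sumPts_elim]
  -- the function
  set f := algebraMap ℂ F 1 + ∑ i, algebraMap ℂ F (c i) * (hs i : F) with hf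
  have hf0 : f ≠ 0 := by
    intro h0
    have hc0 : c = 0 := funext fun j => by
      have h1 : Res ⟨f, hcomb 1 c⟩ j = c j := by
        have hsplit : (⟨f, hcomb 1 c⟩ : riemannRochSpace D) =
            (⟨algebraMap ℂ F 1, mem_rrSpace.mpr fun v =>
              (RR.Bd.of_algebraMap 1).mono (sumPts_nonneg q v)⟩ : riemannRochSpace D) +
              ∑ i, c i • hs i := by
          refine Subtype.ext ?_
          simp [hf, Algebra.smul_def]
        have hR1 : Res (⟨algebraMap ℂ F 1, mem_rrSpace.mpr fun v =>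
              (RR.Bd.of_algebraMap 1).mono (sumPts_nonneg q v)⟩ : riemannRochSpace D) j = 0 := by
          show val (q (Sum.inl j)) (unif (q (Sum.inl j)) * algebraMap ℂ F 1) = 0
          have hu : RR.Bd (q (Sum.inl j)) (unif (q (Sum.inl j))) (-1) :=
            RR.bd_iff.mpr (Or.inr (by rw [ord_unif]; norm_num))
          rw [map_one, mul_one]
          exact (val_eq_zero_iff (hu.mono (by norm_num))).mpr hu
        rw [hsplit, map_add, map_sum, Pi.add_apply, hR1, zero_add, Finset.sum_apply]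
        simp [hhs, Pi.single_apply]
      rw [← h1]
      show val (q (Sum.inl j)) (unif (q (Sum.inl j)) * f) = 0
      rw [h0, mul_zero, ← map_zero (algebraMap ℂ F), val_algebraMap]
    rw [hf, hc0] at h0
    simp at h0
  obtain ⟨P, hP⟩ := RR.exists_divisor (K := ℂ) hf0
  have hPD : P + D = sumPts pts := by
    refine sub_eq_zero.mp (eq_zero_of_nonneg_of_degree (fun v => ?_) ?_)
    · rw [Finsupp.sub_apply, Finsupp.add_apply, hP]
      by_cases hv : ∃ a, pts a = v
      · obtain ⟨a, rfl⟩ := hv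
        rw [sumPts_apply_self hptsinj, hDpts]
        obtain ⟨hb', hv'⟩ := hvalcomb a 1 c
        rw [← hf] at hb' hv'
        rw [one_mul, heq a, val_eq_zero_iff hb'] at hv'
        have hu0 : unif (q a) ≠ 0 := fun h => by simpa [h] using ord_unif (q a)
        rw [RR.bd_iff_ord (mul_ne_zero hu0 hf0), (pts a).ord_mul hu0 hf0] at hv'
        omega
      · push Not at hv
        rw [sumPts_apply_of_ne hv, sub_zero]
        have := (RR.bd_iff_ord hf0).mp (mem_rrSpace.mp (hcomb 1 c) v)
        omega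
    · rw [map_sub, map_add, RR.degree_divisor hf0 hP, hD, degree_sumPts, degree_sumPts]
      ring
  refine ⟨⟨f, hf0, fun v => ?_⟩, fun E' hE0 hEd hEp => ?_⟩
  · rw [hmoved, hDsum, ← hPD, Finsupp.sub_apply, Finsupp.add_apply, hP]
    ring
  -- uniqueness
  obtain ⟨f', hf'0, hf'⟩ := hEp
  rw [hDsum] at hf'
  have hge : ∀ v, 0 ≤ moved p y v := fun v => sumPts_nonneg _ v
  have hf'D : f' ∈ riemannRochSpace D := mem_rrSpace.mpr fun v => (RR.bd_iff_ord hf'0).mpr (by
    rw [← hf' v, Finsupp.sub_apply, Finsupp.add_apply]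
    have := hge v
    have := hE0 v
    omega)
  set b : ι → ℂ := fun i => Res ⟨f', hf'D⟩ i with hbdef
  obtain ⟨a₀, ha₀⟩ := hker (⟨f', hf'D⟩ - ∑ i, b i • hs i) (by
    rw [map_sub, map_sum]
    funext j
    rw [Pi.sub_apply, Finset.sum_apply]
    simp [hhs, hbdef, Pi.single_apply])
  have hf'eq : f' = algebraMap ℂ F a₀ + ∑ i, algebraMap ℂ F (b i) * (hs i : F) := by
    rw [← ha₀, Submodule.coe_sub, Submodule.coe_sum]
    simp [Algebra.smul_def]
  have hlin : ∀ j : ι, a₀ * y j + ∑ i, b i * H (Sum.inl j) i (y j) = 0 := by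
    intro j
    obtain ⟨hb', hv'⟩ := hvalcomb (Sum.inl j) a₀ b
    rw [← hf'eq] at hb' hv'
    have hz : z (Sum.inl j) = y j := rfl
    rw [← hz, ← hv', val_eq_zero_iff hb']
    have hu0 : unif (q (Sum.inl j)) ≠ 0 := fun h => by simpa [h] using ord_unif (q (Sum.inl j))
    rw [RR.bd_iff_ord (mul_ne_zero hu0 hf'0), (dpt _ _).ord_mul hu0 hf'0]
    have h1 := hf' (pts (Sum.inl j))
    rw [Finsupp.sub_apply, Finsupp.add_apply, hDpts] at h1
    have h2 := hE0 (pts (Sum.inl j))
    have h3 : 1 ≤ moved p y (pts (Sum.inl j)) := by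
      have hinj' : Function.Injective fun i => dpt (p i) (y i) :=
        fun i i' h => Sum.inl_injective (hptsinj (a₁ := Sum.inl i) (a₂ := Sum.inl i') h)
      exact (sumPts_apply_self hinj' j).ge
    change _ ≤ (pts (Sum.inl j)).ord (unif (q (Sum.inl j))) + (pts (Sum.inl j)).ord f'
    omega
  have hbc : ∀ i, b i = a₀ * c i := by
    have hzero : (Matrix.of fun j i => H (Sum.inl j) i (y j)).mulVec (fun i => b i - a₀ * c i) = 0 := by
      funext j
      simp only [Matrix.mulVec, dotProduct, Matrix.of_apply, Pi.zero_apply]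
      have h1 := hlin j
      have h2 := heq (Sum.inl j)
      have hz : z (Sum.inl j) = y j := rfl
      rw [hz] at h2
      calc ∑ i, H (Sum.inl j) i (y j) * (b i - a₀ * c i)
          = ∑ i, b i * H (Sum.inl j) i (y j) - a₀ * ∑ i, c i * H (Sum.inl j) i (y j) := by
            rw [Finset.mul_sum, ← Finset.sum_sub_distrib]
            exact Finset.sum_congr rfl fun i _ => by ring
        _ = 0 := by linear_combination h1 - a₀ * h2
    intro i
    exact sub_eq_zero.mp (congrFun (Matrix.eq_zero_of_mulVec_eq_zero hdety hzero) i)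
  have hfa : f' = algebraMap ℂ F a₀ * f := by
    rw [hf'eq, hf, mul_add, map_one, mul_one, Finset.mul_sum]
    refine congrArg _ (Finset.sum_congr rfl fun i _ => ?_)
    rw [hbc, map_mul, mul_assoc]
  refine Finsupp.ext fun v => ?_
  have h1 := hf' v
  rw [hfa, v.ord_mul (fun h => hf'0 (by rw [hfa, h, zero_mul])) hf0, RR.ord_algebraMap,
    zero_add, ← hP v] at h1
  have h2 : P v + D v = moved p y v + moved e (S y).2.2 v := by
    rw [← Finsupp.add_apply, hPD, ← hmoved, Finsupp.add_apply]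
  rw [Finsupp.sub_apply, Finsupp.add_apply] at h1
  show E' v = moved e (S y).2.2 v
  omega

end Move

end FLTAgent.AJ

end
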