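import Fermat.Agent.AJ.Smooth
import Fermat.Agent.HeckeJ.Along

/-!
A plane model `q(t, y) = 0` of the field, smooth at a given place at which `t` is a uniformiser.
-/

set_option autoImplicit false

noncomputable section

open AlgebraicCurve Polynomial

namespace FLTAgent.AJ

variable {K F : Type*} [Field K] [Field F] [Algebra K F] [IsAlgClosed K] [CharZero K]
  [RR.FnField K F]

omit [Field F] [Algebra K F] [RR.FnField K F] [IsAlgClosed K] [CharZero K] in
instance fnFieldRatFunc : RR.FnField K (RatFunc K) where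
  exists_transcendental := ⟨RatFunc.X, RatFunc.transcendental_X,
    Module.Finite.of_surjective (Algebra.linearMap
      (IntermediateField.adjoin K ({RatFunc.X} : Set (RatFunc K))) (RatFunc K)) fun z =>
      ⟨⟨z, by rw [RatFunc.adjoin_X]; exact IntermediateField.mem_top⟩, rfl⟩⟩

/-- an element regular away from the poles of `t`, simple zero at `v`, a unit at the other zeros of `t` -/
theorem exists_second_coord {v : Place K F} {t : F} (ht : v.ord t = 1) :
    ∃ y : F, y ≠ 0 ∧ v.ord y = 1 ∧ (∀ w : Place K F, RR.Bd w t 0 → RR.Bd w y 0) ∧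
      ∀ w : Place K F, 0 < w.ord t → w ≠ v → w.ord y = 0 := by
  classical
  have htT : Transcendental K t := RR.transcendental_of_ord_ne_zero (v := v) (by omega)
  set S := RR.zeros (K := K) t with hSdef
  have hS : ∀ u ∈ S, RR.Bd u t 0 := fun u hu => by
    rw [bd_nonneg]
    exact Or.inr (RR.mem_zeros.mp hu).le
  have hv : v ∈ S := RR.mem_zeros.mpr (by omega)
  let E : Divisor K F := Finsupp.indicator S fun _ _ => -2
  have hE : ∀ u ∈ S, E u = -2 := fun u hu => Finsupp.indicator_of_mem hu _
  have hE' : ∀ u, E u ≤ 0 := fun u => by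
    by_cases hu : u ∈ S
    · rw [hE u hu]; norm_num
    · rw [show E u = 0 from Finsupp.indicator_of_notMem hu _]
  choose g hg0 hg1 hg2 using fun u : S =>
    RR.exists_ord_eq htT (hS u u.2) E (if (u : Place K F) = v then 1 else 0)
  have key : ∀ u : S, (∑ s ∈ S.attach, g s) ≠ 0 ∧
      (u : Place K F).ord (∑ s ∈ S.attach, g s) = if (u : Place K F) = v then 1 else 0 := by
    intro u
    have hr : RR.Bd (u : Place K F) (∑ s ∈ S.attach.erase u, g s) (-2) :=
      RR.Bd.sum _ _ fun s hs => by
        have hne : (u : Place K F) ≠ (s : Place K F) := fun e =>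
          (Finset.mem_erase.mp hs).1 (Subtype.ext e.symm)
        have := hg2 s u (hS u u.2) hne
        rwa [hE u u.2] at this
    rw [← Finset.add_sum_erase S.attach g (Finset.mem_attach S u), ← hg1 u]
    refine RR.ord_add_eq _ (hg0 u) ?_
    rw [RR.bd_iff] at hr
    rcases hr with hr | hr
    · exact Or.inl hr
    · refine Or.inr ?_
      rw [hg1 u]
      split_ifs <;> omega
  refine ⟨∑ s ∈ S.attach, g s, (key ⟨v, hv⟩).1, by simpa using (key ⟨v, hv⟩).2,
    fun w hw => RR.Bd.sum _ _ fun s _ => ?_, fun w hw hne => ?_⟩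
  · by_cases he : w = s
    · rw [bd_nonneg, he, hg1 s]
      exact Or.inr (by split_ifs <;> norm_num)
    · exact (hg2 s w hw he).mono (hE' w)
  · have := (key ⟨w, RR.mem_zeros.mpr hw⟩).2
    simpa [hne] using this

/-- the plane model -/
structure Model (v : Place K F) (t : F) where
  /-- second coordinate -/
  y : F
  /-- equation -/
  q : K[X][X]
  ord_y : v.ord y = 1
  ev_q : ev2 t y q = 0
  dvd : ∀ a : K[X][X], ev2 t y a = 0 → q ∣ a
  exists_den : ∀ a : K[X][X], ev2 t y a ≠ 0 →
    ∃ (c : K[X]) (b : K[X][X]), c ≠ 0 ∧ q ∣ a * b - C c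
  gen : ∀ f : F, ∃ a b : K[X][X], ev2 t y b ≠ 0 ∧ f * ev2 t y b = ev2 t y a
  smooth : at2 (0 : K) 0 (derivative q) ≠ 0

theorem exists_model {v : Place K F} {t : F} (ht : v.ord t = 1) : Nonempty (Model v t) := by
  classical
  obtain ⟨y, hy0, hy1, hy2, hy3⟩ := exists_second_coord ht
  have htT : Transcendental K t := RR.transcendental_of_ord_ne_zero (v := v) (by omega)
  letI := RR.polyAlg (K := K) t
  letI := RR.ratAlg htT
  haveI := RR.chart_tower_K (K := K) t
  haveI := RR.chart_tower_rat htT
  haveI := RR.finiteDimensional_KK htT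
  haveI : FiniteDimensional (RatFunc K) F := RR.chart_finite htT
  haveI : IsScalarTower K (RatFunc K) F := IsScalarTower.of_algebraMap_eq fun a => by
    rw [IsScalarTower.algebraMap_apply K K[X] (RatFunc K),
      ← IsScalarTower.algebraMap_apply K[X] (RatFunc K) F, ← IsScalarTower.algebraMap_apply]
  haveI : Algebra.IsIntegral (RatFunc K) F := Algebra.IsIntegral.of_finite _ F
  haveI : HasPrincipalDivisors K F := RR.hasPrincipalDivisors
  have hpoly : ∀ p : K[X], algebraMap K[X] F p = aeval t p := fun _ => rfl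
  have hxv : RR.Chart.xv K F = t := by simp [RR.Chart.xv, hpoly]
  have hint : IsIntegral K[X] y := RR.Chart.mem_A_of_bd fun w hw => hy2 w (by
    rw [RR.Chart.Fin', hxv] at hw
    exact hw)
  set q := minpoly K[X] y with hq
  have hev : ∀ a : K[X][X], ev2 t y a = aeval y a := fun a => rfl
  have hqm : minpoly (RatFunc K) y = q.map (algebraMap K[X] (RatFunc K)) :=
    minpoly.isIntegrallyClosed_eq_field_fractions (RatFunc K) F hint
  -- `v` is simple over the coordinate line
  set v0 := v.restrict (RatFunc K) with hv0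
  have hX : algebraMap (RatFunc K) F RatFunc.X = t := by
    rw [← RatFunc.algebraMap_X, ← IsScalarTower.algebraMap_apply]
    simp [hpoly]
  have he := v.ord_restrict (F := RatFunc K) RatFunc.X
  rw [hX, ht] at he
  have hepos : 0 < v.ramificationIndex (RatFunc K) := v.ramificationIndex_pos
  have he' : (v.ramificationIndex (RatFunc K) : ℤ) = 1 :=
    Int.eq_one_of_mul_eq_one_right (by positivity) he.symm
  have hv0X : v0.ord RatFunc.X = 1 := by
    rw [he', one_mul] at he
    exact he.symm
  have hN : v0.ord (Algebra.norm (RatFunc K) y) = 1 := by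
    rw [HeckeJ.ord_norm v0 hy0, Finset.sum_eq_single_of_mem v (Place.mem_fiber.mpr rfl)
      fun w hw hne => hy3 w ?_ hne]
    · exact hy1
    · have := w.ord_restrict (F := RatFunc K) RatFunc.X
      rw [hX, Place.mem_fiber.mp hw, hv0X, mul_one] at this
      rw [this]
      exact_mod_cast w.ramificationIndex_pos (F := RatFunc K)
  rw [HeckeJ.ord_norm_eq (K := K) v0 hy0, hqm, coeff_map] at hN
  have hk := Int.eq_one_of_mul_eq_one_right (by positivity) hN
  have ha0 : v.ord (aeval t (q.coeff 0)) = 1 := by
    rw [← hpoly, IsScalarTower.algebraMap_apply K[X] (RatFunc K) F, v.ord_restrict, he', one_mul]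
    rw [hk, one_mul] at hN
    exact hN
  have htop : IntermediateField.adjoin (RatFunc K) ({y} : Set F) = ⊤ := by
    have h1 : Module.finrank (IntermediateField.adjoin (RatFunc K) ({y} : Set F)) F = 1 := by
      exact_mod_cast hk
    refine IntermediateField.eq_of_le_of_finrank_eq le_top ?_
    rw [IntermediateField.finrank_top', ← Module.finrank_mul_finrank (RatFunc K)
      (IntermediateField.adjoin (RatFunc K) ({y} : Set F)) F, h1, mul_one]
  have haeval : ∀ a : K[X][X],
      aeval y (a.map (algebraMap K[X] (RatFunc K))) = ev2 t y a := fun a => by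
    rw [aeval_map_algebraMap, hev]
  have hgen : ∀ f : F, ∃ a b : K[X][X], ev2 t y b ≠ 0 ∧ f * ev2 t y b = ev2 t y a := by
    intro f
    have hf : f ∈ Algebra.adjoin (RatFunc K) ({y} : Set F) := by
      rw [← IntermediateField.adjoin_simple_toSubalgebra_of_isAlgebraic
        (Algebra.IsAlgebraic.isAlgebraic y), htop]
      trivial
    rw [Algebra.adjoin_singleton_eq_range_aeval] at hf
    obtain ⟨p, rfl⟩ := hf
    obtain ⟨b, hb⟩ := IsLocalization.exist_integer_multiples_of_finset (nonZeroDivisors K[X])
      (p.support.image p.coeff)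
    have hl : ∀ n, ∃ r : K[X],
        algebraMap K[X] (RatFunc K) r = algebraMap K[X] (RatFunc K) (b : K[X]) * p.coeff n := by
      intro n
      by_cases hn : n ∈ p.support
      · obtain ⟨r, hr⟩ := hb _ (Finset.mem_image_of_mem _ hn)
        exact ⟨r, by rw [hr, Algebra.smul_def]⟩
      · exact ⟨0, by rw [Polynomial.notMem_support_iff.mp hn, map_zero, mul_zero]⟩
    choose r hr using hl
    refine ⟨∑ n ∈ p.support, monomial n (r n), C (b : K[X]), ?_, ?_⟩
    · rw [hev, aeval_C]
      exact (map_ne_zero_iff _ (RR.Chart.algebraMap_injective (K := K) (F := F))).mpr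
        (nonZeroDivisors.ne_zero b.2)
    · rw [hev, hev, aeval_C, map_sum, AlgHom.toRingHom_eq_coe, RingHom.coe_coe,
        aeval_eq_sum_range' (n := p.natDegree + 1) (by omega), Finset.sum_mul]
      rw [← Finset.sum_subset (s₁ := p.support) (s₂ := Finset.range (p.natDegree + 1))
        (fun n hn => Finset.mem_range.mpr
          (Nat.lt_succ_of_le (Polynomial.le_natDegree_of_mem_supp n hn)))
        (fun n _ hn => by rw [Polynomial.notMem_support_iff.mp hn, zero_smul, zero_mul])]
      refine Finset.sum_congr rfl fun n _ => ?_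
      rw [aeval_monomial, IsScalarTower.algebraMap_apply K[X] (RatFunc K) F (r n), hr, map_mul,
        ← IsScalarTower.algebraMap_apply, Algebra.smul_def]
      ring
  have hdvd : ∀ a : K[X][X], ev2 t y a = 0 → q ∣ a := fun a ha =>
    minpoly.isIntegrallyClosed_dvd hint (by rw [← hev]; exact ha)
  have hden : ∀ a : K[X][X], ev2 t y a ≠ 0 →
      ∃ (c : K[X]) (b : K[X][X]), c ≠ 0 ∧ q ∣ a * b - C c := by
    intro a ha
    have hia : IsIntegral K[X] (ev2 t y a) := by
      rw [hev]
      exact (Algebra.adjoin_le (S := integralClosure K[X] F)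
        (Set.singleton_subset_iff.mpr hint)) (aeval_mem_adjoin_singleton K[X] y)
    set m := minpoly K[X] (ev2 t y a) with hm
    refine ⟨-m.coeff 0, m.divX.comp a, ?_, hdvd _ ?_⟩
    · rw [neg_ne_zero]
      intro h0
      have h := minpoly.coeff_zero_ne_zero (IsIntegral.tower_top (A := RatFunc K) hia) ha
      have h' := minpoly.isIntegrallyClosed_eq_field_fractions (RatFunc K) F hia
      rw [Algebra.algebraMap_self, RingHom.id_apply] at h'
      rw [h', coeff_map, ← hm, h0,
        map_zero] at h
      exact h rfl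
    · have h := minpoly.aeval K[X] (ev2 t y a)
      rw [← hm, ← m.X_mul_divX_add, map_add, map_mul, aeval_X, aeval_C] at h
      rw [map_sub, map_mul, ev2_C, map_neg, sub_neg_eq_add, hev (m.divX.comp a),
        aeval_comp, ← hpoly, ← hev]
      exact h
  refine ⟨⟨y, q, hy1, by rw [hev]; exact minpoly.aeval K[X] y, hdvd, hden, hgen, ?_⟩⟩
  -- simple root
  intro hd
  have h1 : (q.coeff 1).eval 0 = 0 := by
    rw [at2, coe_eval₂RingHom, eval₂_at_zero, coe_evalRingHom, coeff_derivative] at hd
    simpa using hd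
  have htb : RR.Bd v t 0 := by rw [bd_nonneg]; exact Or.inr (by omega)
  have hyb : RR.Bd v y 0 := by rw [bd_nonneg]; exact Or.inr (by omega)
  have hc : ∀ i, RR.Bd v (aeval t (q.coeff i)) 0 := fun i => (bd_aeval_and_val htb _).1
  have hc1 : RR.Bd v (aeval t (q.coeff 1)) (-1) := by
    rw [← val_eq_zero_iff (hc 1), (bd_aeval_and_val htb _).2]
    have ht0 : val v t = 0 := (val_eq_zero_iff htb).mpr
      ((RR.bd_iff_ord (RR.ne_zero_of_transcendental htT)).mpr (by omega))
    rw [ht0, h1]
  have hyb1 : RR.Bd v y (-1) := (RR.bd_iff_ord hy0).mpr (by omega)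
  have hsum := minpoly.aeval K[X] y
  rw [← hq, aeval_eq_sum_range, Finset.sum_range_succ'] at hsum
  have hb2 : RR.Bd v (∑ i ∈ Finset.range q.natDegree, q.coeff (i + 1) • y ^ (i + 1)) (-2) :=
    RR.Bd.sum _ _ fun i _ => by
      rw [Algebra.smul_def, hpoly]
      rcases i with _ | i
      · simpa using hc1.mul (hyb1.pow 1)
      · exact ((hc _).mul (hyb1.pow _)).mono (by push_cast; omega)
  rw [pow_zero, ← Algebra.algebraMap_eq_smul_one, hpoly] at hsum
  have hb0 : RR.Bd v (aeval t (q.coeff 0)) (-2) := by
    rw [eq_neg_of_add_eq_zero_right hsum]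
    exact hb2.neg
  rw [RR.bd_iff] at hb0
  rcases hb0 with h | h
  · rw [h] at ha0
    simp at ha0
  · omega

end FLTAgent.AJ

end
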