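import Fermat.Agent.AJ.Value

/-!
A smooth point of a plane model carries exactly one place.
-/

set_option autoImplicit false

noncomputable section

open AlgebraicCurve Polynomial

namespace FLTAgent.AJ

variable {K F : Type*} [Field K] [Field F] [Algebra K F] [IsAlgClosed K] [CharZero K]
  [RR.FnField K F]

omit [IsAlgClosed K] [CharZero K] [RR.FnField K F] in
theorem exists_descent (t y : F) {q : K[X][X]} (hq : ev2 t y q = 0) {c d : K}
    (h0 : at2 c d q = 0) (a : K[X][X]) (ha : at2 c d a = 0) :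
    ∃ u a' : K[X][X], at2 c d u = at2 c d (derivative q) ∧
      ev2 t y a * ev2 t y u = (t - algebraMap K F c) * ev2 t y a' := by
  have hs : ∀ b : K[X][X], at2 c d b = 0 →
      ∃ (m : K[X][X]) (r : K[X]), b = (X - C (C d)) * m + C ((X - C c) * r) := by
    intro b hb
    obtain ⟨m, hm⟩ := X_sub_C_dvd_sub_C_eval (a := C d) (p := b)
    have he : (b.eval (C d)).eval c = 0 := by
      rw [← hb, at2, coe_eval₂RingHom]
      have := (Polynomial.eval₂_at_apply (Polynomial.evalRingHom c) (C d) (p := b)).symm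
      simpa using this
    obtain ⟨r, hr⟩ := dvd_iff_isRoot.mpr he
    exact ⟨m, r, by rw [← hr, ← hm]; ring⟩
  obtain ⟨u, s, hu⟩ := hs q h0
  obtain ⟨a1, a2, ha12⟩ := hs a ha
  refine ⟨u, -(C s * a1) + C a2 * u, ?_, ?_⟩
  · rw [hu]
    simp [derivative_mul, at2]
  · have hXd : ev2 t y (X - C (C d)) * ev2 t y u = -((t - algebraMap K F c) * ev2 t y (C s)) := by
      rw [hu, map_add, map_mul, map_mul C (X - C c) s, map_mul (ev2 t y) (C (X - C c)) (C s),
        ev2_C t y (X - C c), map_sub (aeval (R := K) t), aeval_X, aeval_C, add_eq_zero_iff_eq_neg] at hq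
      exact hq
    rw [ha12, map_add, add_mul, map_mul, mul_right_comm, hXd, map_mul C (X - C c) a2,
      map_mul (ev2 t y) (C (X - C c)) (C a2), ev2_C t y (X - C c), map_sub (aeval (R := K) t), aeval_X,
      aeval_C, map_add, map_neg, map_mul, map_mul]
    ring

/-- Two places over the same smooth point of a plane model coincide. -/
theorem eq_of_val_eq {t y : F} (htT : Transcendental K t)
    (hgen : ∀ f : F, ∃ a b : K[X][X], ev2 t y b ≠ 0 ∧ f * ev2 t y b = ev2 t y a)
    {q : K[X][X]} (hq : ev2 t y q = 0) {Q Q' : Place K F}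
    (ht : RR.Bd Q t 0) (hy : RR.Bd Q y 0) (ht' : RR.Bd Q' t 0) (hy' : RR.Bd Q' y 0)
    (het : val Q' t = val Q t) (hey : val Q' y = val Q y)
    (hsm : at2 (val Q t) (val Q y) (derivative q) ≠ 0) : Q' = Q := by
  set c := val Q t with hc
  set d := val Q y with hd
  have h0 : at2 c d q = 0 := by
    rw [← (bd_ev2_and_val ht hy q).2, hq, ← map_zero (algebraMap K F), val_algebraMap]
  have htc : t - algebraMap K F c ≠ 0 :=
    RR.ne_zero_of_transcendental (RR.transcendental_sub_const htT c)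
  set e := Q.ord (t - algebraMap K F c) with he
  set e' := Q'.ord (t - algebraMap K F c) with he'
  have hpos : 1 ≤ e := (RR.bd_iff_ord htc).mp (val_spec ht) |> fun h => by omega
  have hpos' : 1 ≤ e' := by
    have h := (RR.bd_iff_ord htc).mp (het ▸ val_spec ht')
    omega
  have key : ∀ (n : ℕ) (a : K[X][X]), ev2 t y a ≠ 0 → Q.ord (ev2 t y a) ≤ n →
      ∃ k : ℕ, Q.ord (ev2 t y a) = k * e ∧ Q'.ord (ev2 t y a) = k * e' := by
    intro n
    induction n using Nat.strong_induction_on with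
    | _ n ih =>
      intro a ha hn
      obtain ⟨hb, hv⟩ := bd_ev2_and_val ht hy a
      by_cases hz : at2 c d a = 0
      · obtain ⟨u, a', hu, hmul⟩ := exists_descent t y hq h0 a hz
        obtain ⟨hub, huv⟩ := bd_ev2_and_val ht hy u
        obtain ⟨hub', huv'⟩ := bd_ev2_and_val ht' hy' u
        obtain ⟨hu0, hu1⟩ := ord_eq_zero_of_val_ne hub (by rw [huv, hu]; exact hsm)
        obtain ⟨-, hu1'⟩ := ord_eq_zero_of_val_ne hub' (by rw [huv', het, hey, hu]; exact hsm)
        have ha' : ev2 t y a' ≠ 0 := fun h => mul_ne_zero ha hu0 (by rw [hmul, h, mul_zero])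
        have e1 := congrArg Q.ord hmul
        have e2 := congrArg Q'.ord hmul
        rw [Q.ord_mul ha hu0, Q.ord_mul htc ha', hu1, add_zero] at e1
        rw [Q'.ord_mul ha hu0, Q'.ord_mul htc ha', hu1', add_zero] at e2
        have hnn := (RR.bd_iff_ord ha').mp (bd_ev2_and_val ht hy a').1
        obtain ⟨k, hk, hk'⟩ := ih (Q.ord (ev2 t y a')).toNat (by omega) a' ha' (by omega)
        refine ⟨k + 1, ?_, ?_⟩
        · rw [e1, hk]; push_cast; ring
        · rw [e2, hk']; push_cast; ring
      · refine ⟨0, ?_, ?_⟩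
        · simpa using (ord_eq_zero_of_val_ne hb (by rw [hv]; exact hz)).2
        · obtain ⟨hb', hv'⟩ := bd_ev2_and_val ht' hy' a
          simpa using (ord_eq_zero_of_val_ne hb' (by rw [hv', het, hey]; exact hz)).2
  refine (RR.place_eq_of_le fun f hf => ?_).symm
  rw [RR.mem_iff_bd, bd_nonneg] at hf ⊢
  rcases hf with hf | hf
  · exact Or.inl hf
  rcases eq_or_ne f 0 with hf0 | hf0
  · exact Or.inl hf0
  obtain ⟨a, b, hb, hab⟩ := hgen f
  have ha : ev2 t y a ≠ 0 := hab ▸ mul_ne_zero hf0 hb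
  obtain ⟨k, hk, hk'⟩ := key (Q.ord (ev2 t y a)).toNat a ha (Int.self_le_toNat _)
  obtain ⟨l, hl, hl'⟩ := key (Q.ord (ev2 t y b)).toNat b hb (Int.self_le_toNat _)
  have e1 := congrArg Q.ord hab
  have e2 := congrArg Q'.ord hab
  rw [Q.ord_mul hf0 hb, hk, hl] at e1
  rw [Q'.ord_mul hf0 hb, hk', hl'] at e2
  have hkl : (l : ℤ) ≤ k := by
    by_contra hlt
    have : (k : ℤ) * e < l * e := mul_lt_mul_of_pos_right (by omega) (by omega)
    omega
  exact Or.inr (by
    have : (l : ℤ) * e' ≤ k * e' := mul_le_mul_of_nonneg_right hkl (by omega)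
    omega)

end FLTAgent.AJ

end
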